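import Fermat.Agent.PT.Shap.SecLC

/-!
# One-group Shapiro: `H³ = 0` and finiteness of `H¹` for induced modules

`L` good, `U` open, `τ' = resRep τ U.subtype`:
* `h56s_H3Vanishes_ind` : `H3Vanishes (L.comap U.subtype) τ' → H3Vanishes L (h56s_ind τ)`;
* `h56s_HH1_finite_ind` : `Module.Finite k (HH1 (L.comap U.subtype) τ') →
     Module.Finite k (HH1 L (h56s_ind τ))`.
-/

set_option autoImplicit false
set_option linter.unusedSectionVars false

namespace Fermat.Agent.PT.Shap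

open MulAction

namespace h56s_Sec

variable {k : Type} [CommRing k] {G : Type} [Group G] {U : Subgroup G} (s : h56s_Sec G U)
variable {B : Type} [AddCommGroup B] [Module k B] (τ : Representation k G B)
variable {L : Lev G}

/-! ### linearity -/

/-- `exU1` as a linear map. -/
def exU1L : (U → B) →ₗ[k] (G → (G ⧸ U) → B) where
  toFun := s.exU1 τ
  map_add' a a' := by funext g x; simp [exU1]
  map_smul' c a := by funext g x; simp [exU1]

/-- `exU2` as a linear map. -/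
def exU2L : (U × U → B) →ₗ[k] (G × G → (G ⧸ U) → B) where
  toFun := s.exU2 τ
  map_add' a a' := by funext g x; simp [exU2]
  map_smul' c a := by funext g x; simp [exU2]

/-- `exU3` as a linear map. -/
def exU3L : (U × U × U → B) →ₗ[k] (G × G × G → (G ⧸ U) → B) where
  toFun := s.exU3 τ
  map_add' a a' := by funext g x; simp [exU3]
  map_smul' c a := by funext g x; simp [exU3]

@[simp] lemma exU1L_apply (a : U → B) : s.exU1L τ a = s.exU1 τ a := rfl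
@[simp] lemma exU2L_apply (a : U × U → B) : s.exU2L τ a = s.exU2 τ a := rfl
@[simp] lemma exU3L_apply (a : U × U × U → B) : s.exU3L τ a = s.exU3 τ a := rfl

lemma exU1_zero : s.exU1 τ (0 : U → B) = 0 := (s.exU1L τ).map_zero
lemma exU2_zero : s.exU2 τ (0 : U × U → B) = 0 := (s.exU2L τ).map_zero
lemma exU3_zero : s.exU3 τ (0 : U × U × U → B) = 0 := (s.exU3L τ).map_zero

lemma hh2_zero : s.god.hh2 (0 : G × G → (G ⧸ U) → B) = 0 := by
  funext g x; simp [h56s_OrbitData.hh2]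
lemma hh3_zero : s.god.hh3 (0 : G × G × G → (G ⧸ U) → B) = 0 := by
  funext g x; simp [h56s_OrbitData.hh3]
lemma hh4_zero : s.god.hh4 (0 : G × G × G × G → (G ⧸ U) → B) = 0 := by
  funext g x; simp [h56s_OrbitData.hh4]

/-! ### cocycles and coboundaries -/

lemma shU_d3 (f : G × G × G → (G ⧸ U) → B) :
    d3 (resRep τ U.subtype) (s.shU3 f)
      = fun p => d3 (h56s_ind (X := G ⧸ U) τ) f (p.1, p.2.1, p.2.2.1, p.2.2.2)
          (QuotientGroup.mk 1) := by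
  funext p
  obtain ⟨u, v, w, t⟩ := p
  simp only [shU3, d3_apply, h56s_ind_apply, Pi.sub_apply, Pi.add_apply, resRep_apply,
    Subgroup.coe_subtype, s.inv_smul_base, Subgroup.coe_mul]

lemma shU1_mem_Z1 {f : G → (G ⧸ U) → B} (hf : f ∈ Z1 L (h56s_ind (X := G ⧸ U) τ)) :
    s.shU1 f ∈ Z1 (L.comap U.subtype) (resRep τ U.subtype) := by
  rw [mem_Z1] at hf ⊢
  refine ⟨?_, s.isLC1_shU f hf.2⟩
  rw [← s.shU_d1, hf.1]
  rfl

lemma shU2_mem_Z2 {f : G × G → (G ⧸ U) → B} (hf : f ∈ Z2 L (h56s_ind (X := G ⧸ U) τ)) :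
    s.shU2 f ∈ Z2 (L.comap U.subtype) (resRep τ U.subtype) := by
  rw [mem_Z2] at hf ⊢
  refine ⟨?_, s.isLC2_shU f hf.2⟩
  rw [← s.shU_d2, hf.1]
  rfl

lemma shU3_mem_Z3 {f : G × G × G → (G ⧸ U) → B} (hf : f ∈ Z3 L (h56s_ind (X := G ⧸ U) τ)) :
    s.shU3 f ∈ Z3 (L.comap U.subtype) (resRep τ U.subtype) := by
  rw [mem_Z3] at hf ⊢
  refine ⟨?_, s.isLC3_shU f hf.2⟩
  rw [s.shU_d3, hf.1]
  rfl

variable (hL : L.Good) (hU : L.IsOpen U)
include hL hU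

lemma exU1_mem_Z1 {a : U → B} (ha : a ∈ Z1 (L.comap U.subtype) (resRep τ U.subtype)) :
    s.exU1 τ a ∈ Z1 L (h56s_ind (X := G ⧸ U) τ) := by
  rw [mem_Z1] at ha ⊢
  refine ⟨?_, s.isLC1_exU τ hL hU a ha.2⟩
  rw [s.exU_d1, ha.1, exU2_zero]

lemma exU2_mem_Z2 {a : U × U → B} (ha : a ∈ Z2 (L.comap U.subtype) (resRep τ U.subtype)) :
    s.exU2 τ a ∈ Z2 L (h56s_ind (X := G ⧸ U) τ) := by
  rw [mem_Z2] at ha ⊢
  refine ⟨?_, s.isLC2_exU τ hL hU a ha.2⟩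
  rw [s.exU_d2, ha.1, exU3_zero]

lemma exU1_mem_B1 {a : U → B} (ha : a ∈ B1 (resRep τ U.subtype)) :
    s.exU1 τ a ∈ B1 (h56s_ind (X := G ⧸ U) τ) := by
  rw [mem_B1] at ha ⊢
  obtain ⟨b, rfl⟩ := ha
  exact ⟨s.exU0 τ b, s.exU_d0 τ b⟩

lemma exU2_mem_B2 {a : U × U → B} (ha : a ∈ B2 (L.comap U.subtype) (resRep τ U.subtype)) :
    s.exU2 τ a ∈ B2 L (h56s_ind (X := G ⧸ U) τ) := by
  rw [mem_B2] at ha ⊢
  obtain ⟨c, hc, rfl⟩ := ha
  exact ⟨s.exU1 τ c, s.isLC1_exU τ hL hU c hc, s.exU_d1 τ c⟩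

/-- a `1`-cocycle of the induced module is cohomologous to `exU (shU f)`. -/
lemma sub_exU_shU1_mem_B1 {f : G → (G ⧸ U) → B} (hf : f ∈ Z1 L (h56s_ind (X := G ⧸ U) τ)) :
    f - s.exU1 τ (s.shU1 f) ∈ B1 (h56s_ind (X := G ⧸ U) τ) := by
  rw [mem_Z1] at hf
  rw [mem_B1]
  refine ⟨- s.god.hh1 f, ?_⟩
  have h := s.homU1 τ f
  rw [hf.1, hh2_zero, sub_zero] at h
  rw [map_neg]
  generalize s.exU1 τ (s.shU1 f) = E at h ⊢
  generalize d0 (h56s_ind (X := G ⧸ U) τ) (s.god.hh1 f) = D0 at h ⊢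
  rw [h]
  abel

/-- a `2`-cocycle of the induced module is cohomologous to `exU (shU f)`. -/
lemma sub_exU_shU2_mem_B2 {f : G × G → (G ⧸ U) → B}
    (hf : f ∈ Z2 L (h56s_ind (X := G ⧸ U) τ)) :
    f - s.exU2 τ (s.shU2 f) ∈ B2 L (h56s_ind (X := G ⧸ U) τ) := by
  rw [mem_Z2] at hf
  rw [mem_B2]
  refine ⟨- s.god.hh2 f, h56s_isLC1_neg (s.isLC1_hh2 hL hU f hf.2), ?_⟩
  have h := s.homU2 τ f
  rw [hf.1, hh3_zero, sub_zero] at h
  rw [map_neg]
  generalize s.exU2 τ (s.shU2 f) = E at h ⊢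
  generalize d1 (h56s_ind (X := G ⧸ U) τ) (s.god.hh2 f) = D0 at h ⊢
  rw [h]
  abel

include s in
/-- **`H³ = 0` for the induced module.** -/
theorem H3Vanishes_ind (h : H3Vanishes (L.comap U.subtype) (resRep τ U.subtype)) :
    H3Vanishes L (h56s_ind (X := G ⧸ U) τ) := by
  intro f hf
  have h1 : s.shU3 f ∈ B3 (L.comap U.subtype) (resRep τ U.subtype) := h (s.shU3_mem_Z3 τ hf)
  rw [mem_B3] at h1 ⊢
  obtain ⟨c, hc, hcf⟩ := h1
  rw [mem_Z3] at hf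
  refine ⟨s.exU2 τ c - s.god.hh3 f,
    h56s_isLC2_sub (s.isLC2_exU τ hL hU c hc) (s.isLC2_hh3 hL hU f hf.2), ?_⟩
  have h3 := s.homU3 τ f
  rw [hf.1, hh4_zero, sub_zero] at h3
  rw [map_sub, s.exU_d2, hcf]
  exact h3.symm

/-! ### finiteness of `H¹` -/

/-- `exU1 : Z¹(U, τ') → Z¹(G, ind τ)`. -/
def exZ1 : ↥(Z1 (L.comap U.subtype) (resRep τ U.subtype)) →ₗ[k]
    ↥(Z1 L (h56s_ind (X := G ⧸ U) τ)) :=
  (s.exU1L τ).restrict (fun _ ha => s.exU1_mem_Z1 τ hL hU ha)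

/-- the map induced by `exU1` on `H¹`. -/
def exHH1 : HH1 (L.comap U.subtype) (resRep τ U.subtype) →ₗ[k]
    HH1 L (h56s_ind (X := G ⧸ U) τ) :=
  Submodule.mapQ _ _ (s.exZ1 τ hL hU) (fun a ha => by
    rw [Submodule.mem_comap] at ha ⊢
    exact s.exU1_mem_B1 τ hL hU ha)

lemma exHH1_surjective : Function.Surjective (s.exHH1 τ hL hU) := by
  intro y
  obtain ⟨f, rfl⟩ := Submodule.Quotient.mk_surjective _ y
  refine ⟨Submodule.Quotient.mk ⟨s.shU1 f.1, s.shU1_mem_Z1 τ f.2⟩, ?_⟩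
  change Submodule.Quotient.mk (s.exZ1 τ hL hU ⟨s.shU1 f.1, s.shU1_mem_Z1 τ f.2⟩)
    = Submodule.Quotient.mk f
  rw [eq_comm, Submodule.Quotient.eq, Submodule.mem_comap]
  exact s.sub_exU_shU1_mem_B1 τ hL hU f.2

include s in
/-- **finiteness of `H¹` for the induced module.** -/
theorem HH1_finite_ind (h : Module.Finite k (HH1 (L.comap U.subtype) (resRep τ U.subtype))) :
    Module.Finite k (HH1 L (h56s_ind (X := G ⧸ U) τ)) :=
  Module.Finite.of_surjective (s.exHH1 τ hL hU) (s.exHH1_surjective τ hL hU)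

end h56s_Sec

end Fermat.Agent.PT.Shap
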