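import Fermat.Agent.PT.Shap.Trace
import Fermat.Agent.PT.Iface2

/-!
# PT-SHAP: frozen interface (frame v1.2)

* `h56s_restr D U sd`  : the restricted datum `D|_U` (file `Restr.lean`);
* `h56s_trR sd tr`     : the restricted trace `tr ∘ Σ_X ∘ E₃` (file `Trace.lean`);
* `h56s_invR s χ inv`  : the restricted local invariant `inv ∘ Σ_X ∘ ex₂ = inv ∘ cor`.

Statements (to be proved in `Fermat/Agent/PT/Shap/`):
* `h56s_ShapTrOK`   : `tr' ` kills the cone coboundaries of the restricted datum;
* `h56s_ShapInvOK`  : `inv'` kills the coboundaries;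
* `h56s_ShapGlobal` : `VV` and `Perf1` for `permRep k U` over `D` follow from `VV` and `Perf1`
                      for the trivial module over `D|_U`;
* `h56s_ShapLocal`  : `H³ = 0` and `LPerf2` for `permRep k V` follow from the same for the
                      trivial module of `V`.
* `h56s_ArithBaseL` : the arithmetic base case in the language of the restricted data, and
  `h56s_arithBase2_of : … → h56s_ArithBaseL → ArithBase2`.
-/

set_option autoImplicit false

open ExtCitation groupCohomology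

namespace Fermat.Agent.PT.Shap

/-- the restricted trace kills the cone coboundaries. -/
def h56s_ShapTrOK : Prop :=
  ∀ (k : Type) [Field k] (D : Datum k) (tr : D.CC3 k →ₗ[k] k), D.Good → D.TrOK tr →
    ∀ (U : Subgroup D.G) [U.FiniteIndex], D.lev.IsOpen U → ∀ sd : h56s_ShapData D U,
      (h56s_restr D U sd).TrOK (h56s_trR sd tr)

/-- the restricted local invariant kills the coboundaries. -/
def h56s_ShapInvOK : Prop :=
  ∀ (k : Type) [Field k] (H : Type) [Group H] (L : Lev H) (χ : H →* kˣ)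
    (inv : (H × H → k) →ₗ[k] k), L.Good → (∃ N ∈ L.sets, ∀ s ∈ N, χ s = 1) → InvOK L χ inv →
    ∀ (V : Subgroup H) [V.FiniteIndex], L.IsOpen V → ∀ s : h56s_Sec H V,
      InvOK (L.comap V.subtype) (χ.comp V.subtype) (h56s_invR s χ inv)

/-- SHAPIRO, global: from `D|_U` with trivial coefficients to `D` with `permRep k U`. -/
def h56s_ShapGlobal : Prop :=
  ∀ (k : Type) [Field k] (D : Datum k) (tr : D.CC3 k →ₗ[k] k), D.Good → D.TrOK tr →
    ∀ (U : Subgroup D.G) [U.FiniteIndex], D.lev.IsOpen U → (∀ u ∈ U, D.chi u = 1) →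
    ∀ sd : h56s_ShapData D U,
      (h56s_restr D U sd).VV (Representation.trivial k ↥U k) →
      (h56s_restr D U sd).Perf1 (Representation.trivial k ↥U k) (Representation.trivial k ↥U k)
        (h56s_trR sd tr) (LinearMap.mul k k) →
      D.VV (permRep k U) ∧
        D.Perf1 (dualTw D.chi (permRep k U)) (permRep k U) tr LinearMap.id

/-- SHAPIRO, local: from `V` with trivial coefficients to `H` with `permRep k V`. -/
def h56s_ShapLocal : Prop :=
  ∀ (k : Type) [Field k] (H : Type) [Group H] (L : Lev H) (χ : H →* kˣ)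
    (inv : (H × H → k) →ₗ[k] k), L.Good → (∃ N ∈ L.sets, ∀ s ∈ N, χ s = 1) → InvOK L χ inv →
    ∀ (V : Subgroup H) [V.FiniteIndex], L.IsOpen V → (∀ u ∈ V, χ u = 1) →
    ∀ s : h56s_Sec H V,
      H3Vanishes (L.comap V.subtype) (Representation.trivial k ↥V k) →
      LPerf2 (L.comap V.subtype) (h56s_invR s χ inv) (Representation.trivial k ↥V k)
        (Representation.trivial k ↥V k) (LinearMap.mul k k) →
      H3Vanishes L (permRep k V) ∧
        LPerf2 L inv (permRep k V) (dualTw χ (permRep k V)) (Module.Dual.eval k _)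

/-- ARITH-BASE over the fields `L` (frame v1.2), in the language of the restricted data:
for every open `U ≤ G_ℚ` with `χ|_U = 1` (`L` = fixed field of `U`, `μ_p ⊆ L ⊆ ℚ_S`) and SOME
choice of Shapiro data: `H¹(G_{L,S}, 𝔽_p)` finite, `H³(G_{L,S}, 𝔽_p) = 0` and the duality
`H¹_c(G_{L,S}, 𝔽_p) × H²(G_{L,S}, 𝔽_p) → 𝔽_p` is perfect for the restricted trace; for every
open `V ≤ G_{ℚ_q}` with `χ|_V = 1` (`E` = fixed field of `V`): `H³(E, 𝔽_p) = 0` and
`H²(E, 𝔽_p) × H⁰(E, 𝔽_p) → 𝔽_p` is perfect for `inv_q ∘ cor`. -/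
def h56s_ArithBaseL : Prop :=
  ∀ (p : ℕ) [Fact p.Prime] (S : Finset Nat.Primes), p ≠ 2 → pPrime p ∈ S →
    ∃ tr : (DQ p S).CC3 (ZMod p) →ₗ[ZMod p] ZMod p, (DQ p S).TrOK tr ∧
      (∀ (U : Subgroup (DQ p S).G) [U.FiniteIndex], (DQ p S).lev.IsOpen U →
        (∀ u ∈ U, (DQ p S).chi u = 1) →
        ∃ sd : h56s_ShapData (DQ p S) U,
          (h56s_restr (DQ p S) U sd).VV (Representation.trivial (ZMod p) ↥U (ZMod p)) ∧
          (h56s_restr (DQ p S) U sd).Perf1 (Representation.trivial (ZMod p) ↥U (ZMod p))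
            (Representation.trivial (ZMod p) ↥U (ZMod p)) (h56s_trR sd tr)
            (LinearMap.mul (ZMod p) (ZMod p))) ∧
      (∀ (q : (DQ p S).P) (V : Subgroup ((DQ p S).H q)) [V.FiniteIndex],
        ((DQ p S).levH q).IsOpen V → (∀ u ∈ V, (DQ p S).chiAt q u = 1) →
        ∃ s : h56s_Sec ((DQ p S).H q) V,
          H3Vanishes (((DQ p S).levH q).comap V.subtype)
            (Representation.trivial (ZMod p) ↥V (ZMod p)) ∧
          LPerf2 (((DQ p S).levH q).comap V.subtype)
            (h56s_invR s ((DQ p S).chiAt q) ((DQ p S).invAt tr q))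
            (Representation.trivial (ZMod p) ↥V (ZMod p))
            (Representation.trivial (ZMod p) ↥V (ZMod p)) (LinearMap.mul (ZMod p) (ZMod p)))

lemma h56s_finiteIndex_of_isOpen {G : Type} [Group G] {L : Lev G} (hL : L.Good)
    {U : Subgroup G} (hU : L.IsOpen U) : U.FiniteIndex := by
  obtain ⟨N, hN, hle⟩ := hU
  have := (hL N hN).2
  exact Subgroup.finiteIndex_of_le hle

/-- the assembly: `ArithBase2` from the base case over the fields `L`. -/
theorem h56s_arithBase2_of (hG : h56s_ShapGlobal) (hL : h56s_ShapLocal) (hD : DQGood)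
    (hX : LocalAux) (hA : h56s_ArithBaseL) : ArithBase2 := by
  intro p _ S hp2 hpS
  obtain ⟨tr, htr, hglob, hloc⟩ := hA p S hp2 hpS
  have hgood := hD p S hpS
  refine ⟨tr, htr, fun U hU hχ => ?_, fun q V hV hχ => ?_⟩
  · have : U.FiniteIndex := h56s_finiteIndex_of_isOpen hgood.1 hU
    obtain ⟨sd, h1, h2⟩ := hglob U hU hχ
    exact hG (ZMod p) (DQ p S) tr hgood htr U hU hχ sd h1 h2
  · have : V.FiniteIndex := h56s_finiteIndex_of_isOpen (hgood.2.1 q) hV
    obtain ⟨s, h1, h2⟩ := hloc q V hV hχ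
    obtain ⟨hx1, hx2, -⟩ := hX (ZMod p) (DQ p S) tr hgood htr q
    exact hL (ZMod p) _ ((DQ p S).levH q) ((DQ p S).chiAt q) ((DQ p S).invAt tr q)
      (hgood.2.1 q) hx1 hx2 V hV hχ s h1 h2

end Fermat.Agent.PT.Shap
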