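import Fermat.Agent.PT.Shap.ShapIface
import Fermat.Agent.PT.Shap.SecVan
import Fermat.Agent.PT.Alg.Tools

/-!
# PT-SHAP, one group: `h56s_ShapInvOK` and `h56s_ShapLocal` (helper69)

`V ≤ H` open of finite index, `X = H ⧸ V`, `s` a section.

* `h69l_sumX : (X → k) →ₗ[k] k`, `f ↦ Σ_x f x`, is equivariant `Ind (k(χ)) → k(χ)`;
* `h69l_eps s χ : (X → k) →ₗ[k] k`, `f ↦ Σ_x χ(gsec x) f x`, is equivariant
  `permRep k V → k(χ)` when `χ|_V = 1`;
* the invariants of `dualTw χ (permRep k V)` are the multiples of `ε`.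
-/

set_option autoImplicit false
set_option linter.unusedSectionVars false
set_option linter.style.haveILetI false

namespace Fermat.Agent.PT.Shap

open MulAction Fermat.Agent.PT.Tools

variable {k : Type} [Field k] {H : Type} [Group H] {V : Subgroup H} [V.FiniteIndex]

/-! ### sums over `X = H ⧸ V` -/

/-- `f ↦ Σ_x f x`. -/
noncomputable def h69l_sumX (V : Subgroup H) [V.FiniteIndex] : ((H ⧸ V) → k) →ₗ[k] k where
  toFun f := ∑ᶠ x, f x
  map_add' _ _ := finsum_add_distrib (Set.toFinite _) (Set.toFinite _)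
  map_smul' c _ := (smul_finsum c _).symm

lemma h69l_sumX_apply (f : (H ⧸ V) → k) : h69l_sumX V f = ∑ᶠ x, f x := rfl

/-- reindexing a sum over `X` by the action of `g`. -/
lemma h69l_finsum_smul (g : H) (f : (H ⧸ V) → k) : ∑ᶠ x, f (g • x) = ∑ᶠ x, f x :=
  finsum_comp_equiv (MulAction.toPerm g) (f := f)

lemma h69l_sum2_eq {G : Type} (c : G × G → (H ⧸ V) → k) :
    h56s_sum2 (H ⧸ V) c = (h69l_sumX V).compLeft (G × G) c := rfl

/-- `Σ_X` is equivariant `Ind (k(χ)) → k(χ)`. -/
theorem h69l_isHom_sumX (χ : H →* kˣ) :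
    IsHom (h56s_ind (X := H ⧸ V) (chiRep χ)) (chiRep χ) (h69l_sumX V) := by
  intro g f
  simp only [h69l_sumX_apply, h56s_ind_apply, chiRep_apply]
  rw [← mul_finsum]
  congr 1
  exact h69l_finsum_smul g⁻¹ f

/-! ### `h56s_ShapInvOK` -/

lemma h69l_resRep_chiRep (χ : H →* kˣ) (V : Subgroup H) :
    resRep (chiRep χ) V.subtype = chiRep (χ.comp V.subtype) := by
  ext u
  simp

/-- the restricted invariant in terms of `Σ_X`. -/
lemma h69l_invR_apply (s : h56s_Sec H V) (χ : H →* kˣ) (inv : (H × H → k) →ₗ[k] k)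
    (c : V × V → k) :
    h56s_invR s χ inv c = inv ((h69l_sumX V).compLeft (H × H) (s.exU2 (chiRep χ) c)) := rfl

/-- **`h56s_ShapInvOK`**: the restricted local invariant kills the coboundaries. -/
theorem h69l_shapInvOK : h56s_ShapInvOK := by
  intro k _ H _ L χ inv hL _ hinv V _ hV s c hc
  rw [← h69l_resRep_chiRep] at hc
  have h1 : s.exU2 (chiRep χ) c ∈ B2 L (h56s_ind (X := H ⧸ V) (chiRep χ)) :=
    s.exU2_mem_B2 (chiRep χ) hL hV hc
  have h2 := push_mem_B2 (L := L) (h69l_isHom_sumX (V := V) χ) h1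
  rw [h69l_invR_apply]
  exact hinv _ h2

/-! ### the functional `ε` -/

/-- `χ (gsec (g • y)) = χ g * χ (gsec y)` when `χ` is trivial on `V`. -/
lemma h69l_chi_gsec_smul (s : h56s_Sec H V) (χ : H →* kˣ) (hχ : ∀ u ∈ V, χ u = 1) (g : H)
    (y : H ⧸ V) : χ (s.gsec (g • y)) = χ g * χ (s.gsec y) := by
  have h1 : ((s.cc g (g • y) : V) : H) = (s.gsec (g • y))⁻¹ * g * s.gsec y := by
    rw [h56s_Sec.coe_cc, inv_smul_smul]
  have h2 := hχ _ (s.cc g (g • y)).2
  rw [h1, map_mul, map_mul, map_inv] at h2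
  have h3 : χ g * χ (s.gsec y) = χ (s.gsec (g • y)) * ((χ (s.gsec (g • y)))⁻¹ * χ g *
      χ (s.gsec y)) := by group
  rw [h3, h2, mul_one]

/-- `f ↦ Σ_x χ(gsec x) f x`. -/
noncomputable def h69l_eps (s : h56s_Sec H V) (χ : H →* kˣ) : ((H ⧸ V) → k) →ₗ[k] k where
  toFun f := ∑ᶠ x, (χ (s.gsec x) : k) * f x
  map_add' f f' := by
    simp only [Pi.add_apply, mul_add]
    exact finsum_add_distrib (Set.toFinite _) (Set.toFinite _)
  map_smul' c f := by
    simp only [Pi.smul_apply, smul_eq_mul, RingHom.id_apply]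
    rw [mul_finsum]
    refine finsum_congr fun x => ?_
    ring

lemma h69l_eps_apply (s : h56s_Sec H V) (χ : H →* kˣ) (f : (H ⧸ V) → k) :
    h69l_eps s χ f = ∑ᶠ x, (χ (s.gsec x) : k) * f x := rfl

/-- `ε` is equivariant `permRep k V → k(χ)` when `χ` is trivial on `V`. -/
theorem h69l_isHom_eps (s : h56s_Sec H V) (χ : H →* kˣ) (hχ : ∀ u ∈ V, χ u = 1) :
    IsHom (permRep k V) (chiRep χ) (h69l_eps s χ) := by
  intro g f
  simp only [h69l_eps_apply, permRep_apply, chiRep_apply]
  rw [← h69l_finsum_smul g (fun x => (χ (s.gsec x) : k) * f (g⁻¹ • x)), mul_finsum]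
  refine finsum_congr fun y => ?_
  simp only [inv_smul_smul, h69l_chi_gsec_smul s χ hχ g y, Units.val_mul, mul_assoc]

/-- the restricted invariant in terms of `ε` and the trivial coefficients. -/
lemma h69l_invR_eq_eps (s : h56s_Sec H V) (χ : H →* kˣ) (inv : (H × H → k) →ₗ[k] k)
    (c : V × V → k) :
    h56s_invR s χ inv c =
      inv ((h69l_eps s χ).compLeft (H × H) (s.exU2 (Representation.trivial k H k) c)) := by
  rw [h69l_invR_apply]
  congr 1

/-! ### the invariants of the twisted dual of the permutation module -/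

section Inv

variable (s : h56s_Sec H V) (χ : H →* kˣ)

open Classical in
/-- the characteristic function of a point. -/
noncomputable def h69l_delta (x : H ⧸ V) : (H ⧸ V) → k := Pi.single x 1

open Classical in
lemma h69l_delta_apply (x y : H ⧸ V) : h69l_delta (k := k) x y = if y = x then 1 else 0 := by
  simp [h69l_delta, Pi.single_apply]

lemma h69l_permRep_delta (g : H) (x : H ⧸ V) :
    permRep k V g (h69l_delta x) = h69l_delta (g • x) := by
  funext y
  rw [permRep_apply, h69l_delta_apply, h69l_delta_apply]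
  by_cases h : y = g • x
  · rw [if_pos h, if_pos (by rw [h, inv_smul_smul])]
  · rw [if_neg h, if_neg (fun h' => h (by rw [← h', smul_inv_smul]))]

open Classical in
/-- a linear form on `X → k` is determined by its values on the `δ_x`. -/
lemma h69l_dual_apply (w : Module.Dual k ((H ⧸ V) → k)) (f : (H ⧸ V) → k) :
    w f = ∑ᶠ x, f x * w (h69l_delta x) := by
  letI : Fintype (H ⧸ V) := Fintype.ofFinite _
  rw [finsum_eq_sum_of_fintype, LinearMap.pi_apply_eq_sum_univ w f]
  refine Finset.sum_congr rfl fun x _ => ?_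
  rw [smul_eq_mul]
  congr 2
  funext y
  rw [h69l_delta_apply]
  by_cases h : y = x
  · rw [if_pos h, if_pos h.symm]
  · rw [if_neg h, if_neg (fun h' => h h'.symm)]

lemma h69l_gsec_inv_smul (x : H ⧸ V) : (s.gsec x)⁻¹ • x = (QuotientGroup.mk 1 : H ⧸ V) := by
  rw [inv_smul_eq_iff, s.gsec_smul]

/-- the values of an invariant linear form on the `δ_x`. -/
lemma h69l_inv_delta {w : Module.Dual k ((H ⧸ V) → k)}
    (hw : w ∈ (dualTw χ (permRep k V)).invariants) (x : H ⧸ V) :
    w (h69l_delta x) = (χ (s.gsec x) : k) * w (h69l_delta (QuotientGroup.mk 1)) := by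
  have h := congrArg (fun φ : Module.Dual k ((H ⧸ V) → k) => φ (h69l_delta x)) (hw (s.gsec x))
  simp only [dualTw_apply, LinearMap.smul_apply, LinearMap.comp_apply, smul_eq_mul,
    h69l_permRep_delta, h69l_gsec_inv_smul] at h
  exact h.symm

/-- an invariant linear form is a multiple of `ε`. -/
theorem h69l_inv_eq {w : Module.Dual k ((H ⧸ V) → k)}
    (hw : w ∈ (dualTw χ (permRep k V)).invariants) (f : (H ⧸ V) → k) :
    w f = w (h69l_delta (QuotientGroup.mk 1)) * h69l_eps s χ f := by
  rw [h69l_dual_apply w f, h69l_eps_apply, mul_finsum]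
  refine finsum_congr fun x => ?_
  rw [h69l_inv_delta s χ hw x]
  ring

/-- `ε` is invariant. -/
theorem h69l_eps_mem_invariants (hχ : ∀ u ∈ V, χ u = 1) :
    h69l_eps s χ ∈ (dualTw χ (permRep k V)).invariants := by
  intro g
  apply LinearMap.ext
  intro f
  have h := h69l_isHom_eps s χ hχ g⁻¹ f
  rw [chiRep_apply] at h
  rw [dualTw_apply, LinearMap.smul_apply, LinearMap.comp_apply, smul_eq_mul, h, ← mul_assoc,
    ← Units.val_mul, ← map_mul, mul_inv_cancel, map_one, Units.val_one, one_mul]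

lemma h69l_eps_delta_one : h69l_eps s χ (h69l_delta (QuotientGroup.mk 1)) = 1 := by
  rw [h69l_eps_apply]
  rw [finsum_eq_single _ (QuotientGroup.mk 1 : H ⧸ V)]
  · rw [h69l_delta_apply, if_pos rfl, s.gsec_one, map_one, Units.val_one, one_mul]
  · intro x hx
    rw [h69l_delta_apply, if_neg hx, mul_zero]

end Inv

/-! ### `h56s_ShapLocal` -/

section Main

variable (s : h56s_Sec H V) (χ : H →* kˣ)

lemma h69l_resRep_trivial (V : Subgroup H) :
    resRep (Representation.trivial k H k) V.subtype = Representation.trivial k ↥V k := by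
  ext u
  simp

/-- the cup product with an invariant linear form. -/
lemma h69l_cup20_eval {w : Module.Dual k ((H ⧸ V) → k)}
    (hw : w ∈ (dualTw χ (permRep k V)).invariants) (b : H × H → (H ⧸ V) → k) :
    cup20 (Module.Dual.eval k ((H ⧸ V) → k)) (dualTw χ (permRep k V)) b w =
      w (h69l_delta (QuotientGroup.mk 1)) • (h69l_eps s χ).compLeft (H × H) b := by
  funext p
  have h1 : cup20 (Module.Dual.eval k ((H ⧸ V) → k)) (dualTw χ (permRep k V)) b w p =
      (dualTw χ (permRep k V) (p.1 * p.2) w) (b p) := rfl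
  rw [h1, hw (p.1 * p.2), h69l_inv_eq s χ hw (b p)]
  rfl

omit [V.FiniteIndex] in
/-- the cup product with a constant, trivial coefficients. -/
lemma h69l_cup20_mul (b₀ : V × V → k) (w₀ : k) :
    cup20 (LinearMap.mul k k) (Representation.trivial k ↥V k) b₀ w₀ = w₀ • b₀ := by
  funext p
  simp [cup20, mul_comm]

variable {L : Lev H} {inv : (H × H → k) →ₗ[k] k}

/-- `inv (ε ∘ b) = inv' (sh b)` for cocycles `b`. -/
lemma h69l_inv_eps (hL : L.Good) (hV : L.IsOpen V) (hχ : ∀ u ∈ V, χ u = 1)
    (hinv : InvOK L χ inv) {b : H × H → (H ⧸ V) → k} (hb : b ∈ Z2 L (permRep k V)) :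
    inv ((h69l_eps s χ).compLeft (H × H) b) = h56s_invR s χ inv (s.shU2 b) := by
  rw [h69l_invR_eq_eps]
  have hperm : permRep k V = h56s_ind (X := H ⧸ V) (Representation.trivial k H k) :=
    h56s_permRep_eq V
  have hb' : b ∈ Z2 L (h56s_ind (X := H ⧸ V) (Representation.trivial k H k)) := by
    rw [← hperm]
    exact hb
  have h1 := s.sub_exU_shU2_mem_B2 (Representation.trivial k H k) hL hV hb'
  have hε : IsHom (h56s_ind (X := H ⧸ V) (Representation.trivial k H k)) (chiRep χ)
      (h69l_eps s χ) := by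
    rw [← hperm]
    exact h69l_isHom_eps s χ hχ
  have h3 := hinv _ (push_mem_B2 (L := L) hε h1)
  rw [map_sub, map_sub, sub_eq_zero] at h3
  exact h3

/-- **`h56s_ShapLocal`**: Shapiro for the local duality `H² × H⁰`. -/
theorem h69l_shapLocal : h56s_ShapLocal := by
  intro k _ H _ L χ inv hL _ hinv V _ hV hχV s h3 hP
  have hperm : permRep k V = h56s_ind (X := H ⧸ V) (Representation.trivial k H k) :=
    h56s_permRep_eq V
  have hres := h69l_resRep_trivial (k := k) V
  refine ⟨?_, ?_, ?_⟩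
  · rw [hperm]
    refine s.H3Vanishes_ind (Representation.trivial k H k) hL hV ?_
    rw [hres]
    exact h3
  · -- the left kernel
    intro b hb hz
    have hε := h69l_eps_mem_invariants s χ hχV
    have h1 := hz _ hε
    rw [h69l_cup20_eval s χ hε b, h69l_eps_delta_one, one_smul,
      h69l_inv_eps s χ hL hV hχV hinv hb] at h1
    have hb' : b ∈ Z2 L (h56s_ind (X := H ⧸ V) (Representation.trivial k H k)) := by
      rw [← hperm]
      exact hb
    have h2 : s.shU2 b ∈ Z2 (L.comap V.subtype) (Representation.trivial k ↥V k) := by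
      rw [← hres]
      exact s.shU2_mem_Z2 (Representation.trivial k H k) hb'
    have h4 : s.shU2 b ∈ B2 (L.comap V.subtype) (Representation.trivial k ↥V k) :=
      hP.1 _ h2 (fun w₀ _ => by rw [h69l_cup20_mul, map_smul, h1, smul_zero])
    rw [← hres] at h4
    have h5 := s.exU2_mem_B2 (Representation.trivial k H k) hL hV h4
    have h6 := s.sub_exU_shU2_mem_B2 (Representation.trivial k H k) hL hV hb'
    have h7 := Submodule.add_mem _ h6 h5
    rw [sub_add_cancel] at h7
    rw [hperm]
    exact h7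
  · -- the right kernel
    intro w hw hz
    have hw0 : w (h69l_delta (QuotientGroup.mk 1)) = 0 := by
      refine hP.2 _ (fun _ => rfl) (fun b₀ hb₀ => ?_)
      rw [← hres] at hb₀
      have hb : s.exU2 (Representation.trivial k H k) b₀ ∈ Z2 L (permRep k V) := by
        rw [hperm]
        exact s.exU2_mem_Z2 (Representation.trivial k H k) hL hV hb₀
      have h1 := hz _ hb
      rw [h69l_cup20_eval s χ hw, map_smul, ← h69l_invR_eq_eps] at h1
      rw [h69l_cup20_mul, map_smul]
      exact h1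
    apply LinearMap.ext
    intro f
    rw [h69l_inv_eq s χ hw f, hw0, zero_mul]
    rfl

end Main

end Fermat.Agent.PT.Shap
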