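import Fermat.Agent.PT.Shap.SecThm

/-!
# One-group Shapiro: preservation of level-constancy

`L : Lev G` good, `U` open.  `shU`, `exU` and the homotopies `hh` preserve level-constant
cochains (levels of `U`: `L.comap U.subtype`).
-/

set_option autoImplicit false
set_option linter.unusedSectionVars false

namespace Fermat.Agent.PT.Shap

open MulAction

/-- the trivial action (used to instantiate unused instance arguments). -/
@[reducible] def h56s_trivDMA (G B : Type*) [Group G] [AddCommGroup B] : DistribMulAction G B where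
  smul _ b := b
  one_smul _ := rfl
  mul_smul _ _ _ := rfl
  smul_zero _ := rfl
  smul_add _ _ _ := rfl

section negsub

variable {G : Type} [Group G] {L : Lev G} {Y : Type*} [AddGroup Y]

lemma h56s_isLC1_neg {f : G → Y} (hf : IsLC1 L f) : IsLC1 L (-f) := hf.comp (fun y => -y)
lemma h56s_isLC2_neg {f : G × G → Y} (hf : IsLC2 L f) : IsLC2 L (-f) := hf.comp (fun y => -y)
lemma h56s_isLC3_neg {f : G × G × G → Y} (hf : IsLC3 L f) : IsLC3 L (-f) :=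
  hf.comp (fun y => -y)

lemma h56s_isLC1_sub {f f' : G → Y} (hf : IsLC1 L f) (hf' : IsLC1 L f') : IsLC1 L (f - f') := by
  rw [sub_eq_add_neg]; exact hf.add (h56s_isLC1_neg hf')
lemma h56s_isLC2_sub {f f' : G × G → Y} (hf : IsLC2 L f) (hf' : IsLC2 L f') :
    IsLC2 L (f - f') := by
  rw [sub_eq_add_neg]; exact hf.add (h56s_isLC2_neg hf')
lemma h56s_isLC3_sub {f f' : G × G × G → Y} (hf : IsLC3 L f) (hf' : IsLC3 L f') :
    IsLC3 L (f - f') := by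
  rw [sub_eq_add_neg]; exact hf.add (h56s_isLC3_neg hf')

end negsub

section triv

variable {G : Type} [Group G]

/-- a normal subgroup contained in `U` acts trivially on `G ⧸ U`. -/
lemma h56s_smul_eq_of_normal_le {U N : Subgroup G} (hN : N.Normal) (hNU : N ≤ U)
    (n : G) (hn : n ∈ N) (x : G ⧸ U) : n • x = x := by
  induction x using QuotientGroup.induction_on with
  | H g =>
    rw [MulAction.Quotient.smul_mk, smul_eq_mul]
    apply QuotientGroup.eq.2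
    have h1 : g⁻¹ * n⁻¹ * g ∈ N := by
      have := hN.conj_mem n⁻¹ (N.inv_mem hn) g⁻¹
      rwa [inv_inv] at this
    have h2 : (n * g)⁻¹ * g = g⁻¹ * n⁻¹ * g := by group
    rw [h2]
    exact hNU h1

/-- a common level below a given level and inside the open subgroup `U`. -/
lemma h56s_exists_level {L : Lev G} (hL : L.Good) {U : Subgroup G} (hU : L.IsOpen U)
    (N₁ : Subgroup G) (hN₁ : N₁ ∈ L.sets) :
    ∃ N ∈ L.sets, N.Normal ∧ N ≤ N₁ ∧ N ≤ U := by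
  obtain ⟨N₀, hN₀, h0⟩ := hU
  obtain ⟨N, hN, hle⟩ := L.directed N₁ hN₁ N₀ hN₀
  exact ⟨N, hN, (hL N hN).1, fun x hx => (hle hx).1, fun x hx => h0 (hle hx).2⟩

end triv

namespace h56s_Sec

variable {k : Type} [CommRing k] {G : Type} [Group G] {U : Subgroup G} (s : h56s_Sec G U)
variable {B : Type} [AddCommGroup B] [Module k B] (τ : Representation k G B)
variable {L : Lev G}

/-! ### `shU` -/

lemma isLC1_shU (f : G → (G ⧸ U) → B) (hf : IsLC1 L f) :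
    IsLC1 (L.comap U.subtype) (s.shU1 f) := by
  obtain ⟨N, hN, h⟩ := hf
  refine ⟨N.comap U.subtype, ⟨N, hN, rfl⟩, fun g n hn => ?_⟩
  have hn' : (n : G) ∈ N := hn
  simp only [shU1, Subgroup.coe_mul]
  rw [h _ _ hn']

lemma isLC2_shU (f : G × G → (G ⧸ U) → B) (hf : IsLC2 L f) :
    IsLC2 (L.comap U.subtype) (s.shU2 f) := by
  obtain ⟨N, hN, h⟩ := hf
  refine ⟨N.comap U.subtype, ⟨N, hN, rfl⟩, fun g g' n n' hn hn' => ?_⟩
  have hm : (n : G) ∈ N := hn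
  have hm' : (n' : G) ∈ N := hn'
  simp only [shU2, Subgroup.coe_mul]
  rw [h _ _ _ _ hm hm']

lemma isLC3_shU (f : G × G × G → (G ⧸ U) → B) (hf : IsLC3 L f) :
    IsLC3 (L.comap U.subtype) (s.shU3 f) := by
  obtain ⟨N, hN, h⟩ := hf
  refine ⟨N.comap U.subtype, ⟨N, hN, rfl⟩, fun g g' g'' n n' n'' hn hn' hn'' => ?_⟩
  have hm : (n : G) ∈ N := hn
  have hm' : (n' : G) ∈ N := hn'
  have hm'' : (n'' : G) ∈ N := hn''
  simp only [shU3, Subgroup.coe_mul]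
  rw [h _ _ _ _ _ _ hm hm' hm'']

/-! ### `exU` -/

variable (hL : L.Good) (hU : L.IsOpen U)
include hL hU

lemma isLC1_exU (a : U → B) (ha : IsLC1 (L.comap U.subtype) a) : IsLC1 L (s.exU1 τ a) := by
  obtain ⟨_, ⟨N₁, hN₁, rfl⟩, h⟩ := ha
  obtain ⟨N, hN, hn, h1, h2⟩ := h56s_exists_level hL hU N₁ hN₁
  refine ⟨N, hN, fun g n hnN => ?_⟩
  rw [exU1_eq]
  exact @h56s_OrbitData.h69s_ex1_inv G (G ⧸ U) B _ _ _ (h56s_dma τ) s.god N hn
    (h56s_smul_eq_of_normal_le hn h2) (s.lift1 a)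
    (fun w u m hm => h ⟨u, s.mem_of_stab w u⟩ ⟨m, s.mem_of_stab w m⟩ (h1 hm)) g n hnN

lemma isLC2_exU (a : U × U → B) (ha : IsLC2 (L.comap U.subtype) a) : IsLC2 L (s.exU2 τ a) := by
  obtain ⟨_, ⟨N₁, hN₁, rfl⟩, h⟩ := ha
  obtain ⟨N, hN, hn, h1, h2⟩ := h56s_exists_level hL hU N₁ hN₁
  refine ⟨N, hN, fun g g' n n' hnN hnN' => ?_⟩
  rw [exU2_eq]
  exact @h56s_OrbitData.h69s_ex2_inv G (G ⧸ U) B _ _ _ (h56s_dma τ) s.god N hn
    (h56s_smul_eq_of_normal_le hn h2) (s.lift2 a)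
    (fun w u u' m m' hm hm' => h ⟨u, s.mem_of_stab w u⟩ ⟨u', s.mem_of_stab w u'⟩
      ⟨m, s.mem_of_stab w m⟩ ⟨m', s.mem_of_stab w m'⟩ (h1 hm) (h1 hm')) g g' n n' hnN hnN'

lemma isLC3_exU (a : U × U × U → B) (ha : IsLC3 (L.comap U.subtype) a) :
    IsLC3 L (s.exU3 τ a) := by
  obtain ⟨_, ⟨N₁, hN₁, rfl⟩, h⟩ := ha
  obtain ⟨N, hN, hn, h1, h2⟩ := h56s_exists_level hL hU N₁ hN₁
  refine ⟨N, hN, fun g g' g'' n n' n'' hnN hnN' hnN'' => ?_⟩
  rw [exU3_eq]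
  exact @h56s_OrbitData.h69s_ex3_inv G (G ⧸ U) B _ _ _ (h56s_dma τ) s.god N hn
    (h56s_smul_eq_of_normal_le hn h2) (s.lift3 a)
    (fun w u u' u'' m m' m'' hm hm' hm'' => h ⟨u, s.mem_of_stab w u⟩ ⟨u', s.mem_of_stab w u'⟩
      ⟨u'', s.mem_of_stab w u''⟩ ⟨m, s.mem_of_stab w m⟩ ⟨m', s.mem_of_stab w m'⟩
      ⟨m'', s.mem_of_stab w m''⟩ (h1 hm) (h1 hm') (h1 hm'')) g g' g'' n n' n'' hnN hnN' hnN''

/-! ### the homotopies -/

lemma isLC1_hh2 (f : G × G → (G ⧸ U) → B) (hf : IsLC2 L f) : IsLC1 L (s.god.hh2 f) := by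
  obtain ⟨N₁, hN₁, h⟩ := hf
  obtain ⟨N, hN, hn, h1, h2⟩ := h56s_exists_level hL hU N₁ hN₁
  refine ⟨N, hN, fun g n hnN => ?_⟩
  exact @h56s_OrbitData.h69s_hh2_inv G (G ⧸ U) B _ _ _
    (h56s_trivDMA G B) s.god N hn
    (h56s_smul_eq_of_normal_le hn h2) f
    (fun g g' m m' hm hm' => h g g' m m' (h1 hm) (h1 hm')) g n hnN

lemma isLC2_hh3 (f : G × G × G → (G ⧸ U) → B) (hf : IsLC3 L f) : IsLC2 L (s.god.hh3 f) := by
  obtain ⟨N₁, hN₁, h⟩ := hf
  obtain ⟨N, hN, hn, h1, h2⟩ := h56s_exists_level hL hU N₁ hN₁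
  refine ⟨N, hN, fun g g' n n' hnN hnN' => ?_⟩
  exact @h56s_OrbitData.h69s_hh3_inv G (G ⧸ U) B _ _ _
    (h56s_trivDMA G B) s.god N hn
    (h56s_smul_eq_of_normal_le hn h2) f
    (fun g g' g'' m m' m'' hm hm' hm'' => h g g' g'' m m' m'' (h1 hm) (h1 hm') (h1 hm''))
    g g' n n' hnN hnN'

end h56s_Sec

end Fermat.Agent.PT.Shap
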