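import Fermat.Agent.PT.Shap.GlobPerf
import Fermat.Agent.PT.Shap.Local
import Fermat.Agent.PT.Alg.H69Iso

/-!
# PT-SHAP, global assembly: `h56s_ShapGlobal` from the transport of `Perf1` (helper69)

* `h69g_vv`     (G-VV)  : `VV` for `permRep k U` over `D` from `VV` for the trivial module over
  `D|_U`;
* `h69g_dualEquiv`      : `(X → k) ≃ Dual (X → k)`, `f ↦ (f' ↦ Σ_x f x * f' x)`;
* `h69g_dual`   (G-DUAL): `Perf1 (Ind k(χ)) (Ind k) (Σ ∘ mul) → Perf1 (permRep^D) permRep id`;
* `h69g_GP1`            : the statement (G-P1) of the transport of `Perf1` along the Shapiro map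
  of cones, for `τ = k(χ)`, `τ₁ = k`, `β₀ = mul` (with all the hypotheses of `h56s_ShapGlobal`);
* `h69g_shapGlobal_of`  (G-ASM): `h69g_GP1 → h56s_ShapGlobal`.
-/

set_option autoImplicit false
set_option linter.unusedSectionVars false
set_option linter.style.haveILetI false

namespace Fermat.Agent.PT.Shap

open MulAction Fermat.Agent.PT.Tools

/-! ### (G-VV) -/

section VV

variable {k : Type} [Field k] (D : Datum k) (U : Subgroup D.G) [U.FiniteIndex]

/-- **(G-VV)**: finiteness of `H¹` and vanishing of `H³` for the permutation module. -/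
theorem h69g_vv (hD : D.Good) (hU : D.lev.IsOpen U) (sd : h56s_ShapData D U)
    (h : (h56s_restr D U sd).VV (Representation.trivial k ↥U k)) : D.VV (permRep k U) := by
  have hperm : permRep k U = h56s_ind (X := D.G ⧸ U) (Representation.trivial k D.G k) :=
    h56s_permRep_eq U
  have hres := h69l_resRep_trivial (k := k) U
  obtain ⟨h1, h3⟩ := h
  refine ⟨?_, ?_⟩
  · rw [hperm]
    refine sd.sec.HH1_finite_ind (Representation.trivial k D.G k) hD.1 hU ?_
    rw [hres]
    exact h1
  · rw [hperm]
    refine sd.sec.H3Vanishes_ind (Representation.trivial k D.G k) hD.1 hU ?_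
    rw [hres]
    exact h3

end VV

/-! ### the self-duality of `X → k` -/

section Dual

variable {k : Type} [Field k] {G : Type} [Group G] {U : Subgroup G} [U.FiniteIndex]

lemma h69g_betaX_mul_apply (f f' : (G ⧸ U) → k) :
    h56s_betaX (LinearMap.mul k k) f f' = ∑ᶠ x, f x * f' x := rfl

lemma h69g_betaX_delta (f : (G ⧸ U) → k) (x : G ⧸ U) :
    h56s_betaX (LinearMap.mul k k) f (h69l_delta x) = f x := by
  rw [h69g_betaX_mul_apply, finsum_eq_single _ x]
  · rw [h69l_delta_apply, if_pos rfl, mul_one]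
  · intro y hy
    rw [h69l_delta_apply, if_neg hy, mul_zero]

/-- `(X → k) ≃ Dual (X → k)`, `f ↦ (f' ↦ Σ_x f x * f' x)`. -/
noncomputable def h69g_dualEquiv (U : Subgroup G) [U.FiniteIndex] :
    ((G ⧸ U) → k) ≃ₗ[k] Module.Dual k ((G ⧸ U) → k) where
  toFun f := h56s_betaX (LinearMap.mul k k) f
  map_add' f f' := map_add _ f f'
  map_smul' c f := map_smul _ c f
  invFun φ := fun x => φ (h69l_delta x)
  left_inv f := by
    funext x
    exact h69g_betaX_delta f x
  right_inv φ := by
    apply LinearMap.ext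
    intro f'
    rw [h69l_dual_apply φ f', h69g_betaX_mul_apply]
    exact finsum_congr fun x => mul_comm _ _

lemma h69g_dualEquiv_apply (f f' : (G ⧸ U) → k) :
    h69g_dualEquiv U f f' = ∑ᶠ x, f x * f' x := rfl

/-- the self-duality is equivariant `Ind k(χ) → (permRep)^D`. -/
theorem h69g_isHom_dualEquiv (χ : G →* kˣ) :
    IsHom (h56s_ind (X := G ⧸ U) (chiRep χ)) (dualTw χ (permRep k U))
      (h69g_dualEquiv (k := k) U).toLinearMap := by
  intro g f
  apply LinearMap.ext
  intro f'
  rw [dualTw_apply, LinearMap.smul_apply, LinearMap.comp_apply, smul_eq_mul]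
  simp only [LinearEquiv.coe_coe, h69g_dualEquiv_apply, h56s_ind_apply, chiRep_apply,
    permRep_apply, inv_inv]
  rw [mul_finsum]
  rw [← h69l_finsum_smul g⁻¹ (fun x => (χ g : k) * (f x * f' (g • x)))]
  refine finsum_congr fun x => ?_
  rw [smul_inv_smul]
  ring

/-- the identity is equivariant `Ind k → permRep`. -/
theorem h69g_isHom_refl :
    IsHom (h56s_ind (X := G ⧸ U) (Representation.trivial k G k)) (permRep k U)
      (LinearEquiv.refl k ((G ⧸ U) → k)).toLinearMap := by
  intro g f
  rw [h56s_permRep_eq U]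
  rfl

end Dual

/-! ### (G-DUAL) -/

section GDual

variable {k : Type} [Field k] (D : Datum k) (U : Subgroup D.G) [U.FiniteIndex]

/-- **(G-DUAL)**: from the sum pairing on the induced modules to the evaluation pairing of the
permutation module with its twisted dual. -/
theorem h69g_dual (tr : D.CC3 k →ₗ[k] k)
    (h : D.Perf1 (h56s_ind (X := D.G ⧸ U) (chiRep D.chi))
      (h56s_ind (X := D.G ⧸ U) (Representation.trivial k D.G k)) tr
      (h56s_betaX (LinearMap.mul k k))) :
    D.Perf1 (dualTw D.chi (permRep k U)) (permRep k U) tr LinearMap.id :=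
  h69i_perf1_of_iso tr (h69g_dualEquiv (k := k) U) (LinearEquiv.refl k ((D.G ⧸ U) → k))
    (h69g_isHom_dualEquiv D.chi) h69g_isHom_refl (fun _ _ => rfl) h

end GDual

/-! ### (G-ASM) -/

/-- `k(χ)` is the trivial module when `χ` is trivial. -/
lemma h69g_chiRep_eq_trivial {k : Type} [Field k] {G : Type} [Group G] (χ : G →* kˣ)
    (hχ : ∀ g, χ g = 1) : chiRep χ = Representation.trivial k G k := by
  ext g
  simp [hχ g]

/-- the restriction of `k(χ)` to `U` is trivial when `χ|_U = 1`. -/
lemma h69g_resRep_chiRep_eq_trivial {k : Type} [Field k] {G : Type} [Group G] (χ : G →* kˣ)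
    (U : Subgroup G) (hχ : ∀ u ∈ U, χ u = 1) :
    resRep (chiRep χ) U.subtype = Representation.trivial k ↥U k := by
  rw [h69l_resRep_chiRep]
  exact h69g_chiRep_eq_trivial _ (fun u => hχ u u.2)

/-- multiplication is an equivariant pairing `k(χ) × k → k(χ)`. -/
lemma h69g_isEquivariant_mul {k : Type} [Field k] {G : Type} [Group G] (χ : G →* kˣ) :
    IsEquivariant χ (chiRep χ) (Representation.trivial k G k) (LinearMap.mul k k) := by
  intro g v w
  simp [mul_assoc]

/-- the trivial representation is discrete. -/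
lemma h69g_isDisc_trivial {k : Type} [Field k] {G : Type} [Group G] (L : Lev G)
    (hne : ∃ N, N ∈ L.sets) : IsDisc L (Representation.trivial k G k) := by
  intro v
  obtain ⟨N, hN⟩ := hne
  exact ⟨N, hN, fun s _ => rfl⟩

/-- the trivial representation of the global group of a good datum is discrete. -/
lemma h69g_isDisc_trivial_of_good {k : Type} [Field k] (D : Datum k) (hD : D.Good) :
    IsDisc D.lev (Representation.trivial k D.G k) := by
  obtain ⟨N, hN, -⟩ := hD.2.2.2.2
  exact h69g_isDisc_trivial D.lev ⟨N, hN⟩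

/-- **(G-P1)** for `τ = k(χ)`, `τ₁ = k`, `β₀ = mul`: the transport of `Perf1` along the Shapiro
map of cones (with all the hypotheses of `h56s_ShapGlobal` available). -/
def h69g_GP1 : Prop :=
  ∀ (k : Type) [Field k] (D : Datum k) (tr : D.CC3 k →ₗ[k] k), D.Good → D.TrOK tr →
    ∀ (U : Subgroup D.G) [U.FiniteIndex], D.lev.IsOpen U → (∀ u ∈ U, D.chi u = 1) →
    ∀ sd : h56s_ShapData D U,
      (h56s_restr D U sd).VV (Representation.trivial k ↥U k) →
      (h56s_restr D U sd).Perf1 (resRep (chiRep D.chi) U.subtype)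
        (resRep (Representation.trivial k D.G k) U.subtype) (h56s_trR sd tr)
        (LinearMap.mul k k) →
      D.Perf1 (h56s_ind (X := D.G ⧸ U) (chiRep D.chi))
        (h56s_ind (X := D.G ⧸ U) (Representation.trivial k D.G k)) tr
        (h56s_betaX (LinearMap.mul k k))

/-- **(G-ASM)**: `h56s_ShapGlobal` from (G-P1). -/
theorem h69g_shapGlobal_of (h : h69g_GP1) : h56s_ShapGlobal := by
  intro k _ D tr hD htr U _ hU hχ sd hVV hP
  refine ⟨h69g_vv D U hD hU sd hVV, h69g_dual D U tr ?_⟩
  refine h k D tr hD htr U hU hχ sd hVV ?_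
  rw [h69g_resRep_chiRep_eq_trivial D.chi U hχ, h69l_resRep_trivial]
  exact hP

/-- (G-P1) holds (helper56's `h56s_perf1_ind`). -/
theorem h69g_gp1 : h69g_GP1 := by
  intro k _ D tr hD htr U _ hU _ sd _ hP
  exact h56s_perf1_ind sd hD hU htr (h69g_isEquivariant_mul D.chi)
    (h69g_isDisc_trivial_of_good D hD) hP

/-- **`h56s_ShapGlobal`**: Shapiro for `VV` and the first global duality. -/
theorem h69g_shapGlobal : h56s_ShapGlobal := h69g_shapGlobal_of h69g_gp1

end Fermat.Agent.PT.Shap
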