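import Fermat.Agent.PT.Shap.H97EChain
import Fermat.Agent.PT.Shap.Local

/-!
# PT-SHAP-ECHAIN (helper97): `h56s_ShapTrOK`

The restricted trace `tr' = tr ∘ Σ_X ∘ E₃` kills the cone coboundaries of the restricted datum:
`tr' (d' z') = tr (Σ_X (E₃ (d' z'))) = tr (Σ_X (d (E₂ z'))) = tr (d (Σ_X (E₂ z'))) = 0`.

* `h97s_sumC2`          : `Σ_X` on cone `2`-cochains;
* `h97s_sumC3_coneD2`   : `Σ_X ∘ d = d ∘ Σ_X`;
* `h97s_sumC2_mem_lcC2` : `Σ_X` preserves level-constancy;
* `h97s_shapTrOK : h56s_ShapTrOK`.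
-/

set_option autoImplicit false
set_option linter.unusedSectionVars false
set_option linter.style.haveILetI false

namespace Fermat.Agent.PT.Shap

open MulAction Fermat.Agent.PT.Tools

variable {k : Type} [Field k] {D : Datum k} {U : Subgroup D.G} [U.FiniteIndex]

/-- the sum over `X = D.G ⧸ U` of a cone `2`-cochain with values in `X → k`. -/
noncomputable def h97s_sumC2 (D : Datum k) (U : Subgroup D.G) [U.FiniteIndex]
    (z : D.CC2 (D.G ⧸ U → k)) : D.CC2 k :=
  ((h69l_sumX U).compLeft (D.G × D.G) z.1, fun v => (h69l_sumX U).compLeft (D.H v) (z.2 v))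

lemma h97s_sumC3_eq (z : D.CC3 (D.G ⧸ U → k)) :
    h56s_sumC3 D (D.G ⧸ U) z
      = ((h69l_sumX U).compLeft (D.G × D.G × D.G) z.1,
          fun v => (h69l_sumX U).compLeft (D.H v × D.H v) (z.2 v)) := rfl

/-- restriction of an equivariant map is equivariant. -/
lemma h97s_isHom_res {G H : Type} [Group G] [Group H] {V W : Type} [AddCommGroup V] [Module k V]
    [AddCommGroup W] [Module k W] {ρ : Representation k G V} {σ : Representation k G W}
    {φ : V →ₗ[k] W} (h : IsHom ρ σ φ) (f : H →* G) : IsHom (resRep ρ f) (resRep σ f) φ :=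
  fun g v => h (f g) v

/-- `Σ_X` commutes with the cone differential. -/
theorem h97s_sumC3_coneD2 (y : D.CC2 (D.G ⧸ U → k)) :
    h56s_sumC3 D (D.G ⧸ U) (D.coneD2 (h56s_ind (X := D.G ⧸ U) (chiRep D.chi)) y)
      = D.coneD2 (chiRep D.chi) (h97s_sumC2 D U y) := by
  have hG := h69l_isHom_sumX (V := U) D.chi
  rw [h97s_sumC3_eq]
  refine Prod.ext ?_ ?_
  · simp only [Datum.coneD2_apply, h97s_sumC2]
    exact (d2_push hG y.1).symm
  · funext v
    simp only [Datum.coneD2_apply, h97s_sumC2]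
    rw [map_sub]
    have h1 := d1_push (h97s_isHom_res hG (D.loc v)) (y.2 v)
    change d1 (D.repAt (chiRep D.chi) v) _ = (h69l_sumX U).compLeft _
      (d1 (D.repAt (h56s_ind (X := D.G ⧸ U) (chiRep D.chi)) v) (y.2 v)) at h1
    rw [h1]
    rfl

/-- `Σ_X` preserves level-constant cone cochains. -/
lemma h97s_sumC2_mem_lcC2 {y : D.CC2 (D.G ⧸ U → k)} (hy : y ∈ D.lcC2 (D.G ⧸ U → k)) :
    h97s_sumC2 D U y ∈ D.lcC2 k :=
  ⟨isLC2_push hy.1 _, fun v hv => isLC1_push (hy.2 v hv) _⟩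

/-- **`h56s_ShapTrOK`**: the restricted trace kills the cone coboundaries. -/
theorem h97s_shapTrOK : h56s_ShapTrOK := by
  intro k _ D tr hD htr U _ hU sd c hc
  obtain ⟨z', hz', rfl⟩ := hc
  have e : chiRep (h56s_restr D U sd).chi = resRep (chiRep D.chi) U.subtype :=
    (h69l_resRep_chiRep D.chi U).symm
  rw [h56s_trR_apply, e, sd.h97s_E3_coneD2 (chiRep D.chi) z', h97s_sumC3_coneD2]
  exact htr _ ⟨_, h97s_sumC2_mem_lcC2 (sd.h97s_E2_mem_lcC2 (chiRep D.chi) hD hU hz'), rfl⟩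

end Fermat.Agent.PT.Shap
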