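import Fermat.Agent.PT.Shap.Sec

/-!
# The restricted datum `D|_U` (PT-SHAP interface)

For a datum `D` and a subgroup `U` of finite index of `D.G`, together with choices `sd`
(a section `gsec` of `D.G → D.G ⧸ U` and orbit data for every local group acting on `D.G ⧸ U`),
`h56s_restr D U sd` is the datum with

* global group `↥U`, levels `D.lev.comap U.subtype`, character `D.chi` restricted to `U`;
* places: pairs `⟨v, w⟩`, `v : D.P`, `w` an orbit representative of `D.H v` on `D.G ⧸ U`;
* local group at `⟨v, w⟩`: the stabiliser of `w` in `D.H v`, mapped to `U` by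
  `h ↦ (gsec w)⁻¹ * loc v h * gsec w`; levels pulled back from `D.levH v`.
-/

set_option autoImplicit false
set_option linter.unusedSectionVars false

namespace Fermat.Agent.PT.Shap

open MulAction

/-- orbit data exist for every action. -/
theorem h56s_OrbitData.nonempty (G X : Type*) [Group G] [MulAction G X] :
    Nonempty (h56s_OrbitData G X) := by
  classical
  let r : X → X := fun x => (Quotient.mk (orbitRel G X) x).out
  have hr : ∀ x, ∃ g : G, g • r x = x := by
    intro x
    have h : (orbitRel G X).r (r x) x := Quotient.exact (Quotient.out_eq _)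
    obtain ⟨g, hg⟩ := (orbitRel_apply.1 h)
    exact ⟨g⁻¹, by rw [← hg, inv_smul_smul]⟩
  have hrs : ∀ (g : G) (x : X), r (g • x) = r x := by
    intro g x
    have : Quotient.mk (orbitRel G X) (g • x) = Quotient.mk (orbitRel G X) x :=
      Quotient.sound (orbitRel_apply.2 ⟨g, rfl⟩)
    simp only [r, this]
  have hrr : ∀ x, r (r x) = r x := by
    intro x
    obtain ⟨g, hg⟩ := hr x
    conv_rhs => rw [← hg, hrs]
  exact ⟨{ rep := r
           sec := fun x => if x = r x then 1 else (hr x).choose
           sec_smul := fun x => by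
             by_cases h : x = r x
             · rw [if_pos h, one_smul]; exact h.symm
             · rw [if_neg h]; exact (hr x).choose_spec
           rep_smul := hrs
           sec_rep := fun x => by rw [if_pos (hrr x).symm] }⟩

variable {k : Type} [Field k] (D : Datum k) (U : Subgroup D.G)

/-- the action of the local group at `v` on `D.G ⧸ U`. -/
@[reducible] def h56s_locAct (v : D.P) : MulAction (D.H v) (D.G ⧸ U) :=
  MulAction.compHom (D.G ⧸ U) (D.loc v)

attribute [local instance] h56s_locAct

lemma h56s_locAct_smul (v : D.P) (h : D.H v) (x : D.G ⧸ U) : h • x = D.loc v h • x := rfl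

/-- The choices entering the restricted datum. -/
structure h56s_ShapData where
  /-- a section of `D.G → D.G ⧸ U` -/
  sec : h56s_Sec D.G U
  /-- orbit data for the local groups -/
  od : ∀ v : D.P, h56s_OrbitData (D.H v) (D.G ⧸ U)

theorem h56s_ShapData.nonempty : Nonempty (h56s_ShapData D U) := by
  have h : ∀ v : D.P, Nonempty (h56s_OrbitData (D.H v) (D.G ⧸ U)) :=
    fun v => h56s_OrbitData.nonempty _ _
  exact ⟨{ sec := (h56s_Sec.nonempty D.G U).some
           od := fun v => (h v).some }⟩

variable {D U}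

namespace h56s_ShapData

variable (sd : h56s_ShapData D U)

/-- the section of `D.G → D.G ⧸ U`. -/
abbrev gsec (x : D.G ⧸ U) : D.G := sd.sec.gsec x

lemma conj_mem (v : D.P) (w : (sd.od v).W) (h : stabilizer (D.H v) w.1) :
    (sd.gsec w.1)⁻¹ * D.loc v h * sd.gsec w.1 ∈ U :=
  sd.sec.conj_mem_of_fixed _ _ (mem_stabilizer_iff.1 h.2)

/-- the local-to-global map of the restricted datum at `⟨v, w⟩`. -/
def locR (v : D.P) (w : (sd.od v).W) : stabilizer (D.H v) w.1 →* U where
  toFun h := ⟨(sd.gsec w.1)⁻¹ * D.loc v h * sd.gsec w.1, sd.conj_mem v w h⟩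
  map_one' := by
    apply Subtype.ext
    simp
  map_mul' h h' := by
    apply Subtype.ext
    simp [mul_assoc]

@[simp] lemma coe_locR (v : D.P) (w : (sd.od v).W) (h : stabilizer (D.H v) w.1) :
    ((sd.locR v w h : U) : D.G) = (sd.gsec w.1)⁻¹ * D.loc v h * sd.gsec w.1 := rfl

end h56s_ShapData

/-- **The restricted datum** `D|_U`. -/
@[reducible] noncomputable def h56s_restr (D : Datum k) (U : Subgroup D.G) [U.FiniteIndex]
    (sd : h56s_ShapData D U) : Datum k where
  G := ↥U
  lev := D.lev.comap U.subtype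
  chi := D.chi.comp U.subtype
  P := Σ v : D.P, (sd.od v).W
  fin := Fintype.ofFinite _
  dec := Classical.decEq _
  H := fun p => ↥(stabilizer (D.H p.1) p.2.1)
  loc := fun p => sd.locR p.1 p.2
  levH := fun p => (D.levH p.1).comap (Subgroup.subtype _)


/-! ### Goodness of the restricted datum -/

lemma h56s_finiteIndex_comap {G H : Type} [Group G] [Group H] (f : H →* G) (N : Subgroup G)
    [N.FiniteIndex] : (N.comap f).FiniteIndex := by
  constructor
  rw [Subgroup.index_comap]
  exact (Subgroup.isFiniteRelIndex_of_finiteIndex (H := N) (K := f.range)).relIndex_ne_zero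

lemma h56s_lev_good_comap {G H : Type} [Group G] [Group H] (L : Lev G) (hL : L.Good)
    (f : H →* G) : (L.comap f).Good := by
  rintro _ ⟨N, hN, rfl⟩
  obtain ⟨h1, h2⟩ := hL N hN
  exact ⟨h1.comap f, h56s_finiteIndex_comap f N⟩

theorem h56s_restr_good (hD : D.Good) [U.FiniteIndex] (sd : h56s_ShapData D U) :
    (h56s_restr D U sd).Good := by
  obtain ⟨h1, h2, h3, h4, h5⟩ := hD
  refine ⟨h56s_lev_good_comap _ h1 _, fun p => h56s_lev_good_comap _ (h2 p.1) _, ?_, ?_, ?_⟩
  · obtain ⟨v⟩ := h3
    exact ⟨⟨v, (sd.od v).repW (QuotientGroup.mk 1)⟩⟩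
  · rintro ⟨v, w⟩ _ ⟨N, hN, rfl⟩
    obtain ⟨N', hN', hle⟩ := h4 v N hN
    refine ⟨N'.comap (Subgroup.subtype _), ⟨N', hN', rfl⟩, ?_⟩
    intro h hh
    have hn : D.loc v h ∈ N := hle hh
    have := (h1 N hN).1
    change (sd.gsec w.1)⁻¹ * D.loc v h * sd.gsec w.1 ∈ N
    have := (h1 N hN).1.conj_mem _ hn (sd.gsec w.1)⁻¹
    simpa using this
  · obtain ⟨N, hN, hχ⟩ := h5
    exact ⟨N.comap U.subtype, ⟨N, hN, rfl⟩, fun s hs => hχ _ hs⟩

end Fermat.Agent.PT.Shap
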