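import Mathlib

/-!
# Shapiro's lemma on explicit low-degree cochains (PT-SHAP core, Mathlib only)

`G` acts on a set `X` and on an abelian group `B`.  The induced module is `X → B` with
`(g • b) x = g • b (g⁻¹ • x)`.  Cochains of `G` with values in it are plain functions
`G → X → B`, `G × G → X → B`, ...  Orbit data `(rep, sec)` give explicit maps

* `sh` : cochains of `G` in `X → B`  →  families of cochains of the stabilisers in `B`,
* `ex` : the other way,

both compatible with the differentials, `sh ∘ ex = id`, and `f = ex (sh f) - d (h f)` on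
cocycles (prism homotopy).  All maps preserve right-invariance under a normal subgroup
acting trivially on `X`.
-/

set_option linter.unusedSectionVars false

namespace Fermat.Agent.PT.Shap

open MulAction

variable {G X B : Type*} [Group G] [MulAction G X] [AddCommGroup B] [DistribMulAction G B]

/-! ### differentials for cochains with values in `X → B` (induced action) -/

/-- `d⁰` for the induced module. -/
def h56s_dX0 (f : X → B) : G → X → B := fun g x => g • f (g⁻¹ • x) - f x

/-- `d¹` for the induced module. -/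
def h56s_dX1 (f : G → X → B) : G × G → X → B :=
  fun p x => p.1 • f p.2 (p.1⁻¹ • x) - f (p.1 * p.2) x + f p.1 x

/-- `d²` for the induced module. -/
def h56s_dX2 (f : G × G → X → B) : G × G × G → X → B :=
  fun p x => p.1 • f (p.2.1, p.2.2) (p.1⁻¹ • x) - f (p.1 * p.2.1, p.2.2) x
    + f (p.1, p.2.1 * p.2.2) x - f (p.1, p.2.1) x

/-- `d³` for the induced module. -/
def h56s_dX3 (f : G × G × G → X → B) : G × G × G × G → X → B :=
  fun p x => p.1 • f (p.2.1, p.2.2.1, p.2.2.2) (p.1⁻¹ • x)
    - f (p.1 * p.2.1, p.2.2.1, p.2.2.2) x + f (p.1, p.2.1 * p.2.2.1, p.2.2.2) x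
    - f (p.1, p.2.1, p.2.2.1 * p.2.2.2) x + f (p.1, p.2.1, p.2.2.1) x

/-! ### differentials for cochains of a group `H` with values in `B` -/

section plain
variable {H : Type*} [Group H] [DistribMulAction H B]

/-- `d⁰`. -/
def h56s_dB0 (b : B) : H → B := fun h => h • b - b

/-- `d¹`. -/
def h56s_dB1 (f : H → B) : H × H → B := fun p => p.1 • f p.2 - f (p.1 * p.2) + f p.1

/-- `d²`. -/
def h56s_dB2 (f : H × H → B) : H × H × H → B :=
  fun p => p.1 • f (p.2.1, p.2.2) - f (p.1 * p.2.1, p.2.2) + f (p.1, p.2.1 * p.2.2) - f (p.1, p.2.1)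

/-- `d³`. -/
def h56s_dB3 (f : H × H × H → B) : H × H × H × H → B :=
  fun p => p.1 • f (p.2.1, p.2.2.1, p.2.2.2) - f (p.1 * p.2.1, p.2.2.1, p.2.2.2)
    + f (p.1, p.2.1 * p.2.2.1, p.2.2.2) - f (p.1, p.2.1, p.2.2.1 * p.2.2.2) + f (p.1, p.2.1, p.2.2.1)

end plain

/-! ### orbit data -/

/-- Orbit representatives and a section: `sec x • rep x = x`. -/
structure h56s_OrbitData (G X : Type*) [Group G] [MulAction G X] where
  /-- the chosen representative of the orbit of `x` -/
  rep : X → X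
  /-- a group element moving `rep x` to `x` -/
  sec : X → G
  sec_smul : ∀ x, sec x • rep x = x
  rep_smul : ∀ (g : G) (x : X), rep (g • x) = rep x
  sec_rep : ∀ x, sec (rep x) = 1

namespace h56s_OrbitData

variable (D : h56s_OrbitData G X)

lemma rep_rep (x : X) : D.rep (D.rep x) = D.rep x := by
  have h := D.sec_smul (D.rep x)
  rwa [D.sec_rep, one_smul] at h

/-- index type of the orbits: the fixed points of `rep`. -/
abbrev W : Type _ := {ρ : X // D.rep ρ = ρ}

/-- the orbit of `x` as an element of `W`. -/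
def repW (x : X) : D.W := ⟨D.rep x, D.rep_rep x⟩

/-- the `U`-valued cocycle of the action groupoid. -/
def c (g : G) (x : X) : G := (D.sec x)⁻¹ * g * D.sec (g⁻¹ • x)

lemma sec_inv_smul (x : X) : (D.sec x)⁻¹ • x = D.rep x := by
  rw [inv_smul_eq_iff, D.sec_smul]

lemma c_mem (g : G) (x : X) : D.c g x ∈ stabilizer G (D.rep x) := by
  rw [mem_stabilizer_iff, c, mul_smul, mul_smul]
  have h1 : D.sec (g⁻¹ • x) • D.rep x = g⁻¹ • x := by
    have h := D.sec_smul (g⁻¹ • x)
    rwa [D.rep_smul] at h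
  rw [h1, smul_inv_smul, D.sec_inv_smul]

/-- `c g x` as an element of the stabiliser of `rep x`. -/
def cU (g : G) (x : X) : stabilizer G (D.repW x).1 := ⟨D.c g x, D.c_mem g x⟩

@[simp] lemma coe_cU (g : G) (x : X) : ((D.cU g x : stabilizer G (D.repW x).1) : G) = D.c g x := rfl

lemma c_mul (g h : G) (x : X) : D.c (g * h) x = D.c g x * D.c h (g⁻¹ • x) := by
  simp [c, mul_assoc, mul_smul]

lemma cU_mul (g h : G) (x : X) :
    D.cU (g * h) x = D.cU g x * (⟨D.c h (g⁻¹ • x), by
      have := D.c_mem h (g⁻¹ • x); rwa [D.rep_smul] at this⟩ : stabilizer G (D.repW x).1) := by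
  apply Subtype.ext
  simp [c_mul]

lemma sec_mul_c (g : G) (x : X) : D.sec x * D.c g x = g * D.sec (g⁻¹ • x) := by
  simp [c, mul_assoc]

lemma repW_smul (g : G) (x : X) : D.repW (g • x) = D.repW x :=
  Subtype.ext (D.rep_smul g x)

/-- `c g (k⁻¹ • x)` as an element of the stabiliser of `rep x`. -/
def cAt (k g : G) (x : X) : stabilizer G (D.repW x).1 :=
  ⟨D.c g (k⁻¹ • x), by have := D.c_mem g (k⁻¹ • x); rwa [D.rep_smul] at this⟩

@[simp] lemma coe_cAt (k g : G) (x : X) :
    ((D.cAt k g x : stabilizer G (D.repW x).1) : G) = D.c g (k⁻¹ • x) := rfl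

lemma c_of_fixed {ρ : X} (hρ : D.rep ρ = ρ) {u : G} (hu : u ∈ stabilizer G ρ) : D.c u ρ = u := by
  have h1 : D.sec ρ = 1 := by rw [← hρ, D.sec_rep]
  have h2 : u⁻¹ • ρ = ρ := by
    rw [inv_smul_eq_iff]; exact (mem_stabilizer_iff.1 hu).symm
  simp [c, h1, h2]

/-! ### transport along equalities in `W` -/

lemma congr1 (φ : (w : D.W) → stabilizer G w.1 → B) {w w' : D.W} (h : w = w')
    (u : stabilizer G w.1) (u' : stabilizer G w'.1) (hu : (u : G) = u') : φ w u = φ w' u' := by
  subst h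
  exact congrArg _ (Subtype.ext hu)

lemma congr2 (φ : (w : D.W) → stabilizer G w.1 × stabilizer G w.1 → B) {w w' : D.W} (h : w = w')
    (u v : stabilizer G w.1) (u' v' : stabilizer G w'.1) (hu : (u : G) = u') (hv : (v : G) = v') :
    φ w (u, v) = φ w' (u', v') := by
  subst h
  rw [Subtype.ext hu, Subtype.ext hv]

lemma congr3 (φ : (w : D.W) → stabilizer G w.1 × stabilizer G w.1 × stabilizer G w.1 → B)
    {w w' : D.W} (h : w = w')
    (u v t : stabilizer G w.1) (u' v' t' : stabilizer G w'.1)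
    (hu : (u : G) = u') (hv : (v : G) = v') (ht : (t : G) = t') :
    φ w (u, v, t) = φ w' (u', v', t') := by
  subst h
  rw [Subtype.ext hu, Subtype.ext hv, Subtype.ext ht]

/-! ### the maps `sh` and `ex` -/

/-- `sh` in degree 0. -/
def sh0 (f : X → B) : D.W → B := fun w => f w.1
/-- `sh` in degree 1. -/
def sh1 (f : G → X → B) : (w : D.W) → stabilizer G w.1 → B := fun w u => f u w.1
/-- `sh` in degree 2. -/
def sh2 (f : G × G → X → B) : (w : D.W) → stabilizer G w.1 × stabilizer G w.1 → B :=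
  fun w p => f (p.1, p.2) w.1
/-- `sh` in degree 3. -/
def sh3 (f : G × G × G → X → B) :
    (w : D.W) → stabilizer G w.1 × stabilizer G w.1 × stabilizer G w.1 → B :=
  fun w p => f (p.1, p.2.1, p.2.2) w.1

/-- `ex` in degree 0. -/
def ex0 (φ : D.W → B) : X → B := fun x => D.sec x • φ (D.repW x)
/-- `ex` in degree 1. -/
def ex1 (φ : (w : D.W) → stabilizer G w.1 → B) : G → X → B :=
  fun g x => D.sec x • φ (D.repW x) (D.cU g x)
/-- `ex` in degree 2. -/
def ex2 (φ : (w : D.W) → stabilizer G w.1 × stabilizer G w.1 → B) : G × G → X → B :=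
  fun p x => D.sec x • φ (D.repW x) (D.cU p.1 x, D.cAt p.1 p.2 x)
/-- `ex` in degree 3. -/
def ex3 (φ : (w : D.W) → stabilizer G w.1 × stabilizer G w.1 × stabilizer G w.1 → B) :
    G × G × G → X → B :=
  fun p x => D.sec x • φ (D.repW x) (D.cU p.1 x, D.cAt p.1 p.2.1 x, D.cAt (p.1 * p.2.1) p.2.2 x)

/-! ### the prism homotopy -/

/-- homotopy `C¹ → C⁰`. -/
def hh1 (f : G → X → B) : X → B := fun x => f (D.sec x) x
/-- homotopy `C² → C¹`. -/
def hh2 (f : G × G → X → B) : G → X → B :=
  fun g x => f (D.sec x, D.c g x) x - f (g, D.sec (g⁻¹ • x)) x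
/-- homotopy `C³ → C²`. -/
def hh3 (f : G × G × G → X → B) : G × G → X → B :=
  fun p x => f (D.sec x, D.c p.1 x, D.c p.2 (p.1⁻¹ • x)) x
    - f (p.1, D.sec (p.1⁻¹ • x), D.c p.2 (p.1⁻¹ • x)) x
    + f (p.1, p.2, D.sec ((p.1 * p.2)⁻¹ • x)) x

end h56s_OrbitData

end Fermat.Agent.PT.Shap
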