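import Fermat.Agent.PT.Shap.Restr

/-!
# The Shapiro map of cones `E : C_c(D|_U; B) → C_c(D; G ⧸ U → B)` and the restricted trace

`E_n (a', b') = (ex a', (ex_v (tw⁻¹ b') - hh_v (res_v (ex a')))_v)`.  It is a strict chain map.
The restricted trace is `tr' = tr ∘ Σ_X ∘ E₃` (coefficients `k(χ)`).
-/

set_option autoImplicit false
set_option linter.unusedSectionVars false

namespace Fermat.Agent.PT.Shap

open MulAction

variable {k : Type} [Field k] {D : Datum k} {U : Subgroup D.G}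

attribute [local instance] h56s_locAct

namespace h56s_ShapData

variable (sd : h56s_ShapData D U)
variable {B : Type} [AddCommGroup B] [Module k B] (τ : Representation k D.G B)

/-! ### the local maps `ex` at a place `v` (untwisted families) -/

/-- local `ex`, degree 0 -/
def exL0 (v : D.P) (b : (sd.od v).W → B) : (D.G ⧸ U) → B :=
  fun x => τ (D.loc v ((sd.od v).sec x)) (b ((sd.od v).repW x))

/-- local `ex`, degree 1 -/
def exL1 (v : D.P) (φ : (w : (sd.od v).W) → stabilizer (D.H v) w.1 → B) :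
    D.H v → (D.G ⧸ U) → B :=
  fun h x => τ (D.loc v ((sd.od v).sec x)) (φ ((sd.od v).repW x) ((sd.od v).cU h x))

/-- local `ex`, degree 2 -/
def exL2 (v : D.P)
    (φ : (w : (sd.od v).W) → stabilizer (D.H v) w.1 × stabilizer (D.H v) w.1 → B) :
    D.H v × D.H v → (D.G ⧸ U) → B :=
  fun p x => τ (D.loc v ((sd.od v).sec x))
    (φ ((sd.od v).repW x) ((sd.od v).cU p.1 x, (sd.od v).cAt p.1 p.2 x))

lemma exL0_eq (v : D.P) (b : (sd.od v).W → B) :
    sd.exL0 τ v b = @h56s_OrbitData.ex0 (D.H v) (D.G ⧸ U) B _ _ _ (h56s_dma (D.repAt τ v))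
      (sd.od v) b := rfl

lemma exL1_eq (v : D.P) (φ : (w : (sd.od v).W) → stabilizer (D.H v) w.1 → B) :
    sd.exL1 τ v φ = @h56s_OrbitData.ex1 (D.H v) (D.G ⧸ U) B _ _ _ (h56s_dma (D.repAt τ v))
      (sd.od v) φ := rfl

lemma exL2_eq (v : D.P)
    (φ : (w : (sd.od v).W) → stabilizer (D.H v) w.1 × stabilizer (D.H v) w.1 → B) :
    sd.exL2 τ v φ = @h56s_OrbitData.ex2 (D.H v) (D.G ⧸ U) B _ _ _ (h56s_dma (D.repAt τ v))
      (sd.od v) φ := rfl

variable [U.FiniteIndex]

/-! ### the cone maps -/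

/-- the untwisted local family at `v` of a local cochain of the restricted datum, degree 0. -/
def untw0 (b' : (h56s_restr D U sd).P → B) (v : D.P) : (sd.od v).W → B :=
  fun w => τ (sd.gsec w.1) (b' ⟨v, w⟩)

/-- the untwisted local family, degree 1. -/
def untw1 (b' : ∀ p : (h56s_restr D U sd).P, (h56s_restr D U sd).H p → B) (v : D.P) :
    (w : (sd.od v).W) → stabilizer (D.H v) w.1 → B :=
  fun w h => τ (sd.gsec w.1) (b' ⟨v, w⟩ h)

/-- the untwisted local family, degree 2. -/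
def untw2
    (b' : ∀ p : (h56s_restr D U sd).P, (h56s_restr D U sd).H p × (h56s_restr D U sd).H p → B)
    (v : D.P) : (w : (sd.od v).W) → stabilizer (D.H v) w.1 × stabilizer (D.H v) w.1 → B :=
  fun w q => τ (sd.gsec w.1) (b' ⟨v, w⟩ q)

/-- the cone map in degree 1. -/
def E1 (z' : (h56s_restr D U sd).CC1 B) : D.CC1 (D.G ⧸ U → B) :=
  (sd.sec.exU1 τ z'.1,
    fun v => sd.exL0 τ v (sd.untw0 τ z'.2 v)
      - (sd.od v).hh1 (res1 k (D.G ⧸ U → B) (D.loc v) (sd.sec.exU1 τ z'.1)))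

/-- the cone map in degree 2. -/
def E2 (z' : (h56s_restr D U sd).CC2 B) : D.CC2 (D.G ⧸ U → B) :=
  (sd.sec.exU2 τ z'.1,
    fun v => sd.exL1 τ v (sd.untw1 τ z'.2 v)
      - (sd.od v).hh2 (res2 k (D.G ⧸ U → B) (D.loc v) (sd.sec.exU2 τ z'.1)))

/-- the cone map in degree 3. -/
def E3 (z' : (h56s_restr D U sd).CC3 B) : D.CC3 (D.G ⧸ U → B) :=
  (sd.sec.exU3 τ z'.1,
    fun v => sd.exL2 τ v (sd.untw2 τ z'.2 v)
      - (sd.od v).hh3 (res3 k (D.G ⧸ U → B) (D.loc v) (sd.sec.exU3 τ z'.1)))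

end h56s_ShapData

/-! ### summation over `X = G ⧸ U` -/

/-- the sum over `X` of a cone `3`-cochain with values in `X → k`. -/
noncomputable def h56s_sumC3 (D : Datum k) (X : Type) (z : D.CC3 (X → k)) : D.CC3 k :=
  (fun p => ∑ᶠ x, z.1 p x, fun v q => ∑ᶠ x, z.2 v q x)

/-- the sum over `X` of a `2`-cochain with values in `X → k`. -/
noncomputable def h56s_sum2 {H : Type} (X : Type) (c : H × H → X → k) : H × H → k :=
  fun q => ∑ᶠ x, c q x

end Fermat.Agent.PT.Shap
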