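import Fermat.Agent.PT.Shap.CoreThm

/-!
# Shapiro core: the prism homotopy identities
-/

set_option linter.unusedSectionVars false

namespace Fermat.Agent.PT.Shap

open MulAction

variable {G X B : Type*} [Group G] [MulAction G X] [AddCommGroup B] [DistribMulAction G B]

namespace h56s_OrbitData

variable (D : h56s_OrbitData G X)

lemma ex_sh1_apply (f : G → X → B) (g : G) (x : X) :
    D.ex1 (D.sh1 f) g x = D.sec x • f (D.c g x) (D.rep x) := rfl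

lemma ex_sh2_apply (f : G × G → X → B) (g h : G) (x : X) :
    D.ex2 (D.sh2 f) (g, h) x = D.sec x • f (D.c g x, D.c h (g⁻¹ • x)) (D.rep x) := rfl

lemma ex_sh3_apply (f : G × G × G → X → B) (g h j : G) (x : X) :
    D.ex3 (D.sh3 f) (g, h, j) x
      = D.sec x • f (D.c g x, D.c h (g⁻¹ • x), D.c j ((g * h)⁻¹ • x)) (D.rep x) := rfl

/-- degree 0: an invariant function is `ex (sh f)`. -/
lemma hom0 (f : X → B) (hf : h56s_dX0 (G := G) f = 0) : f = D.ex0 (D.sh0 f) := by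
  funext x
  have h := congrFun (congrFun hf (D.sec x)) x
  simp only [h56s_dX0, Pi.zero_apply, D.sec_inv_smul] at h
  simp only [ex0, sh0, repW]
  exact (sub_eq_zero.1 h).symm

/-- degree 1 chain homotopy. -/
lemma hom1 (f : G → X → B) (g : G) (x : X) :
    f g x = D.ex1 (D.sh1 f) g x - h56s_dX0 (D.hh1 f) g x - D.hh2 (h56s_dX1 f) g x := by
  simp only [ex_sh1_apply, h56s_dX0, hh1, hh2, h56s_dX1, D.sec_inv_smul, D.sec_mul_c]
  abel

/-- degree 2 chain homotopy. -/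
lemma hom2 (f : G × G → X → B) (g h : G) (x : X) :
    f (g, h) x = D.ex2 (D.sh2 f) (g, h) x - h56s_dX1 (D.hh2 f) (g, h) x
      - D.hh3 (h56s_dX2 f) (g, h) x := by
  have e1 : D.sec x * D.c g x = g * D.sec (g⁻¹ • x) := D.sec_mul_c g x
  have e2 : D.sec (g⁻¹ • x) * D.c h (g⁻¹ • x) = h * D.sec ((g * h)⁻¹ • x) := by
    rw [D.sec_mul_c, mul_inv_rev, mul_smul]
  have e3 : D.c (g * h) x = D.c g x * D.c h (g⁻¹ • x) := D.c_mul g h x
  simp only [ex_sh2_apply, h56s_dX1, hh2, hh3, h56s_dX2, D.sec_inv_smul, e1, e2, e3, smul_sub,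
    mul_inv_rev, mul_smul]
  abel

/-- homotopy `C⁴ → C³`. -/
def hh4 (f : G × G × G × G → X → B) : G × G × G → X → B :=
  fun p x => f (D.sec x, D.c p.1 x, D.c p.2.1 (p.1⁻¹ • x), D.c p.2.2 ((p.1 * p.2.1)⁻¹ • x)) x
    - f (p.1, D.sec (p.1⁻¹ • x), D.c p.2.1 (p.1⁻¹ • x), D.c p.2.2 ((p.1 * p.2.1)⁻¹ • x)) x
    + f (p.1, p.2.1, D.sec ((p.1 * p.2.1)⁻¹ • x), D.c p.2.2 ((p.1 * p.2.1)⁻¹ • x)) x
    - f (p.1, p.2.1, p.2.2, D.sec ((p.1 * p.2.1 * p.2.2)⁻¹ • x)) x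

/-- degree 3 chain homotopy. -/
lemma hom3 (f : G × G × G → X → B) (g h j : G) (x : X) :
    f (g, h, j) x = D.ex3 (D.sh3 f) (g, h, j) x - h56s_dX2 (D.hh3 f) (g, h, j) x
      - D.hh4 (h56s_dX3 f) (g, h, j) x := by
  have e1 : D.sec x * D.c g x = g * D.sec (g⁻¹ • x) := D.sec_mul_c g x
  have e2 : D.sec (g⁻¹ • x) * D.c h (g⁻¹ • x) = h * D.sec ((g * h)⁻¹ • x) := by
    rw [D.sec_mul_c, mul_inv_rev, mul_smul]
  have e2' : D.sec (g⁻¹ • x) * D.c h (g⁻¹ • x) = h * D.sec (h⁻¹ • g⁻¹ • x) := by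
    rw [D.sec_mul_c]
  have e3 : D.sec (h⁻¹ • g⁻¹ • x) * D.c j (h⁻¹ • g⁻¹ • x) = j * D.sec (j⁻¹ • h⁻¹ • g⁻¹ • x) := by
    rw [D.sec_mul_c]
  have e4 : D.c (g * h) x = D.c g x * D.c h (g⁻¹ • x) := D.c_mul g h x
  have e5 : D.c (h * j) (g⁻¹ • x) = D.c h (g⁻¹ • x) * D.c j (h⁻¹ • g⁻¹ • x) := D.c_mul h j _
  simp only [ex_sh3_apply, h56s_dX2, hh3, hh4, h56s_dX3, D.sec_inv_smul, e1, e2', e3, e4, e5,
    smul_sub, smul_add, mul_inv_rev, mul_smul]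
  abel

/-- cocycle versions -/
lemma hom1_cocycle (f : G → X → B) (hf : h56s_dX1 f = 0) :
    f = fun g x => D.ex1 (D.sh1 f) g x - h56s_dX0 (D.hh1 f) g x := by
  funext g x
  have h := D.hom1 f g x
  rw [hf] at h
  simpa [hh2] using h

lemma hom2_cocycle (f : G × G → X → B) (hf : h56s_dX2 f = 0) :
    f = fun p x => D.ex2 (D.sh2 f) p x - h56s_dX1 (D.hh2 f) p x := by
  funext p x
  obtain ⟨g, h⟩ := p
  have h := D.hom2 f g h x
  rw [hf] at h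
  simpa [hh3] using h

lemma hom3_cocycle (f : G × G × G → X → B) (hf : h56s_dX3 f = 0) :
    f = fun p x => D.ex3 (D.sh3 f) p x - h56s_dX2 (D.hh3 f) p x := by
  funext p x
  obtain ⟨g, h, j⟩ := p
  have h := D.hom3 f g h j x
  rw [hf] at h
  simpa [hh4] using h

end h56s_OrbitData

end Fermat.Agent.PT.Shap
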