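import Fermat.Agent.PT.Shap.Core

/-!
# Shapiro core: chain-map identities, `sh ∘ ex = id`, prism homotopy (degrees ≤ 3)
-/

set_option linter.unusedSectionVars false

namespace Fermat.Agent.PT.Shap

open MulAction

variable {G X B : Type*} [Group G] [MulAction G X] [AddCommGroup B] [DistribMulAction G B]

namespace h56s_OrbitData

variable (D : h56s_OrbitData G X)

/-! ### `sh` is a chain map -/

lemma sh_d0 (f : X → B) (w : D.W) (u : stabilizer G w.1) :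
    D.sh1 (h56s_dX0 f) w u = h56s_dB0 (D.sh0 f w) u := by
  have hu : (u : G)⁻¹ • w.1 = w.1 := by
    rw [inv_smul_eq_iff]; exact (mem_stabilizer_iff.1 u.2).symm
  simp only [sh1, sh0, h56s_dX0, h56s_dB0, hu]
  rfl

lemma sh_d1 (f : G → X → B) (w : D.W) (p : stabilizer G w.1 × stabilizer G w.1) :
    D.sh2 (h56s_dX1 f) w p = h56s_dB1 (D.sh1 f w) p := by
  have hu : (p.1 : G)⁻¹ • w.1 = w.1 := by
    rw [inv_smul_eq_iff]; exact (mem_stabilizer_iff.1 p.1.2).symm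
  simp only [sh1, sh2, h56s_dX1, h56s_dB1, hu]
  rfl

lemma sh_d2 (f : G × G → X → B) (w : D.W)
    (p : stabilizer G w.1 × stabilizer G w.1 × stabilizer G w.1) :
    D.sh3 (h56s_dX2 f) w p = h56s_dB2 (D.sh2 f w) p := by
  have hu : (p.1 : G)⁻¹ • w.1 = w.1 := by
    rw [inv_smul_eq_iff]; exact (mem_stabilizer_iff.1 p.1.2).symm
  simp only [sh2, sh3, h56s_dX2, h56s_dB2, hu]
  rfl

/-! ### `ex` is a chain map -/

lemma ex_d0 (φ : D.W → B) : h56s_dX0 (D.ex0 φ) = D.ex1 (fun w => h56s_dB0 (φ w)) := by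
  funext g x
  simp only [h56s_dX0, ex0, ex1, h56s_dB0, smul_sub, D.repW_smul]
  congr 1
  rw [← mul_smul, ← D.sec_mul_c, mul_smul]
  rfl

lemma ex_d1 (φ : (w : D.W) → stabilizer G w.1 → B) :
    h56s_dX1 (D.ex1 φ) = D.ex2 (fun w => h56s_dB1 (φ w)) := by
  funext p x
  obtain ⟨g, h⟩ := p
  simp only [h56s_dX1, ex1, ex2, h56s_dB1, smul_sub, smul_add]
  have e1 : g • D.sec (g⁻¹ • x) • φ (D.repW (g⁻¹ • x)) (D.cU h (g⁻¹ • x))
      = D.sec x • (D.cU g x • φ (D.repW x) (D.cAt g h x)) := by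
    rw [D.congr1 φ (D.repW_smul g⁻¹ x) (D.cU h (g⁻¹ • x)) (D.cAt g h x) rfl]
    rw [← mul_smul, ← D.sec_mul_c, mul_smul]
    rfl
  have e2 : φ (D.repW x) (D.cU (g * h) x) = φ (D.repW x) (D.cU g x * D.cAt g h x) := by
    apply D.congr1 φ rfl
    simp [c_mul]
  rw [e1, e2]

lemma ex_d2 (φ : (w : D.W) → stabilizer G w.1 × stabilizer G w.1 → B) :
    h56s_dX2 (D.ex2 φ) = D.ex3 (fun w => h56s_dB2 (φ w)) := by
  funext p x
  obtain ⟨g, h, j⟩ := p
  simp only [h56s_dX2, ex2, ex3, h56s_dB2, smul_sub, smul_add]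
  have e1 : g • D.sec (g⁻¹ • x) • φ (D.repW (g⁻¹ • x)) (D.cU h (g⁻¹ • x), D.cAt h j (g⁻¹ • x))
      = D.sec x • (D.cU g x • φ (D.repW x) (D.cAt g h x, D.cAt (g * h) j x)) := by
    rw [D.congr2 φ (D.repW_smul g⁻¹ x) (D.cU h (g⁻¹ • x)) (D.cAt h j (g⁻¹ • x))
      (D.cAt g h x) (D.cAt (g * h) j x) rfl (by simp [mul_smul])]
    rw [← mul_smul, ← D.sec_mul_c, mul_smul]
    rfl
  have e2 : φ (D.repW x) (D.cU (g * h) x, D.cAt (g * h) j x)
      = φ (D.repW x) (D.cU g x * D.cAt g h x, D.cAt (g * h) j x) := by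
    apply D.congr2 φ rfl
    · simp [c_mul]
    · rfl
  have e3 : φ (D.repW x) (D.cU g x, D.cAt g (h * j) x)
      = φ (D.repW x) (D.cU g x, D.cAt g h x * D.cAt (g * h) j x) := by
    apply D.congr2 φ rfl
    · rfl
    · simp [c_mul, mul_smul]
  rw [e1, e2, e3]

/-! ### `sh ∘ ex = id` -/

lemma sh_ex0 (φ : D.W → B) : D.sh0 (D.ex0 φ) = φ := by
  funext w
  have h1 : D.sec w.1 = 1 := by rw [← w.2, D.sec_rep]
  have h2 : D.repW w.1 = w := Subtype.ext w.2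
  simp [sh0, ex0, h1, h2]

lemma sh_ex1 (φ : (w : D.W) → stabilizer G w.1 → B) : D.sh1 (D.ex1 φ) = φ := by
  funext w u
  have h1 : D.sec w.1 = 1 := by rw [← w.2, D.sec_rep]
  have h2 : D.repW w.1 = w := Subtype.ext w.2
  simp only [sh1, ex1, h1, one_smul]
  exact D.congr1 φ h2 _ _ (D.c_of_fixed w.2 u.2)

lemma sh_ex2 (φ : (w : D.W) → stabilizer G w.1 × stabilizer G w.1 → B) :
    D.sh2 (D.ex2 φ) = φ := by
  funext w p
  have h1 : D.sec w.1 = 1 := by rw [← w.2, D.sec_rep]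
  have h2 : D.repW w.1 = w := Subtype.ext w.2
  have hu : (p.1 : G)⁻¹ • w.1 = w.1 := by
    rw [inv_smul_eq_iff]; exact (mem_stabilizer_iff.1 p.1.2).symm
  simp only [sh2, ex2, h1, one_smul]
  refine D.congr2 φ h2 _ _ _ _ (D.c_of_fixed w.2 p.1.2) ?_
  simp only [coe_cAt, hu]
  exact D.c_of_fixed w.2 p.2.2

lemma sh_ex3 (φ : (w : D.W) → stabilizer G w.1 × stabilizer G w.1 × stabilizer G w.1 → B) :
    D.sh3 (D.ex3 φ) = φ := by
  funext w p
  have h1 : D.sec w.1 = 1 := by rw [← w.2, D.sec_rep]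
  have h2 : D.repW w.1 = w := Subtype.ext w.2
  have hu : (p.1 : G)⁻¹ • w.1 = w.1 := by
    rw [inv_smul_eq_iff]; exact (mem_stabilizer_iff.1 p.1.2).symm
  have hv : ((p.1 : G) * (p.2.1 : G))⁻¹ • w.1 = w.1 := by
    rw [inv_smul_eq_iff, mul_smul, mem_stabilizer_iff.1 p.2.1.2, mem_stabilizer_iff.1 p.1.2]
  simp only [sh3, ex3, h1, one_smul]
  refine D.congr3 φ h2 _ _ _ _ _ _ (D.c_of_fixed w.2 p.1.2) ?_ ?_
  · simp only [coe_cAt, hu]
    exact D.c_of_fixed w.2 p.2.1.2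
  · simp only [coe_cAt, hv]
    exact D.c_of_fixed w.2 p.2.2.2

end h56s_OrbitData

end Fermat.Agent.PT.Shap
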