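import Fermat.Agent.PT.Shap.CoreHom

/-!
# Shapiro core: strict multiplicativity (SH-CUP, helper69)

`B`, `B'`, `C` are abelian groups with an action of `G`, `β : B → B' → C` is a biadditive
equivariant pairing (`g • β b b' = β (g • b) (g • b')`).

* `h69s_cupB02 … h69s_cupB30` : cup products of plain cochains of a group `H` (in practice a
  stabiliser), formulas of `PT/Defs.lean`.
* `h69s_cupX02 … h69s_cupX30` : the same cup products for cochains of `G` with values in the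
  induced modules `X → B`, `X → B'` (pointwise pairing, induced action).
* `ex` and `sh` are strictly multiplicative (`h69s_ex3_cup12`, …, `h69s_sh3_cup12`, …).
* the prism homotopies are linear over cup products with `G`-invariant elements
  (`h69s_hh3_cupX30`, `h69s_hh2_cupX20`, `h69s_hh1_cupX10`, `h69s_hh2_cupX02`, `h69s_hh1_cupX01`).
-/

set_option linter.unusedSectionVars false
set_option autoImplicit false

namespace Fermat.Agent.PT.Shap

open MulAction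

variable {G X B B' C : Type*} [Group G] [MulAction G X]
  [AddCommGroup B] [DistribMulAction G B] [AddCommGroup B'] [DistribMulAction G B']
  [AddCommGroup C] [DistribMulAction G C]

/-! ### cup products of plain cochains -/

section plain

variable {H : Type*} [Group H] [SMul H B'] (β : B → B' → C)

/-- `(b ∪ y)(g, h) = β(b, y(g, h))`. -/
def h69s_cupB02 (b : B) (y : H × H → B') : H × H → C := fun p => β b (y p)
/-- `(b ∪ y)(g) = β(b, y(g))`. -/
def h69s_cupB01 (b : B) (y : H → B') : H → C := fun g => β b (y g)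
/-- `(a ∪ w)(g) = β(a(g), g w)`. -/
def h69s_cupB10 (a : H → B) (w : B') : H → C := fun g => β (a g) (g • w)
/-- `(b ∪ y)(g, h) = β(b(g), g y(h))`. -/
def h69s_cupB11 (b : H → B) (y : H → B') : H × H → C := fun p => β (b p.1) (p.1 • y p.2)
/-- `(b ∪ w)(g, h) = β(b(g, h), gh w)`. -/
def h69s_cupB20 (b : H × H → B) (w : B') : H × H → C := fun p => β (b p) ((p.1 * p.2) • w)
/-- `(a ∪ y)(g, h, j) = β(a(g), g y(h, j))`. -/
def h69s_cupB12 (a : H → B) (y : H × H → B') : H × H × H → C :=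
  fun p => β (a p.1) (p.1 • y (p.2.1, p.2.2))
/-- `(a ∪ y)(g, h, j) = β(a(g, h), gh y(j))`. -/
def h69s_cupB21 (a : H × H → B) (y : H → B') : H × H × H → C :=
  fun p => β (a (p.1, p.2.1)) ((p.1 * p.2.1) • y p.2.2)
/-- `(a ∪ w)(g, h, j) = β(a(g, h, j), ghj w)`. -/
def h69s_cupB30 (a : H × H × H → B) (w : B') : H × H × H → C :=
  fun p => β (a p) ((p.1 * p.2.1 * p.2.2) • w)

end plain

/-! ### cup products of cochains with values in the induced modules -/

section induced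

variable (β : B → B' → C)

/-- degree `(0, 0)`. -/
def h69s_cupX00 (m : X → B) (w : X → B') : X → C := fun x => β (m x) (w x)
/-- degree `(0, 1)`. -/
def h69s_cupX01 (m : X → B) (y : G → X → B') : G → X → C := fun g x => β (m x) (y g x)
/-- degree `(0, 2)`. -/
def h69s_cupX02 (m : X → B) (Y : G × G → X → B') : G × G → X → C :=
  fun p x => β (m x) (Y p x)
/-- degree `(1, 0)`. -/
def h69s_cupX10 (a : G → X → B) (w : X → B') : G → X → C :=
  fun g x => β (a g x) (g • w (g⁻¹ • x))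
/-- degree `(1, 1)`. -/
def h69s_cupX11 (b : G → X → B) (y : G → X → B') : G × G → X → C :=
  fun p x => β (b p.1 x) (p.1 • y p.2 (p.1⁻¹ • x))
/-- degree `(2, 0)`. -/
def h69s_cupX20 (b : G × G → X → B) (w : X → B') : G × G → X → C :=
  fun p x => β (b p x) ((p.1 * p.2) • w ((p.1 * p.2)⁻¹ • x))
/-- degree `(1, 2)`. -/
def h69s_cupX12 (F : G → X → B) (Y : G × G → X → B') : G × G × G → X → C :=
  fun p x => β (F p.1 x) (p.1 • Y (p.2.1, p.2.2) (p.1⁻¹ • x))
/-- degree `(2, 1)`. -/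
def h69s_cupX21 (a : G × G → X → B) (y : G → X → B') : G × G × G → X → C :=
  fun p x => β (a (p.1, p.2.1) x) ((p.1 * p.2.1) • y p.2.2 ((p.1 * p.2.1)⁻¹ • x))
/-- degree `(3, 0)`. -/
def h69s_cupX30 (F : G × G × G → X → B) (w : X → B') : G × G × G → X → C :=
  fun p x => β (F p x) ((p.1 * p.2.1 * p.2.2) • w ((p.1 * p.2.1 * p.2.2)⁻¹ • x))

end induced

namespace h56s_OrbitData

variable (D : h56s_OrbitData G X)

/-! ### transport of the second factor -/

/-- degree 0. -/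
lemma h69s_tr0 (b : D.W → B') (g : G) (x : X) :
    g • D.ex0 b (g⁻¹ • x) = D.sec x • (D.cU g x • b (D.repW x)) := by
  simp only [ex0]
  rw [D.repW_smul, ← mul_smul, ← D.sec_mul_c, mul_smul]
  rfl

/-- degree 1. -/
lemma h69s_tr1 (ψ : (w : D.W) → stabilizer G w.1 → B') (g h : G) (x : X) :
    g • D.ex1 ψ h (g⁻¹ • x) = D.sec x • (D.cU g x • ψ (D.repW x) (D.cAt g h x)) := by
  simp only [ex1]
  rw [D.congr1 ψ (D.repW_smul g⁻¹ x) (D.cU h (g⁻¹ • x)) (D.cAt g h x) rfl,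
    ← mul_smul, ← D.sec_mul_c, mul_smul]
  rfl

/-- degree 2. -/
lemma h69s_tr2 (ψ : (w : D.W) → stabilizer G w.1 × stabilizer G w.1 → B') (g h j : G) (x : X) :
    g • D.ex2 ψ (h, j) (g⁻¹ • x)
      = D.sec x • (D.cU g x • ψ (D.repW x) (D.cAt g h x, D.cAt (g * h) j x)) := by
  simp only [ex2]
  rw [D.congr2 ψ (D.repW_smul g⁻¹ x) (D.cU h (g⁻¹ • x)) (D.cAt h j (g⁻¹ • x))
      (D.cAt g h x) (D.cAt (g * h) j x) rfl (by simp [mul_smul]),
    ← mul_smul, ← D.sec_mul_c, mul_smul]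
  rfl

lemma h69s_cU_mul (g h : G) (x : X) : D.cU (g * h) x = D.cU g x * D.cAt g h x :=
  D.cU_mul g h x

lemma h69s_cU_mul3 (g h j : G) (x : X) :
    D.cU (g * h * j) x = D.cU g x * D.cAt g h x * D.cAt (g * h) j x := by
  rw [h69s_cU_mul, h69s_cU_mul]

/-! ### `ex` is strictly multiplicative -/

section ex

variable (β : B → B' → C) (hβ : ∀ (g : G) (b : B) (b' : B'), g • β b b' = β (g • b) (g • b'))

include hβ

/-- `ex (b ∪ ψ) = ex b ∪ ex ψ`, degree `(0, 1)`. -/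
theorem h69s_ex1_cup01 (b : D.W → B) (ψ : (w : D.W) → stabilizer G w.1 → B') :
    D.ex1 (fun w => h69s_cupB01 β (b w) (ψ w)) = h69s_cupX01 β (D.ex0 b) (D.ex1 ψ) := by
  funext g x
  simp only [ex1, ex0, h69s_cupB01, h69s_cupX01, hβ]

/-- `ex (b ∪ ψ) = ex b ∪ ex ψ`, degree `(0, 2)`. -/
theorem h69s_ex2_cup02 (b : D.W → B)
    (ψ : (w : D.W) → stabilizer G w.1 × stabilizer G w.1 → B') :
    D.ex2 (fun w => h69s_cupB02 β (b w) (ψ w)) = h69s_cupX02 β (D.ex0 b) (D.ex2 ψ) := by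
  funext p x
  simp only [ex2, ex0, h69s_cupB02, h69s_cupX02, hβ]

/-- `ex (φ ∪ b') = ex φ ∪ ex b'`, degree `(1, 0)`. -/
theorem h69s_ex1_cup10 (φ : (w : D.W) → stabilizer G w.1 → B) (b' : D.W → B') :
    D.ex1 (fun w => h69s_cupB10 β (φ w) (b' w)) = h69s_cupX10 β (D.ex1 φ) (D.ex0 b') := by
  funext g x
  simp only [h69s_cupX10, h69s_tr0]
  simp only [ex1, h69s_cupB10, hβ]

/-- `ex (φ ∪ ψ) = ex φ ∪ ex ψ`, degree `(1, 1)`. -/
theorem h69s_ex2_cup11 (φ : (w : D.W) → stabilizer G w.1 → B)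
    (ψ : (w : D.W) → stabilizer G w.1 → B') :
    D.ex2 (fun w => h69s_cupB11 β (φ w) (ψ w)) = h69s_cupX11 β (D.ex1 φ) (D.ex1 ψ) := by
  funext p x
  obtain ⟨g, h⟩ := p
  simp only [h69s_cupX11, h69s_tr1]
  simp only [ex2, ex1, h69s_cupB11, hβ]

/-- `ex (φ ∪ b') = ex φ ∪ ex b'`, degree `(2, 0)`. -/
theorem h69s_ex2_cup20 (φ : (w : D.W) → stabilizer G w.1 × stabilizer G w.1 → B)
    (b' : D.W → B') :
    D.ex2 (fun w => h69s_cupB20 β (φ w) (b' w)) = h69s_cupX20 β (D.ex2 φ) (D.ex0 b') := by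
  funext p x
  obtain ⟨g, h⟩ := p
  simp only [h69s_cupX20, h69s_tr0, h69s_cU_mul]
  simp only [ex2, h69s_cupB20, hβ]

/-- `ex (φ ∪ ψ) = ex φ ∪ ex ψ`, degree `(1, 2)`. -/
theorem h69s_ex3_cup12 (φ : (w : D.W) → stabilizer G w.1 → B)
    (ψ : (w : D.W) → stabilizer G w.1 × stabilizer G w.1 → B') :
    D.ex3 (fun w => h69s_cupB12 β (φ w) (ψ w)) = h69s_cupX12 β (D.ex1 φ) (D.ex2 ψ) := by
  funext p x
  obtain ⟨g, h, j⟩ := p
  simp only [h69s_cupX12, h69s_tr2]
  simp only [ex3, ex1, h69s_cupB12, hβ]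

/-- `ex (φ ∪ ψ) = ex φ ∪ ex ψ`, degree `(2, 1)`. -/
theorem h69s_ex3_cup21 (φ : (w : D.W) → stabilizer G w.1 × stabilizer G w.1 → B)
    (ψ : (w : D.W) → stabilizer G w.1 → B') :
    D.ex3 (fun w => h69s_cupB21 β (φ w) (ψ w)) = h69s_cupX21 β (D.ex2 φ) (D.ex1 ψ) := by
  funext p x
  obtain ⟨g, h, j⟩ := p
  simp only [h69s_cupX21, h69s_tr1, h69s_cU_mul]
  simp only [ex3, ex2, h69s_cupB21, hβ]

/-- `ex (φ ∪ b') = ex φ ∪ ex b'`, degree `(3, 0)`. -/
theorem h69s_ex3_cup30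
    (φ : (w : D.W) → stabilizer G w.1 × stabilizer G w.1 × stabilizer G w.1 → B)
    (b' : D.W → B') :
    D.ex3 (fun w => h69s_cupB30 β (φ w) (b' w)) = h69s_cupX30 β (D.ex3 φ) (D.ex0 b') := by
  funext p x
  obtain ⟨g, h, j⟩ := p
  simp only [h69s_cupX30, h69s_tr0, h69s_cU_mul3]
  simp only [ex3, h69s_cupB30, hβ]

end ex

/-! ### `sh` is strictly multiplicative -/

section sh

variable (β : B → B' → C)

lemma h69s_stab_inv_smul (w : D.W) (u : stabilizer G w.1) : (u : G)⁻¹ • w.1 = w.1 := by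
  rw [inv_smul_eq_iff]
  exact (mem_stabilizer_iff.1 u.2).symm

lemma h69s_stab_mul_inv_smul (w : D.W) (u v : stabilizer G w.1) :
    ((u : G) * (v : G))⁻¹ • w.1 = w.1 :=
  D.h69s_stab_inv_smul w (u * v)

lemma h69s_stab_mul3_inv_smul (w : D.W) (u v t : stabilizer G w.1) :
    ((u : G) * (v : G) * (t : G))⁻¹ • w.1 = w.1 :=
  D.h69s_stab_inv_smul w (u * v * t)

/-- degree `(0, 0)`. -/
theorem h69s_sh0_cup00 (m : X → B) (w' : X → B') (w : D.W) :
    D.sh0 (h69s_cupX00 β m w') w = β (D.sh0 m w) (D.sh0 w' w) := rfl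

/-- degree `(0, 1)`. -/
theorem h69s_sh1_cup01 (m : X → B) (y : G → X → B') :
    D.sh1 (h69s_cupX01 β m y) = fun w => h69s_cupB01 β (D.sh0 m w) (D.sh1 y w) := rfl

/-- degree `(0, 2)`. -/
theorem h69s_sh2_cup02 (m : X → B) (Y : G × G → X → B') :
    D.sh2 (h69s_cupX02 β m Y) = fun w => h69s_cupB02 β (D.sh0 m w) (D.sh2 Y w) := rfl

/-- degree `(1, 0)`. -/
theorem h69s_sh1_cup10 (a : G → X → B) (w' : X → B') :
    D.sh1 (h69s_cupX10 β a w') = fun w => h69s_cupB10 β (D.sh1 a w) (D.sh0 w' w) := by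
  funext w u
  simp only [sh1, sh0, h69s_cupX10, h69s_cupB10, D.h69s_stab_inv_smul w u]
  rfl

/-- degree `(1, 1)`. -/
theorem h69s_sh2_cup11 (b : G → X → B) (y : G → X → B') :
    D.sh2 (h69s_cupX11 β b y) = fun w => h69s_cupB11 β (D.sh1 b w) (D.sh1 y w) := by
  funext w p
  simp only [sh2, sh1, h69s_cupX11, h69s_cupB11, D.h69s_stab_inv_smul w p.1]
  rfl

/-- degree `(2, 0)`. -/
theorem h69s_sh2_cup20 (b : G × G → X → B) (w' : X → B') :
    D.sh2 (h69s_cupX20 β b w') = fun w => h69s_cupB20 β (D.sh2 b w) (D.sh0 w' w) := by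
  funext w p
  simp only [sh2, sh0, h69s_cupX20, h69s_cupB20, D.h69s_stab_mul_inv_smul w p.1 p.2]
  rfl

/-- degree `(1, 2)`. -/
theorem h69s_sh3_cup12 (F : G → X → B) (Y : G × G → X → B') :
    D.sh3 (h69s_cupX12 β F Y) = fun w => h69s_cupB12 β (D.sh1 F w) (D.sh2 Y w) := by
  funext w p
  simp only [sh3, sh2, sh1, h69s_cupX12, h69s_cupB12, D.h69s_stab_inv_smul w p.1]
  rfl

/-- degree `(2, 1)`. -/
theorem h69s_sh3_cup21 (a : G × G → X → B) (y : G → X → B') :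
    D.sh3 (h69s_cupX21 β a y) = fun w => h69s_cupB21 β (D.sh2 a w) (D.sh1 y w) := by
  funext w p
  simp only [sh3, sh2, sh1, h69s_cupX21, h69s_cupB21, D.h69s_stab_mul_inv_smul w p.1 p.2.1]
  rfl

/-- degree `(3, 0)`. -/
theorem h69s_sh3_cup30 (F : G × G × G → X → B) (w' : X → B') :
    D.sh3 (h69s_cupX30 β F w') = fun w => h69s_cupB30 β (D.sh3 F w) (D.sh0 w' w) := by
  funext w p
  simp only [sh3, sh0, h69s_cupX30, h69s_cupB30,
    D.h69s_stab_mul3_inv_smul w p.1 p.2.1 p.2.2]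
  rfl

end sh

/-! ### the prism homotopies and cup products with invariant elements -/

section hh

variable (β : B → B' → C)

omit [DistribMulAction G B] [DistribMulAction G B'] [DistribMulAction G C] in
lemma h69s_map_sub_left (hl : ∀ (b₁ b₂ : B) (b' : B'), β (b₁ + b₂) b' = β b₁ b' + β b₂ b')
    (b₁ b₂ : B) (b' : B') : β (b₁ - b₂) b' = β b₁ b' - β b₂ b' :=
  map_sub (AddMonoidHom.mk' (fun b => β b b') (fun b₁ b₂ => hl b₁ b₂ b')) b₁ b₂

omit [DistribMulAction G B] [DistribMulAction G B'] [DistribMulAction G C] in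
lemma h69s_map_sub_right (hr : ∀ (b : B) (b₁' b₂' : B'), β b (b₁' + b₂') = β b b₁' + β b b₂')
    (b : B) (b₁' b₂' : B') : β b (b₁' - b₂') = β b b₁' - β b b₂' :=
  map_sub (AddMonoidHom.mk' (fun b' => β b b') (fun b₁' b₂' => hr b b₁' b₂')) b₁' b₂'

/-- for a `G`-invariant `w` the cup product `∪ w` is pointwise. -/
lemma h69s_cupX10_of_inv (w : X → B') (hw : ∀ (g : G) (x : X), g • w (g⁻¹ • x) = w x)
    (a : G → X → B) (g : G) (x : X) : h69s_cupX10 β a w g x = β (a g x) (w x) := by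
  simp only [h69s_cupX10, hw]

lemma h69s_cupX20_of_inv (w : X → B') (hw : ∀ (g : G) (x : X), g • w (g⁻¹ • x) = w x)
    (b : G × G → X → B) (p : G × G) (x : X) : h69s_cupX20 β b w p x = β (b p x) (w x) := by
  simp only [h69s_cupX20, hw]

lemma h69s_cupX30_of_inv (w : X → B') (hw : ∀ (g : G) (x : X), g • w (g⁻¹ • x) = w x)
    (F : G × G × G → X → B) (p : G × G × G) (x : X) :
    h69s_cupX30 β F w p x = β (F p x) (w x) := by
  simp only [h69s_cupX30, hw]

/-- `hh1 (a ∪ w) = hh1 a ∪ w` for `G`-invariant `w`. -/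
theorem h69s_hh1_cupX10 (w : X → B') (hw : ∀ (g : G) (x : X), g • w (g⁻¹ • x) = w x)
    (a : G → X → B) : D.hh1 (h69s_cupX10 β a w) = h69s_cupX00 β (D.hh1 a) w := by
  funext x
  simp only [hh1, h69s_cupX00, h69s_cupX10_of_inv β w hw]

/-- `hh2 (b ∪ w) = hh2 b ∪ w` for `G`-invariant `w`. -/
theorem h69s_hh2_cupX20 (hl : ∀ (b₁ b₂ : B) (b' : B'), β (b₁ + b₂) b' = β b₁ b' + β b₂ b')
    (w : X → B') (hw : ∀ (g : G) (x : X), g • w (g⁻¹ • x) = w x)
    (b : G × G → X → B) : D.hh2 (h69s_cupX20 β b w) = h69s_cupX10 β (D.hh2 b) w := by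
  funext g x
  simp only [hh2, h69s_cupX10_of_inv β w hw, h69s_cupX20_of_inv β w hw,
    h69s_map_sub_left β hl]

/-- `hh3 (F ∪ w) = hh3 F ∪ w` for `G`-invariant `w`. -/
theorem h69s_hh3_cupX30 (hl : ∀ (b₁ b₂ : B) (b' : B'), β (b₁ + b₂) b' = β b₁ b' + β b₂ b')
    (w : X → B') (hw : ∀ (g : G) (x : X), g • w (g⁻¹ • x) = w x)
    (F : G × G × G → X → B) : D.hh3 (h69s_cupX30 β F w) = h69s_cupX20 β (D.hh3 F) w := by
  funext p x
  simp only [hh3, h69s_cupX20_of_inv β w hw, h69s_cupX30_of_inv β w hw, hl,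
    h69s_map_sub_left β hl]

/-- `hh1 (m ∪ y) = m ∪ hh1 y` (no invariance needed). -/
theorem h69s_hh1_cupX01 (m : X → B) (y : G → X → B') :
    D.hh1 (h69s_cupX01 β m y) = h69s_cupX00 β m (D.hh1 y) := rfl

/-- `hh2 (m ∪ Y) = m ∪ hh2 Y` (no invariance needed). -/
theorem h69s_hh2_cupX02
    (hr : ∀ (b : B) (b₁' b₂' : B'), β b (b₁' + b₂') = β b b₁' + β b b₂')
    (m : X → B) (Y : G × G → X → B') :
    D.hh2 (h69s_cupX02 β m Y) = h69s_cupX01 β m (D.hh2 Y) := by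
  funext g x
  simp only [hh2, h69s_cupX02, h69s_cupX01, h69s_map_sub_right β hr]

end hh

end h56s_OrbitData

end Fermat.Agent.PT.Shap
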