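import Fermat.Agent.PT.Shap.GlobAsm
import Fermat.Agent.PT.Shap.H97TrOK
import Fermat.Agent.PT.Arith.Wire2

/-!
# PT-SHAP: the final assembly (helper56)

All Shapiro statements of the frozen interface `ShapIface.lean` are proved:

* `h97s_shapTrOK  : h56s_ShapTrOK`   (helper97, `H97TrOK.lean`);
* `h69l_shapInvOK : h56s_ShapInvOK`  (helper69, `Local.lean`);
* `h69l_shapLocal : h56s_ShapLocal`  (helper69, `Local.lean`);
* `h69g_shapGlobal : h56s_ShapGlobal` (helper69 + helper56, `GlobAsm.lean` / `GlobPerf.lean`).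

Hence the arithmetic base case over the fields `L` (trivial coefficients over the restricted
data) is all that remains:

* `h56s_arithBase2_of_L : h56s_ArithBaseL → ArithBase2`;
* `h56s_s55_of_L        : h56s_ArithBaseL →` the frozen statement S55.
-/

set_option autoImplicit false

open CategoryTheory Module groupCohomology ExtCitation

namespace Fermat.Agent.PT.Shap

/-- `ArithBase2` from the base case over the fields `L`, with all Shapiro inputs proved. -/
theorem h56s_arithBase2_of_L (hA : h56s_ArithBaseL) : ArithBase2 :=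
  h56s_arithBase2_of h69g_shapGlobal h69l_shapLocal Bridge.dqGood localAux hA

/-- the frozen statement S55 from the base case over the fields `L`. -/
theorem h56s_s55_of_L (hA : h56s_ArithBaseL)
    {p : ℕ} [Fact p.Prime] (hp2 : p ≠ 2) (S : Finset Nat.Primes) (hpS : pPrime p ∈ S)
    (M : Rep (ZMod p) (AlgebraicClosure ℚ ≃ₐ[ℚ] AlgebraicClosure ℚ))
    [FiniteDimensional (ZMod p) M]
    (hsm : ∀ m : M, ∃ F : IntermediateField ℚ (AlgebraicClosure ℚ), FiniteDimensional ℚ F ∧
      ∀ s ∈ F.fixingSubgroup, M.ρ s m = m)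
    (hMur : ∀ q : Nat.Primes, q ∉ S → ∀ A : ValuationSubring (AlgebraicClosure ℚ),
      A.LiesOverPrime (q : ℕ) → ∀ g ∈ A.inertiaSubgroupIn ℚ, M.ρ g = 1) :
    ∃ B : sha₁ S (M.dualTwist (cycloChar p)) →ₗ[ZMod p] sha₂ S M →ₗ[ZMod p] ZMod p,
      (∀ y, (∀ x, B y x = 0) → y = 0) ∧ (∀ x, (∀ y, B y x = 0) → x = 0) :=
  s55_of_arithBase2 (h56s_arithBase2_of_L hA) hp2 S hpS M hsm hMur

end Fermat.Agent.PT.Shap
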