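import Fermat.Agent.PT.Shap.LocFacts
import Fermat.Agent.PT.Alg.H93CountPair

/-!
# Compatibility of the duality pairing with the Shapiro map of cones

For a cone `1`-cocycle `z'` and a `2`-cocycle `y'` of the restricted datum:
`pair1' z' y' = pair1 (E1 z') (exU2 y')`.
-/

set_option autoImplicit false
set_option linter.unusedSectionVars false

namespace Fermat.Agent.PT.Shap

open MulAction

section sumd

variable {k : Type} [Field k] {H : Type} [Group H] {X : Type} [MulAction H X] [Finite X]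

/-- `Σ_X` commutes with `d¹`. -/
lemma h56s_sumX_d1 (χ : H →* kˣ) (c : H → X → k) :
    (fun q => h56s_sumX (d1 (h56s_ind (X := X) (chiRep χ)) c q))
      = d1 (chiRep χ) (fun h => h56s_sumX (c h)) := by
  funext q
  obtain ⟨g, h⟩ := q
  have e : h56s_ind (X := X) (chiRep χ) g (c h) = (χ g : k) • (fun x => c h (g⁻¹ • x)) := by
    funext x
    simp
  simp only [d1_apply, map_add, map_sub, e, map_smul, h56s_sumX_comp_smul, chiRep_apply,
    smul_eq_mul]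

end sumd

variable {k : Type} [Field k] {D : Datum k} {U : Subgroup D.G}

attribute [local instance] h56s_locAct

section loc

variable (sd : h56s_ShapData D U) [U.FiniteIndex]
variable {B B₁ : Type} [AddCommGroup B] [Module k B] [AddCommGroup B₁] [Module k B₁]
variable {β₀ : B →ₗ[k] B₁ →ₗ[k] k} {τ : Representation k D.G B} {τ₁ : Representation k D.G B₁}

/-- restriction to a local group of the pointwise cup product. -/
lemma h56s_res3_cX12 (v : D.P) (F : D.G → (D.G ⧸ U) → B) (Y : D.G × D.G → (D.G ⧸ U) → B₁) :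
    res3 k _ (D.loc v) (h56s_cX12 β₀ τ₁ F Y)
      = h56s_cX12 β₀ (D.repAt τ₁ v) (res1 k _ (D.loc v) F) (res2 k _ (D.loc v) Y) := by
  funext q x
  obtain ⟨g, h, j⟩ := q
  change β₀ (F (D.loc v g) x) (τ₁ (D.loc v g) (Y (D.loc v h, D.loc v j) ((D.loc v g)⁻¹ • x)))
    = β₀ (F (D.loc v g) x) (τ₁ (D.loc v g) (Y (D.loc v h, D.loc v j) (D.loc v g⁻¹ • x)))
  rw [map_inv]

/-- the local `2`-cochain `res_v (exU2 y')` is a cocycle when `y'` is. -/
lemma h56s_d2_res_exU2 (v : D.P) {y' : U × U → B₁}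
    (hy' : d2 (resRep τ₁ U.subtype) y' = 0) :
    d2 (h56s_ind (X := D.G ⧸ U) (D.repAt τ₁ v)) (res2 k _ (D.loc v) (sd.sec.exU2 τ₁ y')) = 0 := by
  rw [← h56s_res3_d2_ind, sd.sec.exU_d2, hy', h56s_Sec.exU3_zero]
  rfl

/-- the local `1`-cochain `res_v (exU1 a')` is a cocycle when `a'` is. -/
lemma h56s_d1_res_exU1 (v : D.P) {a' : U → B}
    (ha' : d1 (resRep τ U.subtype) a' = 0) :
    d1 (h56s_ind (X := D.G ⧸ U) (D.repAt τ v)) (res1 k _ (D.loc v) (sd.sec.exU1 τ a')) = 0 := by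
  rw [← h56s_res2_d1_ind, sd.sec.exU_d1, ha', h56s_Sec.exU2_zero]
  rfl

/-- local homotopy for the cocycle `Y = res_v (exU2 y')`. -/
lemma h56s_ex_sh_res_exU2 (v : D.P) {y' : U × U → B₁}
    (hy' : d2 (resRep τ₁ U.subtype) y' = 0) :
    @h56s_OrbitData.ex2 (D.H v) (D.G ⧸ U) B₁ _ _ _ (h56s_dma (D.repAt τ₁ v)) (sd.od v)
        ((sd.od v).sh2 (res2 k _ (D.loc v) (sd.sec.exU2 τ₁ y')))
      = res2 k _ (D.loc v) (sd.sec.exU2 τ₁ y')
        + d1 (h56s_ind (X := D.G ⧸ U) (D.repAt τ₁ v))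
            ((sd.od v).hh2 (res2 k _ (D.loc v) (sd.sec.exU2 τ₁ y'))) := by
  set Y := res2 k _ (D.loc v) (sd.sec.exU2 τ₁ y') with hY
  have h0 := h56s_d2_res_exU2 sd v hy'
  rw [← hY, h56s_d2_ind] at h0
  funext q x
  obtain ⟨g, h⟩ := q
  have h2 := @h56s_OrbitData.hom2 (D.H v) (D.G ⧸ U) B₁ _ _ _ (h56s_dma (D.repAt τ₁ v))
    (sd.od v) Y g h x
  rw [h0] at h2
  have h3 : (sd.od v).hh3 (0 : D.H v × D.H v × D.H v → (D.G ⧸ U) → B₁) (g, h) x = 0 := by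
    simp [h56s_OrbitData.hh3]
  rw [h3, sub_zero] at h2
  rw [h56s_d1_ind, Pi.add_apply, Pi.add_apply]
  rw [eq_sub_iff_add_eq] at h2
  exact h2.symm

/-- **the local component of `E3 (z' ∪ y')`** (values in `X → k`). -/
lemma h56s_E3_cup_snd (hβ : IsEquivariant D.chi τ τ₁ β₀) (v : D.P)
    (z' : (h56s_restr D U sd).CC1 B) (y' : U × U → B₁)
    (hy' : d2 (resRep τ₁ U.subtype) y' = 0)
    (hE : res1 k _ (D.loc v) (sd.sec.exU1 τ z'.1)
      = d0 (h56s_ind (X := D.G ⧸ U) (D.repAt τ v)) ((sd.E1 τ z').2 v)) :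
    (sd.E3 (chiRep D.chi)
        ((cup12 β₀ (resRep τ₁ U.subtype) z'.1 y',
          fun p => cup02 β₀ (z'.2 p) (res2 k B₁ ((h56s_restr D U sd).loc p) y')) :
            (h56s_restr D U sd).CC3 k)).2 v
      = h56s_cX02 β₀ ((sd.E1 τ z').2 v) (res2 k _ (D.loc v) (sd.sec.exU2 τ₁ y'))
        + d1 (h56s_ind (X := D.G ⧸ U) (chiRep (D.chiAt v)))
            (h56s_cX01 β₀ ((sd.E1 τ z').2 v)
              ((sd.od v).hh2 (res2 k _ (D.loc v) (sd.sec.exU2 τ₁ y')))) := by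
  have hβv : ∀ h b b₁, β₀ (D.repAt τ v h b) (D.repAt τ₁ v h b₁)
      = (D.chiAt v h : k) * β₀ b b₁ := fun h b b₁ => hβ (D.loc v h) b b₁
  rw [h56s_leib01 (τ := D.repAt τ v) (τ₁ := D.repAt τ₁ v) (D.chiAt v) hβv, ← hE]
  set Y := res2 k _ (D.loc v) (sd.sec.exU2 τ₁ y') with hY
  set f := res1 k _ (D.loc v) (sd.sec.exU1 τ z'.1) with hf
  have e1 : sd.untw2 (chiRep D.chi)
      (fun p => cup02 β₀ (z'.2 p) (res2 k B₁ ((h56s_restr D U sd).loc p) y')) v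
      = fun w q => β₀ (sd.untw0 τ z'.2 v w) ((sd.od v).sh2 Y w q) := by
    rw [hY, sd.sh2_res_exU τ₁ v y']
    funext w q
    simp only [h56s_ShapData.untw2, h56s_ShapData.untw0, chiRep_apply]
    rw [hβ]
    rfl
  have e2 : sd.exL2 (chiRep D.chi) v (fun w q => β₀ (sd.untw0 τ z'.2 v w) ((sd.od v).sh2 Y w q))
      = h56s_cX02 β₀ (sd.exL0 τ v (sd.untw0 τ z'.2 v))
          (@h56s_OrbitData.ex2 (D.H v) (D.G ⧸ U) B₁ _ _ _ (h56s_dma (D.repAt τ₁ v)) (sd.od v)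
            ((sd.od v).sh2 Y)) := by
    rw [h56s_ShapData.exL2_eq, h56s_ShapData.exL0_eq, h93c_chiRep_repAt]
    exact h56s_ex2_cup02 (sd.od v) (D.chiAt v) hβv _ _
  have e3 : res3 k _ (D.loc v)
      (sd.sec.exU3 (chiRep D.chi) (cup12 β₀ (resRep τ₁ U.subtype) z'.1 y'))
      = h56s_cX12 β₀ (D.repAt τ₁ v) f Y := by
    rw [h56s_exU3_cup12 sd.sec D.chi hβ, h56s_res3_cX12]
  have e4 := h56s_hh3_cX12 (β₀ := β₀) (τ₁ := D.repAt τ₁ v) (sd.od v) f Y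
  have e5 := h56s_ex_sh_res_exU2 sd v hy'
  rw [← hY] at e5
  change sd.exL2 (chiRep D.chi) v (sd.untw2 (chiRep D.chi) _ v)
    - (sd.od v).hh3 (res3 k _ (D.loc v) (sd.sec.exU3 (chiRep D.chi) _)) = _
  rw [e1, e2, e3, e4, e5]
  funext q x
  simp only [h56s_ShapData.E1, h56s_cX02, h56s_cX11, Pi.add_apply, Pi.sub_apply, map_sub,
    map_add, LinearMap.sub_apply]
  abel

/-- the correction cochain `Ω`. -/
noncomputable def h56s_Omega (β₀ : B →ₗ[k] B₁ →ₗ[k] k) (τ : Representation k D.G B)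
    (τ₁ : Representation k D.G B₁) (z' : (h56s_restr D U sd).CC1 B) (y' : U × U → B₁) :
    ∀ v : D.P, D.H v → k :=
  fun v h => h56s_sumX (h56s_cX01 β₀ ((sd.E1 τ z').2 v)
    ((sd.od v).hh2 (res2 k _ (D.loc v) (sd.sec.exU2 τ₁ y'))) h)

lemma h56s_Omega_mem (hD : D.Good) (hU : D.lev.IsOpen U)
    (z' : (h56s_restr D U sd).CC1 B) {y' : U × U → B₁}
    (hy' : IsLC2 (D.lev.comap U.subtype) y') :
    (((0 : D.G × D.G → k), h56s_Omega sd β₀ τ τ₁ z' y') : D.CC2 k) ∈ D.lcC2 k := by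
  refine ⟨isLC2_const D.lev (0 : k), fun v _ => ?_⟩
  have h1 : IsLC2 D.lev (sd.sec.exU2 τ₁ y') := sd.sec.isLC2_exU τ₁ hD.1 hU y' hy'
  have h2 : IsLC2 (D.levH v) (res2 k _ (D.loc v) (sd.sec.exU2 τ₁ y')) :=
    Tools.isLC2_res (hD.2.2.2.1 v) h1
  have h3 := sd.isLC1_hh2_loc hD hU v _ h2
  exact h3.comp (fun c : (D.G ⧸ U) → B₁ =>
    h56s_sumX (fun x => β₀ ((sd.E1 τ z').2 v x) (c x)))

/-- **compatibility of the pairings on the cochain level.** -/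
lemma h56s_sumC3_E3_cup (hβ : IsEquivariant D.chi τ τ₁ β₀)
    (z' : (h56s_restr D U sd).CC1 B) (y' : U × U → B₁)
    (hy' : d2 (resRep τ₁ U.subtype) y' = 0)
    (hE : D.coneD1 (h56s_ind (X := D.G ⧸ U) τ) (sd.E1 τ z') = 0) :
    h56s_sumC3 D (D.G ⧸ U) (sd.E3 (chiRep D.chi)
        ((cup12 β₀ (resRep τ₁ U.subtype) z'.1 y',
          fun p => cup02 β₀ (z'.2 p) (res2 k B₁ ((h56s_restr D U sd).loc p) y')) :
            (h56s_restr D U sd).CC3 k))
      = ((cup12 (h56s_betaX β₀) (h56s_ind (X := D.G ⧸ U) τ₁) (sd.E1 τ z').1 (sd.sec.exU2 τ₁ y'),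
          fun v => cup02 (h56s_betaX β₀) ((sd.E1 τ z').2 v)
            (res2 k _ (D.loc v) (sd.sec.exU2 τ₁ y'))) : D.CC3 k)
        - D.coneD2 (chiRep D.chi) ((0, h56s_Omega sd β₀ τ τ₁ z' y') : D.CC2 k) := by
  have hE' : ∀ v, res1 k _ (D.loc v) (sd.sec.exU1 τ z'.1)
      = d0 (h56s_ind (X := D.G ⧸ U) (D.repAt τ v)) ((sd.E1 τ z').2 v) := by
    intro v
    have h1 := congrFun (congrArg Prod.snd hE) v
    rw [Datum.coneD1_apply] at h1
    simp only [Prod.snd_zero, Pi.zero_apply] at h1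
    rw [sub_eq_zero, h56s_repAt_ind] at h1
    exact h1
  refine Prod.ext ?_ (funext fun v => ?_)
  · funext p
    simp only [h56s_sumC3, Datum.coneD2_apply, Prod.fst_sub, Pi.sub_apply, map_zero,
      Pi.zero_apply, sub_zero]
    change ∑ᶠ x, sd.sec.exU3 (chiRep D.chi) (cup12 β₀ (resRep τ₁ U.subtype) z'.1 y') p x = _
    rw [h56s_exU3_cup12 sd.sec D.chi hβ]
    rfl
  · funext q
    simp only [h56s_sumC3, Datum.coneD2_apply, Prod.snd_sub, Pi.sub_apply, map_zero,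
      zero_sub]
    rw [h56s_E3_cup_snd sd hβ v z' y' hy' (hE' v), h93c_chiRep_repAt]
    have hs := congrFun (h56s_sumX_d1 (D.chiAt v) (h56s_cX01 β₀ ((sd.E1 τ z').2 v)
      ((sd.od v).hh2 (res2 k _ (D.loc v) (sd.sec.exU2 τ₁ y'))))) q
    rw [Pi.neg_apply, sub_neg_eq_add]
    change h56s_sumX ((h56s_cX02 β₀ ((sd.E1 τ z').2 v)
        (res2 k _ (D.loc v) (sd.sec.exU2 τ₁ y')) +
      d1 (h56s_ind (X := D.G ⧸ U) (chiRep (D.chiAt v))) (h56s_cX01 β₀ ((sd.E1 τ z').2 v)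
        ((sd.od v).hh2 (res2 k _ (D.loc v) (sd.sec.exU2 τ₁ y'))))) q) = _
    rw [Pi.add_apply, map_add, hs]
    rfl

/-- **compatibility of the duality pairings with the Shapiro map of cones.** -/
theorem h56s_pair1_E (hD : D.Good) (hU : D.lev.IsOpen U) {tr : D.CC3 k →ₗ[k] k}
    (htr : D.TrOK tr) (hβ : IsEquivariant D.chi τ τ₁ β₀)
    (z' : (h56s_restr D U sd).CC1 B) {y' : U × U → B₁}
    (hy' : y' ∈ Z2 (D.lev.comap U.subtype) (resRep τ₁ U.subtype))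
    (hE : D.coneD1 (h56s_ind (X := D.G ⧸ U) τ) (sd.E1 τ z') = 0) :
    (h56s_restr D U sd).pair1 (resRep τ₁ U.subtype) (h56s_trR sd tr) β₀ z' y'
      = D.pair1 (h56s_ind (X := D.G ⧸ U) τ₁) tr (h56s_betaX β₀) (sd.E1 τ z')
          (sd.sec.exU2 τ₁ y') := by
  rw [mem_Z2] at hy'
  unfold Datum.pair1
  rw [h56s_trR_apply, h56s_sumC3_E3_cup sd hβ z' y' hy'.1 hE, map_sub,
    htr _ (Submodule.mem_map_of_mem (f := D.coneD2 (chiRep D.chi))
      (h56s_Omega_mem sd hD hU z' hy'.2)), sub_zero]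

end loc

end Fermat.Agent.PT.Shap
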