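import Fermat.Agent.PT.Shap.CoreHom

/-!
# Shapiro core: level invariance (SH-LC, helper69)

`N` is a normal subgroup of `G` acting trivially on `X`.  The maps `ex`, `sh` and the prism
homotopies `hh` preserve right-invariance under `N` (in every variable).

Key fact: `D.c (g * n) x = D.c g x * n'` with `n' = (sec (g⁻¹ • x))⁻¹ * n * sec (g⁻¹ • x) ∈ N`.
-/

set_option linter.unusedSectionVars false
set_option autoImplicit false

namespace Fermat.Agent.PT.Shap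

open MulAction

variable {G X B : Type*} [Group G] [MulAction G X] [AddCommGroup B] [DistribMulAction G B]

namespace h56s_OrbitData

variable (D : h56s_OrbitData G X)

section LC

variable (N : Subgroup G) [hNn : N.Normal] (hN : ∀ n ∈ N, ∀ x : X, n • x = x)

include hN

omit hNn in
/-- `N` acts trivially, so `(g * n)⁻¹ • x = g⁻¹ • x`. -/
lemma h69s_inv_smul_mul (g n : G) (hn : n ∈ N) (x : X) : (g * n)⁻¹ • x = g⁻¹ • x := by
  rw [mul_inv_rev, mul_smul, hN n⁻¹ (N.inv_mem hn)]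

omit hNn in
/-- `N` is contained in every stabiliser. -/
lemma h69s_mem_stabilizer (n : G) (hn : n ∈ N) (x : X) : n ∈ stabilizer G x :=
  mem_stabilizer_iff.2 (hN n hn x)

omit hN in
/-- conjugates of elements of `N`. -/
lemma h69s_conj_mem (n : G) (hn : n ∈ N) (a : G) : a⁻¹ * n * a ∈ N := by
  have h := hNn.conj_mem n hn a⁻¹
  rwa [inv_inv] at h

omit hN in
/-- moving an element of `N` to the right. -/
lemma h69s_mul_mul_eq (g n h n' : G) : g * n * (h * n') = g * h * (h⁻¹ * n * h * n') := by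
  group

omit hN in
lemma h69s_mul_mul_mem (n h n' : G) (hn : n ∈ N) (hn' : n' ∈ N) : h⁻¹ * n * h * n' ∈ N :=
  N.mul_mem (h69s_conj_mem N n hn h) hn'

/-- **key fact**: `c (g * n) x = c g x * n'`, `n' ∈ N`. -/
lemma h69s_c_mul_right (g n : G) (hn : n ∈ N) (x : X) :
    D.c (g * n) x = D.c g x * ((D.sec (g⁻¹ • x))⁻¹ * n * D.sec (g⁻¹ • x)) := by
  unfold c
  rw [h69s_inv_smul_mul N hN g n hn x]
  group

/-- `cU (g * n) x = cU g x * m` with `m ∈ N`. -/
lemma h69s_cU_mul_right (g n : G) (hn : n ∈ N) (x : X) :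
    ∃ m : stabilizer G (D.repW x).1, (m : G) ∈ N ∧ D.cU (g * n) x = D.cU g x * m := by
  have hm : (D.sec (g⁻¹ • x))⁻¹ * n * D.sec (g⁻¹ • x) ∈ N := h69s_conj_mem N n hn _
  refine ⟨⟨_, h69s_mem_stabilizer N hN _ hm _⟩, hm, ?_⟩
  apply Subtype.ext
  exact h69s_c_mul_right D N hN g n hn x

/-- `cAt k (g * n) x = cAt k g x * m` with `m ∈ N`. -/
lemma h69s_cAt_mul_right (k g n : G) (hn : n ∈ N) (x : X) :
    ∃ m : stabilizer G (D.repW x).1, (m : G) ∈ N ∧ D.cAt k (g * n) x = D.cAt k g x * m := by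
  have hm : (D.sec (g⁻¹ • k⁻¹ • x))⁻¹ * n * D.sec (g⁻¹ • k⁻¹ • x) ∈ N := h69s_conj_mem N n hn _
  refine ⟨⟨_, h69s_mem_stabilizer N hN _ hm _⟩, hm, ?_⟩
  apply Subtype.ext
  exact h69s_c_mul_right D N hN g n hn (k⁻¹ • x)

omit hN in
/-- `cAt k g x` depends on `k` only through `k⁻¹ • x`. -/
lemma h69s_cAt_congr {k k' : G} (g : G) (x : X) (h : k⁻¹ • x = k'⁻¹ • x) :
    D.cAt k g x = D.cAt k' g x := by
  apply Subtype.ext
  simp only [coe_cAt, h]

/-- `cAt (k * n) g x = cAt k g x` for `n ∈ N`. -/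
lemma h69s_cAt_mul_left (k n : G) (hn : n ∈ N) (g : G) (x : X) :
    D.cAt (k * n) g x = D.cAt k g x :=
  h69s_cAt_congr D g x (h69s_inv_smul_mul N hN k n hn x)

/-- `cAt (g * n * (h * n')) j x = cAt (g * h) j x` for `n n' ∈ N`. -/
lemma h69s_cAt_mul_mul_left (g n h n' : G) (hn : n ∈ N) (hn' : n' ∈ N) (j : G) (x : X) :
    D.cAt (g * n * (h * n')) j x = D.cAt (g * h) j x := by
  rw [h69s_mul_mul_eq g n h n']
  exact h69s_cAt_mul_left D N hN (g * h) _ (h69s_mul_mul_mem N n h n' hn hn') j x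

/-! ### (a) `ex` preserves invariance -/

/-- `ex1` preserves right-`N`-invariance. -/
theorem h69s_ex1_inv (φ : (w : D.W) → stabilizer G w.1 → B)
    (hφ : ∀ (w : D.W) (u n : stabilizer G w.1), (n : G) ∈ N → φ w (u * n) = φ w u)
    (g n : G) (hn : n ∈ N) : D.ex1 φ (g * n) = D.ex1 φ g := by
  funext x
  obtain ⟨m, hm, e⟩ := h69s_cU_mul_right D N hN g n hn x
  simp only [ex1]
  rw [e, hφ _ _ m hm]

/-- `ex2` preserves right-`N`-invariance in both variables. -/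
theorem h69s_ex2_inv (φ : (w : D.W) → stabilizer G w.1 × stabilizer G w.1 → B)
    (hφ : ∀ (w : D.W) (u u' n n' : stabilizer G w.1), (n : G) ∈ N → (n' : G) ∈ N →
      φ w (u * n, u' * n') = φ w (u, u'))
    (g g' n n' : G) (hn : n ∈ N) (hn' : n' ∈ N) :
    D.ex2 φ (g * n, g' * n') = D.ex2 φ (g, g') := by
  funext x
  obtain ⟨m, hm, e⟩ := h69s_cU_mul_right D N hN g n hn x
  obtain ⟨m', hm', e'⟩ := h69s_cAt_mul_right D N hN g g' n' hn' x
  simp only [ex2]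
  rw [h69s_cAt_mul_left D N hN g n hn, e, e', hφ _ _ _ m m' hm hm']

/-- `ex3` preserves right-`N`-invariance in all three variables. -/
theorem h69s_ex3_inv
    (φ : (w : D.W) → stabilizer G w.1 × stabilizer G w.1 × stabilizer G w.1 → B)
    (hφ : ∀ (w : D.W) (u u' u'' n n' n'' : stabilizer G w.1), (n : G) ∈ N → (n' : G) ∈ N →
      (n'' : G) ∈ N → φ w (u * n, u' * n', u'' * n'') = φ w (u, u', u''))
    (g g' g'' n n' n'' : G) (hn : n ∈ N) (hn' : n' ∈ N) (hn'' : n'' ∈ N) :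
    D.ex3 φ (g * n, g' * n', g'' * n'') = D.ex3 φ (g, g', g'') := by
  funext x
  obtain ⟨m, hm, e⟩ := h69s_cU_mul_right D N hN g n hn x
  obtain ⟨m', hm', e'⟩ := h69s_cAt_mul_right D N hN g g' n' hn' x
  obtain ⟨m'', hm'', e''⟩ := h69s_cAt_mul_right D N hN (g * g') g'' n'' hn'' x
  simp only [ex3]
  rw [h69s_cAt_mul_left D N hN g n hn, h69s_cAt_mul_mul_left D N hN g n g' n' hn hn', e, e', e'',
    hφ _ _ _ _ m m' m'' hm hm' hm'']

/-! ### (b) `sh` preserves invariance -/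

omit hN hNn in
/-- `sh1` preserves right-`N`-invariance. -/
theorem h69s_sh1_inv (f : G → X → B) (hf : ∀ g s : G, s ∈ N → f (g * s) = f g)
    (w : D.W) (u n : stabilizer G w.1) (hn : (n : G) ∈ N) : D.sh1 f w (u * n) = D.sh1 f w u := by
  simp only [sh1, Subgroup.coe_mul]
  rw [hf _ _ hn]

omit hN hNn in
/-- `sh2` preserves right-`N`-invariance. -/
theorem h69s_sh2_inv (f : G × G → X → B)
    (hf : ∀ g g' s s' : G, s ∈ N → s' ∈ N → f (g * s, g' * s') = f (g, g'))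
    (w : D.W) (u u' n n' : stabilizer G w.1) (hn : (n : G) ∈ N) (hn' : (n' : G) ∈ N) :
    D.sh2 f w (u * n, u' * n') = D.sh2 f w (u, u') := by
  simp only [sh2, Subgroup.coe_mul]
  rw [hf _ _ _ _ hn hn']

omit hN hNn in
/-- `sh3` preserves right-`N`-invariance. -/
theorem h69s_sh3_inv (f : G × G × G → X → B)
    (hf : ∀ g g' g'' s s' s'' : G, s ∈ N → s' ∈ N → s'' ∈ N →
      f (g * s, g' * s', g'' * s'') = f (g, g', g''))
    (w : D.W) (u u' u'' n n' n'' : stabilizer G w.1) (hn : (n : G) ∈ N) (hn' : (n' : G) ∈ N)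
    (hn'' : (n'' : G) ∈ N) :
    D.sh3 f w (u * n, u' * n', u'' * n'') = D.sh3 f w (u, u', u'') := by
  simp only [sh3, Subgroup.coe_mul]
  rw [hf _ _ _ _ _ _ hn hn' hn'']

/-! ### (c) the homotopies preserve invariance -/

/-- `hh2` preserves right-`N`-invariance. -/
theorem h69s_hh2_inv (f : G × G → X → B)
    (hf : ∀ g g' s s' : G, s ∈ N → s' ∈ N → f (g * s, g' * s') = f (g, g'))
    (g n : G) (hn : n ∈ N) : D.hh2 f (g * n) = D.hh2 f g := by
  funext x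
  have hm : (D.sec (g⁻¹ • x))⁻¹ * n * D.sec (g⁻¹ • x) ∈ N := h69s_conj_mem N n hn _
  simp only [hh2]
  rw [h69s_c_mul_right D N hN g n hn x, h69s_inv_smul_mul N hN g n hn x]
  have h1 := hf (D.sec x) (D.c g x) 1 _ N.one_mem hm
  have h2 := hf g (D.sec (g⁻¹ • x)) n 1 hn N.one_mem
  rw [mul_one] at h1 h2
  rw [h1, h2]

/-- `hh3` preserves right-`N`-invariance in both variables. -/
theorem h69s_hh3_inv (f : G × G × G → X → B)
    (hf : ∀ g g' g'' s s' s'' : G, s ∈ N → s' ∈ N → s'' ∈ N →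
      f (g * s, g' * s', g'' * s'') = f (g, g', g''))
    (g g' n n' : G) (hn : n ∈ N) (hn' : n' ∈ N) :
    D.hh3 f (g * n, g' * n') = D.hh3 f (g, g') := by
  funext x
  have hm : (D.sec (g⁻¹ • x))⁻¹ * n * D.sec (g⁻¹ • x) ∈ N := h69s_conj_mem N n hn _
  have hm' : (D.sec (g'⁻¹ • g⁻¹ • x))⁻¹ * n' * D.sec (g'⁻¹ • g⁻¹ • x) ∈ N :=
    h69s_conj_mem N n' hn' _
  have e3 : (g * n * (g' * n'))⁻¹ • x = (g * g')⁻¹ • x := by
    rw [h69s_mul_mul_eq g n g' n']
    exact h69s_inv_smul_mul N hN (g * g') _ (h69s_mul_mul_mem N n g' n' hn hn') x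
  simp only [hh3]
  rw [h69s_c_mul_right D N hN g n hn x, h69s_inv_smul_mul N hN g n hn x,
    h69s_c_mul_right D N hN g' n' hn' (g⁻¹ • x), e3]
  have h1 := hf (D.sec x) (D.c g x) (D.c g' (g⁻¹ • x)) 1 _ _ N.one_mem hm hm'
  have h2 := hf g (D.sec (g⁻¹ • x)) (D.c g' (g⁻¹ • x)) n 1 _ hn N.one_mem hm'
  have h3 := hf g g' (D.sec ((g * g')⁻¹ • x)) n n' 1 hn hn' N.one_mem
  rw [mul_one] at h1 h2 h3
  rw [h1, h2, h3]

/-- `hh4` preserves right-`N`-invariance in all three variables. -/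
theorem h69s_hh4_inv (f : G × G × G × G → X → B)
    (hf : ∀ g g' g'' g''' s s' s'' s''' : G, s ∈ N → s' ∈ N → s'' ∈ N → s''' ∈ N →
      f (g * s, g' * s', g'' * s'', g''' * s''') = f (g, g', g'', g'''))
    (g g' g'' n n' n'' : G) (hn : n ∈ N) (hn' : n' ∈ N) (hn'' : n'' ∈ N) :
    D.hh4 f (g * n, g' * n', g'' * n'') = D.hh4 f (g, g', g'') := by
  funext x
  have hm : (D.sec (g⁻¹ • x))⁻¹ * n * D.sec (g⁻¹ • x) ∈ N := h69s_conj_mem N n hn _
  have hm' : (D.sec (g'⁻¹ • g⁻¹ • x))⁻¹ * n' * D.sec (g'⁻¹ • g⁻¹ • x) ∈ N :=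
    h69s_conj_mem N n' hn' _
  have hm'' : (D.sec (g''⁻¹ • (g * g')⁻¹ • x))⁻¹ * n'' * D.sec (g''⁻¹ • (g * g')⁻¹ • x) ∈ N :=
    h69s_conj_mem N n'' hn'' _
  have e3 : (g * n * (g' * n'))⁻¹ • x = (g * g')⁻¹ • x := by
    rw [h69s_mul_mul_eq g n g' n']
    exact h69s_inv_smul_mul N hN (g * g') _ (h69s_mul_mul_mem N n g' n' hn hn') x
  have e4 : (g * n * (g' * n') * (g'' * n''))⁻¹ • x = (g * g' * g'')⁻¹ • x := by
    rw [h69s_mul_mul_eq g n g' n', h69s_mul_mul_eq (g * g') _ g'' n'']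
    exact h69s_inv_smul_mul N hN (g * g' * g'') _
      (h69s_mul_mul_mem N _ g'' n'' (h69s_mul_mul_mem N n g' n' hn hn') hn'') x
  simp only [hh4]
  rw [h69s_c_mul_right D N hN g n hn x, h69s_inv_smul_mul N hN g n hn x,
    h69s_c_mul_right D N hN g' n' hn' (g⁻¹ • x), e3, e4,
    h69s_c_mul_right D N hN g'' n'' hn'' ((g * g')⁻¹ • x)]
  have h1 := hf (D.sec x) (D.c g x) (D.c g' (g⁻¹ • x)) (D.c g'' ((g * g')⁻¹ • x)) 1 _ _ _
    N.one_mem hm hm' hm''
  have h2 := hf g (D.sec (g⁻¹ • x)) (D.c g' (g⁻¹ • x)) (D.c g'' ((g * g')⁻¹ • x)) n 1 _ _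
    hn N.one_mem hm' hm''
  have h3 := hf g g' (D.sec ((g * g')⁻¹ • x)) (D.c g'' ((g * g')⁻¹ • x)) n n' 1 _
    hn hn' N.one_mem hm''
  have h4 := hf g g' g'' (D.sec ((g * g' * g'')⁻¹ • x)) n n' n'' 1 hn hn' hn'' N.one_mem
  rw [mul_one] at h1 h2 h3 h4
  rw [h1, h2, h3, h4]

/-! ### the differentials preserve invariance -/

omit hNn in
/-- `dX0 f` is right-`N`-invariant if `N` acts trivially on `B`-values, i.e. on `X` and `B`. -/
theorem h69s_dX0_inv (hB : ∀ n ∈ N, ∀ b : B, n • b = b) (f : X → B) (g n : G) (hn : n ∈ N) :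
    h56s_dX0 f (g * n) = h56s_dX0 f g := by
  funext x
  simp only [h56s_dX0]
  rw [h69s_inv_smul_mul N hN g n hn x, mul_smul, hB n hn]

/-- `dX1` preserves right-`N`-invariance (`N` acting trivially on `X` and `B`). -/
theorem h69s_dX1_inv (hB : ∀ n ∈ N, ∀ b : B, n • b = b) (f : G → X → B)
    (hf : ∀ g s : G, s ∈ N → f (g * s) = f g)
    (g g' n n' : G) (hn : n ∈ N) (hn' : n' ∈ N) :
    h56s_dX1 f (g * n, g' * n') = h56s_dX1 f (g, g') := by
  funext x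
  simp only [h56s_dX1]
  have e : g * n * (g' * n') = g * g' * (g'⁻¹ * n * g' * n') := h69s_mul_mul_eq g n g' n'
  rw [h69s_inv_smul_mul N hN g n hn x, mul_smul, hB n hn, hf g' n' hn', hf g n hn, e,
    hf (g * g') _ (h69s_mul_mul_mem N n g' n' hn hn')]

end LC

end h56s_OrbitData

end Fermat.Agent.PT.Shap
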