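import Fermat.Agent.PT.Shap.Sec
import Fermat.Agent.PT.Shap.LC

/-!
# One-group Shapiro in the language of `PT/Defs.lean`: identities

`s : h56s_Sec G U`, `τ : Representation k G B`, `τ' = resRep τ U.subtype`.
* `exU_d*` / `shU_d*` : `exU`, `shU` are chain maps;
* `shU_exU*`          : `shU ∘ exU = id`;
* `homU*`             : `f = exU (shU f) - d (hh f) - hh (d f)`.
-/

set_option autoImplicit false
set_option linter.unusedSectionVars false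

namespace Fermat.Agent.PT.Shap

open MulAction

namespace h56s_Sec

variable {k : Type} [CommRing k] {G : Type} [Group G] {U : Subgroup G} (s : h56s_Sec G U)
variable {B : Type} [AddCommGroup B] [Module k B] (τ : Representation k G B)

/-! ### `exU` is a chain map -/

lemma exU_d0 (a : B) :
    d0 (h56s_ind (X := G ⧸ U) τ) (s.exU0 τ a) = s.exU1 τ (d0 (resRep τ U.subtype) a) := by
  rw [h56s_d0_ind, exU0_eq, exU1_eq]
  exact @h56s_OrbitData.ex_d0 G (G ⧸ U) B _ _ _ (h56s_dma τ) s.god (s.lift0 a)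

lemma exU_d1 (a : U → B) :
    d1 (h56s_ind (X := G ⧸ U) τ) (s.exU1 τ a) = s.exU2 τ (d1 (resRep τ U.subtype) a) := by
  rw [h56s_d1_ind, exU1_eq, exU2_eq]
  exact @h56s_OrbitData.ex_d1 G (G ⧸ U) B _ _ _ (h56s_dma τ) s.god (s.lift1 a)

lemma exU_d2 (a : U × U → B) :
    d2 (h56s_ind (X := G ⧸ U) τ) (s.exU2 τ a) = s.exU3 τ (d2 (resRep τ U.subtype) a) := by
  rw [h56s_d2_ind, exU2_eq, exU3_eq]
  exact @h56s_OrbitData.ex_d2 G (G ⧸ U) B _ _ _ (h56s_dma τ) s.god (s.lift2 a)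

/-! ### `shU` is a chain map -/

lemma inv_smul_base (_s : h56s_Sec G U) (u : U) :
    (u : G)⁻¹ • (QuotientGroup.mk 1 : G ⧸ U) = QuotientGroup.mk 1 := by
  rw [MulAction.Quotient.smul_mk, smul_eq_mul, mul_one]
  exact QuotientGroup.eq.2 (by simp)

lemma shU_d0 (f : (G ⧸ U) → B) :
    s.shU1 (d0 (h56s_ind (X := G ⧸ U) τ) f) = d0 (resRep τ U.subtype) (s.shU0 f) := by
  funext u
  simp only [shU1, shU0, d0_apply, h56s_ind_apply, Pi.sub_apply, resRep_apply,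
    Subgroup.coe_subtype, s.inv_smul_base]

lemma shU_d1 (f : G → (G ⧸ U) → B) :
    s.shU2 (d1 (h56s_ind (X := G ⧸ U) τ) f) = d1 (resRep τ U.subtype) (s.shU1 f) := by
  funext p
  obtain ⟨u, v⟩ := p
  simp only [shU1, shU2, d1_apply, h56s_ind_apply, Pi.sub_apply, Pi.add_apply, resRep_apply,
    Subgroup.coe_subtype, s.inv_smul_base, Subgroup.coe_mul]

lemma shU_d2 (f : G × G → (G ⧸ U) → B) :
    s.shU3 (d2 (h56s_ind (X := G ⧸ U) τ) f) = d2 (resRep τ U.subtype) (s.shU2 f) := by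
  funext p
  obtain ⟨u, v, w⟩ := p
  simp only [shU2, shU3, d2_apply, h56s_ind_apply, Pi.sub_apply, Pi.add_apply, resRep_apply,
    Subgroup.coe_subtype, s.inv_smul_base, Subgroup.coe_mul]

/-! ### `shU ∘ exU = id` -/

lemma shU_exU0 (a : B) : s.shU0 (s.exU0 τ a) = a := by
  simp [shU0, exU0, s.gsec_one]

lemma shU_exU1 (a : U → B) : s.shU1 (s.exU1 τ a) = a := by
  rw [shU1_eq, exU1_eq,
    @h56s_OrbitData.sh_ex1 G (G ⧸ U) B _ _ _ (h56s_dma τ) s.god (s.lift1 a), drop_lift1]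

lemma shU_exU2 (a : U × U → B) : s.shU2 (s.exU2 τ a) = a := by
  rw [shU2_eq, exU2_eq,
    @h56s_OrbitData.sh_ex2 G (G ⧸ U) B _ _ _ (h56s_dma τ) s.god (s.lift2 a), drop_lift2]

lemma shU_exU3 (a : U × U × U → B) : s.shU3 (s.exU3 τ a) = a := by
  rw [shU3_eq, exU3_eq,
    @h56s_OrbitData.sh_ex3 G (G ⧸ U) B _ _ _ (h56s_dma τ) s.god (s.lift3 a), drop_lift3]

/-! ### the homotopy -/

lemma exU_shU1 (f : G → (G ⧸ U) → B) :
    s.exU1 τ (s.shU1 f) = @h56s_OrbitData.ex1 G (G ⧸ U) B _ _ _ (h56s_dma τ) s.god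
      (s.god.sh1 f) := by
  rw [exU1_eq, shU1_eq, lift_drop1]

lemma exU_shU2 (f : G × G → (G ⧸ U) → B) :
    s.exU2 τ (s.shU2 f) = @h56s_OrbitData.ex2 G (G ⧸ U) B _ _ _ (h56s_dma τ) s.god
      (s.god.sh2 f) := by
  rw [exU2_eq, shU2_eq, lift_drop2]

lemma exU_shU3 (f : G × G × G → (G ⧸ U) → B) :
    s.exU3 τ (s.shU3 f) = @h56s_OrbitData.ex3 G (G ⧸ U) B _ _ _ (h56s_dma τ) s.god
      (s.god.sh3 f) := by
  rw [exU3_eq, shU3_eq, lift_drop3]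

/-- degree 0: `f = ex (sh f) - hh (d f)`. -/
lemma homU0 (f : (G ⧸ U) → B) :
    f = s.exU0 τ (s.shU0 f) - s.god.hh1 (d0 (h56s_ind (X := G ⧸ U) τ) f) := by
  funext x
  have h : (s.gsec x)⁻¹ • x = (QuotientGroup.mk 1 : G ⧸ U) := by
    rw [inv_smul_eq_iff, s.gsec_smul]
  simp [exU0, shU0, h56s_OrbitData.hh1, h]

/-- degree 1: `f = ex (sh f) - d (hh f) - hh (d f)`. -/
lemma homU1 (f : G → (G ⧸ U) → B) :
    f = s.exU1 τ (s.shU1 f) - d0 (h56s_ind (X := G ⧸ U) τ) (s.god.hh1 f)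
      - s.god.hh2 (d1 (h56s_ind (X := G ⧸ U) τ) f) := by
  funext g x
  rw [exU_shU1, h56s_d0_ind, h56s_d1_ind]
  exact @h56s_OrbitData.hom1 G (G ⧸ U) B _ _ _ (h56s_dma τ) s.god f g x

/-- degree 2. -/
lemma homU2 (f : G × G → (G ⧸ U) → B) :
    f = s.exU2 τ (s.shU2 f) - d1 (h56s_ind (X := G ⧸ U) τ) (s.god.hh2 f)
      - s.god.hh3 (d2 (h56s_ind (X := G ⧸ U) τ) f) := by
  funext p x
  obtain ⟨g, h⟩ := p
  rw [exU_shU2, h56s_d1_ind, h56s_d2_ind]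
  exact @h56s_OrbitData.hom2 G (G ⧸ U) B _ _ _ (h56s_dma τ) s.god f g h x

/-- degree 3. -/
lemma homU3 (f : G × G × G → (G ⧸ U) → B) :
    f = s.exU3 τ (s.shU3 f) - d2 (h56s_ind (X := G ⧸ U) τ) (s.god.hh3 f)
      - s.god.hh4 (d3 (h56s_ind (X := G ⧸ U) τ) f) := by
  funext p x
  obtain ⟨g, h, j⟩ := p
  rw [exU_shU3, h56s_d2_ind, h56s_d3_ind]
  exact @h56s_OrbitData.hom3 G (G ⧸ U) B _ _ _ (h56s_dma τ) s.god f g h j x

end h56s_Sec

end Fermat.Agent.PT.Shap
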