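import Fermat.Agent.PT.Shap.Cone
import Fermat.Agent.PT.Shap.SecThm
import Fermat.Agent.PT.Shap.SecLC
import Fermat.Agent.PT.Alg.Tools

/-!
# PT-SHAP-ECHAIN (helper97): the Shapiro map of cones is a chain map and preserves level-constancy

Notation: `D' = h56s_restr D U sd`, `τ : Representation k D.G B`, `τ' = resRep τ U.subtype`,
`X = D.G ⧸ U`.

* `h56s_ShapData.h97s_E1_coneD0` : `E₁ (d'⁰ α') = d⁰ (exU₀ α')`                       (EC0)
* `h56s_ShapData.h97s_E2_coneD1` : `E₂ (d'¹ z') = d¹ (E₁ z')`                          (EC1)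
* `h56s_ShapData.h97s_E3_coneD2` : `E₃ (d'² z') = d² (E₂ z')`                          (EC2)
* `h56s_ShapData.h97s_E1_mem_lcC1`, `h97s_E2_mem_lcC2`, `h97s_E3_mem_lcC3` : `E_n` maps
  level-constant cone cochains of `D'` to level-constant cone cochains of `D`      (ELC)

Auxiliary: `h97s_repAt_ind` (restriction of the induced representation to a local group),
`h97s_cc_loc` (the `U`-valued cocycle on a stabiliser is `locR`), the strict identities
`h97s_sh1_exU1`, `h97s_sh2_exU2`, and `h97s_untw1_d0`, `h97s_untw2_d1`.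
-/

set_option autoImplicit false
set_option linter.unusedSectionVars false
set_option linter.style.haveILetI false

namespace Fermat.Agent.PT.Shap

open MulAction

variable {k : Type} [Field k] {D : Datum k} {U : Subgroup D.G}

attribute [local instance] h56s_locAct

namespace h56s_ShapData

variable (sd : h56s_ShapData D U)
variable {B : Type} [AddCommGroup B] [Module k B] (τ : Representation k D.G B)

/-! ### the local action on the induced module -/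

/-- the restriction to the local group of the induced representation is the induced
representation of the restriction (for the action of the local group on `D.G ⧸ U`). -/
lemma h97s_repAt_ind (v : D.P) :
    D.repAt (h56s_ind (X := D.G ⧸ U) τ) v = h56s_ind (X := D.G ⧸ U) (D.repAt τ v) := by
  ext h f x
  simp only [Datum.repAt, resRep_apply, h56s_ind_apply, h56s_locAct_smul, map_inv]

lemma h97s_stab_inv_smul (v : D.P) (w : (sd.od v).W) (u : stabilizer (D.H v) w.1) :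
    (D.loc v u)⁻¹ • w.1 = w.1 := by
  rw [inv_smul_eq_iff]
  exact (mem_stabilizer_iff.1 u.2).symm

/-- for `u` in the stabiliser of `w.1` the `U`-valued cocycle at `w.1` is `locR`. -/
lemma h97s_cc_loc (v : D.P) (w : (sd.od v).W) (u : stabilizer (D.H v) w.1) :
    sd.sec.cc (D.loc v u) w.1 = sd.locR v w u := by
  apply Subtype.ext
  rw [h56s_Sec.coe_cc, coe_locR, sd.h97s_stab_inv_smul v w u]

lemma h97s_stab_mul_inv_smul (v : D.P) (w : (sd.od v).W) (u u' : stabilizer (D.H v) w.1) :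
    (D.loc v u * D.loc v u')⁻¹ • w.1 = w.1 := by
  rw [mul_inv_rev, mul_smul, sd.h97s_stab_inv_smul v w u, sd.h97s_stab_inv_smul v w u']

/-! ### the strict identities `sh_v (res_v (exU a')) = untw (res' a')` -/

variable [U.FiniteIndex]

lemma h97s_sh0_exU0 (a' : B) (v : D.P) :
    (sd.od v).sh0 (sd.sec.exU0 τ a') = sd.untw0 τ (fun _ => a') v := rfl

lemma h97s_sh1_exU1 (a' : U → B) (v : D.P) :
    (sd.od v).sh1 (res1 k (D.G ⧸ U → B) (D.loc v) (sd.sec.exU1 τ a'))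
      = sd.untw1 τ (fun p => res1 k B ((h56s_restr D U sd).loc p) a') v := by
  funext w u
  simp only [h56s_OrbitData.sh1, res1_apply, h56s_Sec.exU1, untw1, sd.h97s_cc_loc v w u]

lemma h97s_sh2_exU2 (a' : U × U → B) (v : D.P) :
    (sd.od v).sh2 (res2 k (D.G ⧸ U → B) (D.loc v) (sd.sec.exU2 τ a'))
      = sd.untw2 τ (fun p => res2 k B ((h56s_restr D U sd).loc p) a') v := by
  funext w q
  obtain ⟨u, u'⟩ := q
  simp only [h56s_OrbitData.sh2, res2_apply, h56s_Sec.exU2, untw2,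
    sd.h97s_stab_inv_smul v w u, sd.h97s_cc_loc v w u, sd.h97s_cc_loc v w u']
/-! ### `untw` and the differentials -/

lemma h97s_tau_gsec_locR (v : D.P) (w : (sd.od v).W) (u : stabilizer (D.H v) w.1) (b : B) :
    τ (sd.gsec w.1) (τ ((sd.locR v w u : U) : D.G) b) = τ (D.loc v u) (τ (sd.gsec w.1) b) := by
  rw [coe_locR, ← Tools.rho_mul, ← Tools.rho_mul]
  congr 2
  group

lemma h97s_untw1_d0 (b' : (h56s_restr D U sd).P → B) (v : D.P) (w : (sd.od v).W)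
    (u : stabilizer (D.H v) w.1) :
    sd.untw1 τ (fun p => d0 ((h56s_restr D U sd).repAt (resRep τ U.subtype) p) (b' p)) v w u
      = τ (D.loc v u) (sd.untw0 τ b' v w) - sd.untw0 τ b' v w := by
  simp only [untw1, untw0, d0_apply, Datum.repAt, resRep_apply, map_sub, Subgroup.coe_subtype]
  rw [← sd.h97s_tau_gsec_locR τ v w u]

lemma h97s_untw2_d1 (b' : ∀ p : (h56s_restr D U sd).P, (h56s_restr D U sd).H p → B) (v : D.P)
    (w : (sd.od v).W) (u u' : stabilizer (D.H v) w.1) :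
    sd.untw2 τ (fun p => d1 ((h56s_restr D U sd).repAt (resRep τ U.subtype) p) (b' p)) v w (u, u')
      = τ (D.loc v u) (sd.untw1 τ b' v w u') - sd.untw1 τ b' v w (u * u')
        + sd.untw1 τ b' v w u := by
  simp only [untw2, untw1, d1_apply, Datum.repAt, resRep_apply, map_sub, map_add,
    Subgroup.coe_subtype]
  rw [← sd.h97s_tau_gsec_locR τ v w u]

/-! ### the cone map is a chain map -/

lemma h97s_loc_sec_inv_smul (v : D.P) (x : D.G ⧸ U) :
    (D.loc v ((sd.od v).sec x))⁻¹ • x = (sd.od v).rep x := by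
  have h := (sd.od v).sec_inv_smul x
  rwa [h56s_locAct_smul, map_inv] at h

/-- **(EC0)** -/
theorem h97s_E1_coneD0 (α' : B) :
    sd.E1 τ ((h56s_restr D U sd).coneD0 (resRep τ U.subtype) α')
      = D.coneD0 (h56s_ind (X := D.G ⧸ U) τ) (sd.sec.exU0 τ α') := by
  refine Prod.ext ?_ ?_
  · exact (sd.sec.exU_d0 τ α').symm
  · funext v x
    simp only [E1, Datum.coneD0_apply, Pi.sub_apply]
    rw [← sd.sec.exU_d0 τ α']
    simp only [exL0, untw0, h56s_OrbitData.hh1, res1_apply, d0_apply, h56s_ind_apply,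
      Pi.sub_apply, sd.h97s_loc_sec_inv_smul v x, h56s_Sec.exU0, h56s_OrbitData.repW]
    abel

/-! ### conversions to the core differentials at a place -/

lemma h97s_d0_loc (v : D.P) (g : D.G ⧸ U → B) :
    d0 (D.repAt (h56s_ind (X := D.G ⧸ U) τ) v) g
      = @h56s_dX0 (D.H v) (D.G ⧸ U) B _ _ _ (h56s_dma (D.repAt τ v)) g := by
  rw [h97s_repAt_ind]; rfl

lemma h97s_d1_loc (v : D.P) (f : D.H v → D.G ⧸ U → B) :
    d1 (D.repAt (h56s_ind (X := D.G ⧸ U) τ) v) f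
      = @h56s_dX1 (D.H v) (D.G ⧸ U) B _ _ _ (h56s_dma (D.repAt τ v)) f := by
  rw [h97s_repAt_ind]; rfl

lemma h97s_d2_loc (v : D.P) (f : D.H v × D.H v → D.G ⧸ U → B) :
    d2 (D.repAt (h56s_ind (X := D.G ⧸ U) τ) v) f
      = @h56s_dX2 (D.H v) (D.G ⧸ U) B _ _ _ (h56s_dma (D.repAt τ v)) f := by
  rw [h97s_repAt_ind]; rfl

/-- `res_v (exU (d a')) = d_v (res_v (exU a'))`, degree 1. -/
lemma h97s_res_exU_d1 (a' : U → B) (v : D.P) :
    res2 k (D.G ⧸ U → B) (D.loc v) (sd.sec.exU2 τ (d1 (resRep τ U.subtype) a'))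
      = @h56s_dX1 (D.H v) (D.G ⧸ U) B _ _ _ (h56s_dma (D.repAt τ v))
          (res1 k (D.G ⧸ U → B) (D.loc v) (sd.sec.exU1 τ a')) := by
  rw [← sd.sec.exU_d1 τ a', ← Tools.d1_res, ← h97s_d1_loc]
  rfl

/-- `res_v (exU (d a')) = d_v (res_v (exU a'))`, degree 2. -/
lemma h97s_res_exU_d2 (a' : U × U → B) (v : D.P) :
    res3 k (D.G ⧸ U → B) (D.loc v) (sd.sec.exU3 τ (d2 (resRep τ U.subtype) a'))
      = @h56s_dX2 (D.H v) (D.G ⧸ U) B _ _ _ (h56s_dma (D.repAt τ v))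
          (res2 k (D.G ⧸ U → B) (D.loc v) (sd.sec.exU2 τ a')) := by
  rw [← sd.sec.exU_d2 τ a', ← Tools.d2_res, ← h97s_d2_loc]
  rfl

/-- the local part of `E₂ ∘ d`, first summand. -/
lemma h97s_exL1_untw1_coneD1 (a' : U → B) (b' : (h56s_restr D U sd).P → B) (v : D.P) :
    sd.exL1 τ v (sd.untw1 τ (fun p => res1 k B ((h56s_restr D U sd).loc p) a'
        - d0 ((h56s_restr D U sd).repAt (resRep τ U.subtype) p) (b' p)) v)
      = @h56s_OrbitData.ex1 (D.H v) (D.G ⧸ U) B _ _ _ (h56s_dma (D.repAt τ v)) (sd.od v)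
          ((sd.od v).sh1 (res1 k (D.G ⧸ U → B) (D.loc v) (sd.sec.exU1 τ a')))
        - d0 (D.repAt (h56s_ind (X := D.G ⧸ U) τ) v) (sd.exL0 τ v (sd.untw0 τ b' v)) := by
  rw [h97s_d0_loc, exL0_eq,
    @h56s_OrbitData.ex_d0 (D.H v) (D.G ⧸ U) B _ _ _ (h56s_dma (D.repAt τ v)) (sd.od v),
    sd.h97s_sh1_exU1 τ a' v]
  funext h x
  have e := sd.h97s_untw1_d0 τ b' v ((sd.od v).repW x) ((sd.od v).cU h x)
  simp only [exL1, untw1, Pi.sub_apply, map_sub] at e ⊢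
  rw [e]
  rfl

/-- the local part of `E₃ ∘ d`, first summand. -/
lemma h97s_exL2_untw2_coneD2 (a' : U × U → B)
    (b' : ∀ p : (h56s_restr D U sd).P, (h56s_restr D U sd).H p → B) (v : D.P) :
    sd.exL2 τ v (sd.untw2 τ (fun p => res2 k B ((h56s_restr D U sd).loc p) a'
        - d1 ((h56s_restr D U sd).repAt (resRep τ U.subtype) p) (b' p)) v)
      = @h56s_OrbitData.ex2 (D.H v) (D.G ⧸ U) B _ _ _ (h56s_dma (D.repAt τ v)) (sd.od v)
          ((sd.od v).sh2 (res2 k (D.G ⧸ U → B) (D.loc v) (sd.sec.exU2 τ a')))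
        - d1 (D.repAt (h56s_ind (X := D.G ⧸ U) τ) v) (sd.exL1 τ v (sd.untw1 τ b' v)) := by
  rw [h97s_d1_loc, exL1_eq,
    @h56s_OrbitData.ex_d1 (D.H v) (D.G ⧸ U) B _ _ _ (h56s_dma (D.repAt τ v)) (sd.od v),
    sd.h97s_sh2_exU2 τ a' v]
  funext q x
  obtain ⟨h, h'⟩ := q
  have e := sd.h97s_untw2_d1 τ b' v ((sd.od v).repW x) ((sd.od v).cU h x)
    ((sd.od v).cAt h h' x)
  simp only [exL2, untw2, Pi.sub_apply, map_sub] at e ⊢
  rw [e]
  rfl

/-- **(EC1)** -/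
theorem h97s_E2_coneD1 (z' : (h56s_restr D U sd).CC1 B) :
    sd.E2 τ ((h56s_restr D U sd).coneD1 (resRep τ U.subtype) z')
      = D.coneD1 (h56s_ind (X := D.G ⧸ U) τ) (sd.E1 τ z') := by
  obtain ⟨a', b'⟩ := z'
  refine Prod.ext ?_ ?_
  · exact (sd.sec.exU_d1 τ a').symm
  · funext v
    simp only [E2, E1, Datum.coneD1_apply]
    rw [sd.h97s_exL1_untw1_coneD1 τ a' b' v, sd.h97s_res_exU_d1 τ a' v, map_sub]
    rw [h97s_d0_loc τ v ((sd.od v).hh1 _)]
    funext h x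
    have e := @h56s_OrbitData.hom1 (D.H v) (D.G ⧸ U) B _ _ _ (h56s_dma (D.repAt τ v)) (sd.od v)
        (res1 k (D.G ⧸ U → B) (D.loc v) (sd.sec.exU1 τ a')) h x
    simp only [Pi.sub_apply]
    generalize res1 k (D.G ⧸ U → B) (D.loc v) (sd.sec.exU1 τ a') h x = F at e ⊢
    rw [e]
    abel

/-- **(EC2)** -/
theorem h97s_E3_coneD2 (z' : (h56s_restr D U sd).CC2 B) :
    sd.E3 τ ((h56s_restr D U sd).coneD2 (resRep τ U.subtype) z')
      = D.coneD2 (h56s_ind (X := D.G ⧸ U) τ) (sd.E2 τ z') := by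
  obtain ⟨a', b'⟩ := z'
  refine Prod.ext ?_ ?_
  · exact (sd.sec.exU_d2 τ a').symm
  · funext v
    simp only [E3, E2, Datum.coneD2_apply]
    rw [sd.h97s_exL2_untw2_coneD2 τ a' b' v, sd.h97s_res_exU_d2 τ a' v, map_sub]
    rw [h97s_d1_loc τ v ((sd.od v).hh2 _)]
    funext q x
    obtain ⟨h, h'⟩ := q
    have e := @h56s_OrbitData.hom2 (D.H v) (D.G ⧸ U) B _ _ _ (h56s_dma (D.repAt τ v)) (sd.od v)
        (res2 k (D.G ⧸ U → B) (D.loc v) (sd.sec.exU2 τ a')) h h' x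
    simp only [Pi.sub_apply]
    generalize res2 k (D.G ⧸ U → B) (D.loc v) (sd.sec.exU2 τ a') (h, h') x = F at e ⊢
    rw [e]
    abel

/-! ### level-constancy -/

/-- a normal local level below a given one which acts trivially on `D.G ⧸ U`. -/
lemma h97s_exists_level (hD : D.Good) (hU : D.lev.IsOpen U) (v : D.P)
    (N₁ : Subgroup (D.H v)) (hN₁ : N₁ ∈ (D.levH v).sets) :
    ∃ N ∈ (D.levH v).sets, N.Normal ∧ N ≤ N₁ ∧ ∀ n ∈ N, ∀ x : D.G ⧸ U, n • x = x := by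
  obtain ⟨h1, h2, -, h4, -⟩ := hD
  obtain ⟨M, hM, hMU⟩ := hU
  obtain ⟨M', hM', hle'⟩ := h4 v M hM
  obtain ⟨N, hN, hle⟩ := (D.levH v).directed N₁ hN₁ M' hM'
  refine ⟨N, hN, (h2 v N hN).1, fun n hn => (hle hn).1, fun n hn x => ?_⟩
  rw [h56s_locAct_smul]
  exact h56s_smul_eq_of_normal_le (h1 M hM).1 hMU _ (hle' (hle hn).2) x

lemma h97s_finite_W (v : D.P) : Finite (sd.od v).W := by
  haveI : Finite (D.G ⧸ U) := Subgroup.finite_quotient_of_finiteIndex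
  exact Subtype.finite

/-- a common level for the local components above `v`, degree 1. -/
lemma h97s_common_level1 (v : D.P)
    (b' : ∀ p : (h56s_restr D U sd).P, (h56s_restr D U sd).H p → B)
    (hb : ∀ p, IsLC1 ((h56s_restr D U sd).levH p) (b' p)) :
    ∃ N ∈ (D.levH v).sets, ∀ (w : (sd.od v).W) (u n : stabilizer (D.H v) w.1),
      (n : D.H v) ∈ N → b' ⟨v, w⟩ (u * n) = b' ⟨v, w⟩ u := by
  classical
  haveI := sd.h97s_finite_W v
  haveI : Fintype (sd.od v).W := Fintype.ofFinite _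
  have h : ∀ w : (sd.od v).W, ∃ N ∈ (D.levH v).sets, ∀ (u n : stabilizer (D.H v) w.1),
      (n : D.H v) ∈ N → b' ⟨v, w⟩ (u * n) = b' ⟨v, w⟩ u := by
    intro w
    obtain ⟨_, ⟨N, hN, rfl⟩, h⟩ := hb ⟨v, w⟩
    exact ⟨N, hN, fun u n hn => h u n hn⟩
  choose N hN hfix using h
  obtain ⟨M, hM, hle⟩ := Tools.exists_level_le_of_finite (D.levH v) Finset.univ N
    (fun w _ => hN w)
  exact ⟨M, hM, fun w u n hn => hfix w u n (hle w (Finset.mem_univ w) hn)⟩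

/-- a common level for the local components above `v`, degree 2. -/
lemma h97s_common_level2 (v : D.P)
    (b' : ∀ p : (h56s_restr D U sd).P, (h56s_restr D U sd).H p × (h56s_restr D U sd).H p → B)
    (hb : ∀ p, IsLC2 ((h56s_restr D U sd).levH p) (b' p)) :
    ∃ N ∈ (D.levH v).sets, ∀ (w : (sd.od v).W) (u u' n n' : stabilizer (D.H v) w.1),
      (n : D.H v) ∈ N → (n' : D.H v) ∈ N → b' ⟨v, w⟩ (u * n, u' * n') = b' ⟨v, w⟩ (u, u') := by
  classical
  haveI := sd.h97s_finite_W v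
  haveI : Fintype (sd.od v).W := Fintype.ofFinite _
  have h : ∀ w : (sd.od v).W, ∃ N ∈ (D.levH v).sets, ∀ (u u' n n' : stabilizer (D.H v) w.1),
      (n : D.H v) ∈ N → (n' : D.H v) ∈ N →
        b' ⟨v, w⟩ (u * n, u' * n') = b' ⟨v, w⟩ (u, u') := by
    intro w
    obtain ⟨_, ⟨N, hN, rfl⟩, h⟩ := hb ⟨v, w⟩
    exact ⟨N, hN, fun u u' n n' hn hn' => h u u' n n' hn hn'⟩
  choose N hN hfix using h
  obtain ⟨M, hM, hle⟩ := Tools.exists_level_le_of_finite (D.levH v) Finset.univ N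
    (fun w _ => hN w)
  exact ⟨M, hM, fun w u u' n n' hn hn' =>
    hfix w u u' n n' (hle w (Finset.mem_univ w) hn) (hle w (Finset.mem_univ w) hn')⟩

lemma h97s_isCont_loc (hD : D.Good) (v : D.P) : Tools.IsCont (D.levH v) D.lev (D.loc v) :=
  hD.2.2.2.1 v

/-- **(ELC1)** -/
theorem h97s_E1_mem_lcC1 (hD : D.Good) (hU : D.lev.IsOpen U)
    {z' : (h56s_restr D U sd).CC1 B} (hz : z' ∈ (h56s_restr D U sd).lcC1 B) :
    sd.E1 τ z' ∈ D.lcC1 (D.G ⧸ U → B) := by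
  obtain ⟨h1, -⟩ := hz
  exact ⟨sd.sec.isLC1_exU τ hD.1 hU z'.1 h1, Submodule.mem_top⟩

/-- the local part of `E₂` is level-constant. -/
lemma h97s_E2_local_isLC1 (hD : D.Good) (hU : D.lev.IsOpen U)
    {z' : (h56s_restr D U sd).CC2 B} (hz : z' ∈ (h56s_restr D U sd).lcC2 B) (v : D.P) :
    IsLC1 (D.levH v) ((sd.E2 τ z').2 v) := by
  obtain ⟨h1, h2⟩ := hz
  have hb : ∀ p, IsLC1 ((h56s_restr D U sd).levH p) (z'.2 p) := fun p => h2 p (Set.mem_univ p)
  obtain ⟨N₁, hN₁, hfix⟩ := sd.h97s_common_level1 v z'.2 hb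
  have hres : IsLC2 (D.levH v) (res2 k (D.G ⧸ U → B) (D.loc v) (sd.sec.exU2 τ z'.1)) :=
    Tools.res_mem_lc2 (h97s_isCont_loc hD v) (sd.sec.isLC2_exU τ hD.1 hU z'.1 h1)
  obtain ⟨N₂, hN₂, hfix₂⟩ := hres
  obtain ⟨N₃, hN₃, hle₃⟩ := (D.levH v).directed N₁ hN₁ N₂ hN₂
  obtain ⟨N, hN, hn, hle, htriv⟩ := h97s_exists_level hD hU v N₃ hN₃
  refine ⟨N, hN, fun g n hnN => ?_⟩
  simp only [E2, Pi.sub_apply]
  rw [exL1_eq]
  rw [@h56s_OrbitData.h69s_ex1_inv (D.H v) (D.G ⧸ U) B _ _ _ (h56s_dma (D.repAt τ v)) (sd.od v)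
      N hn htriv (sd.untw1 τ z'.2 v)
      (fun w u m hm => by
        simp only [untw1]
        rw [hfix w u m (hle₃ (hle hm)).1]) g n hnN,
    @h56s_OrbitData.h69s_hh2_inv (D.H v) (D.G ⧸ U) B _ _ _ (h56s_dma (D.repAt τ v)) (sd.od v)
      N hn htriv _
      (fun g g' m m' hm hm' => hfix₂ g g' m m' (hle₃ (hle hm)).2 (hle₃ (hle hm')).2) g n hnN]

/-- **(ELC2)** -/
theorem h97s_E2_mem_lcC2 (hD : D.Good) (hU : D.lev.IsOpen U)
    {z' : (h56s_restr D U sd).CC2 B} (hz : z' ∈ (h56s_restr D U sd).lcC2 B) :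
    sd.E2 τ z' ∈ D.lcC2 (D.G ⧸ U → B) :=
  ⟨sd.sec.isLC2_exU τ hD.1 hU z'.1 hz.1, fun v _ => sd.h97s_E2_local_isLC1 τ hD hU hz v⟩

/-- the local part of `E₃` is level-constant. -/
lemma h97s_E3_local_isLC2 (hD : D.Good) (hU : D.lev.IsOpen U)
    {z' : (h56s_restr D U sd).CC3 B} (hz : z' ∈ (h56s_restr D U sd).lcC3 B) (v : D.P) :
    IsLC2 (D.levH v) ((sd.E3 τ z').2 v) := by
  obtain ⟨h1, h2⟩ := hz
  have hb : ∀ p, IsLC2 ((h56s_restr D U sd).levH p) (z'.2 p) := fun p => h2 p (Set.mem_univ p)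
  obtain ⟨N₁, hN₁, hfix⟩ := sd.h97s_common_level2 v z'.2 hb
  have hres : IsLC3 (D.levH v) (res3 k (D.G ⧸ U → B) (D.loc v) (sd.sec.exU3 τ z'.1)) :=
    Tools.res_mem_lc3 (h97s_isCont_loc hD v) (sd.sec.isLC3_exU τ hD.1 hU z'.1 h1)
  obtain ⟨N₂, hN₂, hfix₂⟩ := hres
  obtain ⟨N₃, hN₃, hle₃⟩ := (D.levH v).directed N₁ hN₁ N₂ hN₂
  obtain ⟨N, hN, hn, hle, htriv⟩ := h97s_exists_level hD hU v N₃ hN₃
  refine ⟨N, hN, fun g g' n n' hnN hnN' => ?_⟩
  simp only [E3, Pi.sub_apply]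
  rw [exL2_eq]
  rw [@h56s_OrbitData.h69s_ex2_inv (D.H v) (D.G ⧸ U) B _ _ _ (h56s_dma (D.repAt τ v)) (sd.od v)
      N hn htriv (sd.untw2 τ z'.2 v)
      (fun w u u' m m' hm hm' => by
        simp only [untw2]
        rw [hfix w u u' m m' (hle₃ (hle hm)).1 (hle₃ (hle hm')).1]) g g' n n' hnN hnN',
    @h56s_OrbitData.h69s_hh3_inv (D.H v) (D.G ⧸ U) B _ _ _ (h56s_dma (D.repAt τ v)) (sd.od v)
      N hn htriv _
      (fun g g' g'' m m' m'' hm hm' hm'' =>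
        hfix₂ g g' g'' m m' m'' (hle₃ (hle hm)).2 (hle₃ (hle hm')).2 (hle₃ (hle hm'')).2)
      g g' n n' hnN hnN']

/-- **(ELC3)** -/
theorem h97s_E3_mem_lcC3 (hD : D.Good) (hU : D.lev.IsOpen U)
    {z' : (h56s_restr D U sd).CC3 B} (hz : z' ∈ (h56s_restr D U sd).lcC3 B) :
    sd.E3 τ z' ∈ D.lcC3 (D.G ⧸ U → B) :=
  ⟨sd.sec.isLC3_exU τ hD.1 hU z'.1 hz.1, fun v _ => sd.h97s_E3_local_isLC2 τ hD hU hz v⟩

end h56s_ShapData

end Fermat.Agent.PT.Shap
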