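import Fermat.Agent.PT.Shap.GlobPair
import Fermat.Agent.PT.Shap.H97EChain

/-!
# Shapiro for the first duality: `Perf1` over `D|_U` implies `Perf1` over `D` for induced
modules
-/

set_option autoImplicit false
set_option linter.unusedSectionVars false

namespace Fermat.Agent.PT.Shap

open MulAction

section core

variable {G X B : Type*} [Group G] [MulAction G X] [AddCommGroup B] [DistribMulAction G B]

lemma h56s_OrbitData.c_sec (OD : h56s_OrbitData G X) (x : X) : OD.c (OD.sec x) x = 1 := by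
  have h : (OD.sec x)⁻¹ • x = OD.rep x := OD.sec_inv_smul x
  simp [h56s_OrbitData.c, h, OD.sec_rep]

/-- for a normalised `f` (`f 1 = 0`), `hh1 (ex1 (sh1 f)) = 0`. -/
lemma h56s_OrbitData.hh1_ex1_sh1 (OD : h56s_OrbitData G X) (f : G → X → B) (hf : f 1 = 0) :
    OD.hh1 (OD.ex1 (OD.sh1 f)) = 0 := by
  funext x
  simp only [h56s_OrbitData.hh1, h56s_OrbitData.ex_sh1_apply, OD.c_sec, hf, Pi.zero_apply,
    smul_zero]

/-- general homotopy in degree 0. -/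
lemma h56s_OrbitData.hom0' (OD : h56s_OrbitData G X) (m : X → B) :
    m = OD.ex0 (OD.sh0 m) - OD.hh1 (h56s_dX0 (G := G) m) := by
  funext x
  have h : (OD.sec x)⁻¹ • x = OD.rep x := OD.sec_inv_smul x
  simp only [h56s_OrbitData.ex0, h56s_OrbitData.sh0, h56s_OrbitData.hh1, h56s_dX0,
    Pi.sub_apply, h, h56s_OrbitData.repW]
  abel

end core

variable {k : Type} [Field k] {D : Datum k} {U : Subgroup D.G}

attribute [local instance] h56s_locAct

section basics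

variable {B : Type} [AddCommGroup B] [Module k B] (τ : Representation k D.G B)

lemma h56s_coneD1_coneD0 {V : Type} [AddCommGroup V] [Module k V] (ρ : Representation k D.G V)
    (α : V) : D.coneD1 ρ (D.coneD0 ρ α) = 0 := by
  rw [Datum.coneD0_apply, Datum.coneD1_apply, Prod.mk_eq_zero]
  constructor
  · funext ⟨g, h⟩
    simp only [d1_apply, d0_apply, map_sub, map_mul, Module.End.mul_apply, Pi.zero_apply]
    abel
  · funext v
    funext h
    simp [Datum.repAt]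

/-- a `1`-cocycle is normalised. -/
lemma h56s_cocycle_one {H V : Type} [Group H] [AddCommGroup V] [Module k V]
    (ρ : Representation k H V) {f : H → V} (hf : d1 ρ f = 0) : f 1 = 0 := by
  have h := congrFun hf (1, 1)
  simpa using h

variable (sd : h56s_ShapData D U) [U.FiniteIndex]

lemma h56s_ShapData.E2_zero : sd.E2 τ (0 : (h56s_restr D U sd).CC2 B) = 0 := by
  refine Prod.ext ?_ (funext fun v => ?_)
  · exact sd.sec.exU2_zero τ
  · funext h x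
    simp [h56s_ShapData.E2, h56s_ShapData.exL1, h56s_ShapData.untw1, h56s_OrbitData.hh2,
      h56s_Sec.exU2]

lemma h56s_ShapData.E1_add (z z' : (h56s_restr D U sd).CC1 B) :
    sd.E1 τ (z + z') = sd.E1 τ z + sd.E1 τ z' := by
  refine Prod.ext ?_ (funext fun v => ?_)
  · funext g x
    simp [h56s_ShapData.E1, h56s_Sec.exU1]
  · funext x
    simp only [h56s_ShapData.E1, h56s_ShapData.exL0, h56s_ShapData.untw0, h56s_OrbitData.hh1,
      h56s_Sec.exU1, res1_apply, Prod.snd_add, Prod.fst_add, Pi.add_apply, Pi.sub_apply, map_add]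
    abel

/-- `E1` maps cone cocycles to cone cocycles. -/
lemma h56s_ShapData.E1_mem_ZC1 (hD : D.Good) (hU : D.lev.IsOpen U)
    {z' : (h56s_restr D U sd).CC1 B}
    (hz' : z' ∈ (h56s_restr D U sd).ZC1 (resRep τ U.subtype)) :
    sd.E1 τ z' ∈ D.ZC1 (h56s_ind (X := D.G ⧸ U) τ) := by
  refine ⟨?_, sd.h97s_E1_mem_lcC1 τ hD hU hz'.2⟩
  have h0 : (h56s_restr D U sd).coneD1 (resRep τ U.subtype) z' = 0 := hz'.1
  show D.coneD1 _ (sd.E1 τ z') = 0
  rw [← sd.h97s_E2_coneD1 τ z', h0, sd.E2_zero]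

/-- `E1` maps cone coboundaries to cone coboundaries. -/
lemma h56s_ShapData.E1_mem_BC1 {z' : (h56s_restr D U sd).CC1 B}
    (hz' : z' ∈ (h56s_restr D U sd).BC1 (resRep τ U.subtype)) :
    sd.E1 τ z' ∈ D.BC1 (h56s_ind (X := D.G ⧸ U) τ) := by
  obtain ⟨α', rfl⟩ := hz'
  exact ⟨sd.sec.exU0 τ α', (sd.h97s_E1_coneD0 τ α').symm⟩

lemma h56s_tau_inv_apply (g : D.G) (b : B) : τ g (τ g⁻¹ b) = b := by
  rw [← Module.End.mul_apply, ← map_mul, mul_inv_cancel, map_one, Module.End.one_apply]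

lemma h56s_tau_inv_apply' (g : D.G) (b : B) : τ g⁻¹ (τ g b) = b := by
  rw [← Module.End.mul_apply, ← map_mul, inv_mul_cancel, map_one, Module.End.one_apply]

/-- the local `0`-cochain `m_v` used in the construction of the preimage. -/
def h56s_ShapData.mS (z : D.CC1 (D.G ⧸ U → B)) (v : D.P) : (D.G ⧸ U) → B :=
  z.2 v + sd.sec.god.hh1 z.1
    + (sd.od v).hh1 (res1 k _ (D.loc v) (sd.sec.exU1 τ (sd.sec.shU1 z.1)))

/-- the cone cochain of the restricted datum attached to a cone cochain of the induced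
module. -/
def h56s_ShapData.S1 (z : D.CC1 (D.G ⧸ U → B)) : (h56s_restr D U sd).CC1 B :=
  (sd.sec.shU1 z.1, fun p => τ (sd.gsec p.2.1)⁻¹ (sd.mS τ z p.1 p.2.1))

lemma h56s_ShapData.untw0_S1 (z : D.CC1 (D.G ⧸ U → B)) (v : D.P) :
    sd.untw0 τ (sd.S1 τ z).2 v = (sd.od v).sh0 (sd.mS τ z v) := by
  funext w
  simp only [h56s_ShapData.untw0, h56s_ShapData.S1, h56s_OrbitData.sh0]
  exact h56s_tau_inv_apply τ _ _

/-- first component of `E1 (S1 z)`. -/
lemma h56s_ShapData.exU_shU_of_cocycle {z : D.CC1 (D.G ⧸ U → B)}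
    (hz : D.coneD1 (h56s_ind (X := D.G ⧸ U) τ) z = 0) :
    sd.sec.exU1 τ (sd.sec.shU1 z.1)
      = z.1 + d0 (h56s_ind (X := D.G ⧸ U) τ) (sd.sec.god.hh1 z.1) := by
  have h1 : d1 (h56s_ind (X := D.G ⧸ U) τ) z.1 = 0 := congrArg Prod.fst hz
  have h := sd.sec.homU1 τ z.1
  rw [h1, h56s_Sec.hh2_zero, sub_zero] at h
  generalize sd.sec.exU1 τ (sd.sec.shU1 z.1) = E at h ⊢
  generalize d0 (h56s_ind (X := D.G ⧸ U) τ) (sd.sec.god.hh1 z.1) = D0 at h ⊢
  rw [h]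
  abel

/-- the local cocycle relation for `z + coneD0 (hh1 z.1)`. -/
lemma h56s_ShapData.res_exU_shU_of_cocycle {z : D.CC1 (D.G ⧸ U → B)}
    (hz : D.coneD1 (h56s_ind (X := D.G ⧸ U) τ) z = 0) (v : D.P) :
    res1 k _ (D.loc v) (sd.sec.exU1 τ (sd.sec.shU1 z.1))
      = d0 (h56s_ind (X := D.G ⧸ U) (D.repAt τ v)) (z.2 v + sd.sec.god.hh1 z.1) := by
  have h2 := congrFun (congrArg Prod.snd hz) v
  rw [Datum.coneD1_apply] at h2
  simp only [Prod.snd_zero, Pi.zero_apply] at h2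
  rw [sub_eq_zero, h56s_repAt_ind] at h2
  rw [sd.exU_shU_of_cocycle τ hz, map_add, h2, map_add, h56s_res1_d0_ind]

/-- `m_v = ex (sh m_v)`. -/
lemma h56s_ShapData.exL0_sh0_mS {z : D.CC1 (D.G ⧸ U → B)}
    (hz : D.coneD1 (h56s_ind (X := D.G ⧸ U) τ) z = 0) (v : D.P) :
    sd.exL0 τ v ((sd.od v).sh0 (sd.mS τ z v)) = sd.mS τ z v := by
  set f := res1 k _ (D.loc v) (sd.sec.exU1 τ (sd.sec.shU1 z.1)) with hf
  have hcoc : d1 (h56s_ind (X := D.G ⧸ U) (D.repAt τ v)) f = 0 := by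
    have h1 : d1 (h56s_ind (X := D.G ⧸ U) τ) z.1 = 0 := congrArg Prod.fst hz
    apply h56s_d1_res_exU1 sd v
    rw [← sd.sec.shU_d1, h1]
    rfl
  have hf1 : f 1 = 0 := h56s_cocycle_one _ hcoc
  -- `d0 m_v = ex1 (sh1 f)`
  have hd0 : @h56s_dX0 (D.H v) (D.G ⧸ U) B _ _ _ (h56s_dma (D.repAt τ v)) (sd.mS τ z v)
      = @h56s_OrbitData.ex1 (D.H v) (D.G ⧸ U) B _ _ _ (h56s_dma (D.repAt τ v)) (sd.od v)
          ((sd.od v).sh1 f) := by
    rw [← h56s_d0_ind]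
    unfold h56s_ShapData.mS
    rw [map_add, ← sd.res_exU_shU_of_cocycle τ hz v, ← hf]
    funext h x
    have e := @h56s_OrbitData.hom1 (D.H v) (D.G ⧸ U) B _ _ _ (h56s_dma (D.repAt τ v))
      (sd.od v) f h x
    rw [← h56s_d1_ind, hcoc] at e
    have e3 : (sd.od v).hh2 (0 : D.H v × D.H v → (D.G ⧸ U) → B) h x = 0 := by
      simp [h56s_OrbitData.hh2]
    rw [e3, sub_zero, ← h56s_d0_ind] at e
    rw [Pi.add_apply, Pi.add_apply]
    rw [eq_sub_iff_add_eq] at e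
    exact e
  have h0 := @h56s_OrbitData.hom0' (D.H v) (D.G ⧸ U) B _ _ _ (h56s_dma (D.repAt τ v))
    (sd.od v) (sd.mS τ z v)
  rw [hd0, @h56s_OrbitData.hh1_ex1_sh1 (D.H v) (D.G ⧸ U) B _ _ _ (h56s_dma (D.repAt τ v))
    (sd.od v) f hf1, sub_zero] at h0
  rw [h56s_ShapData.exL0_eq]
  exact h0.symm

/-- **`E1 (S1 z) = z + coneD0 (hh1 z.1)`** for a cone cocycle `z`. -/
theorem h56s_ShapData.E1_S1 {z : D.CC1 (D.G ⧸ U → B)}
    (hz : D.coneD1 (h56s_ind (X := D.G ⧸ U) τ) z = 0) :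
    sd.E1 τ (sd.S1 τ z)
      = z + D.coneD0 (h56s_ind (X := D.G ⧸ U) τ) (sd.sec.god.hh1 z.1) := by
  refine Prod.ext ?_ (funext fun v => ?_)
  · exact sd.exU_shU_of_cocycle τ hz
  · change sd.exL0 τ v (sd.untw0 τ (sd.S1 τ z).2 v)
        - (sd.od v).hh1 (res1 k _ (D.loc v) (sd.sec.exU1 τ (sd.sec.shU1 z.1)))
      = z.2 v + sd.sec.god.hh1 z.1
    rw [sd.untw0_S1 τ z v, sd.exL0_sh0_mS τ hz v]
    unfold h56s_ShapData.mS
    abel

/-- `E2` is injective. -/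
lemma h56s_ShapData.E2_injective {c : (h56s_restr D U sd).CC2 B} (hc : sd.E2 τ c = 0) :
    c = 0 := by
  have h1 : sd.sec.exU2 τ c.1 = 0 := congrArg Prod.fst hc
  have h1' : c.1 = 0 := by
    have := sd.sec.shU_exU2 τ c.1
    rw [h1] at this
    rw [← this]
    rfl
  refine Prod.ext h1' (funext fun p => funext fun h => ?_)
  obtain ⟨v, w⟩ := p
  have h2 := congrFun (congrArg Prod.snd hc) v
  change sd.exL1 τ v (sd.untw1 τ c.2 v)
    - (sd.od v).hh2 (res2 k _ (D.loc v) (sd.sec.exU2 τ c.1)) = 0 at h2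
  have h3 : (sd.od v).hh2 (res2 k _ (D.loc v) (sd.sec.exU2 τ c.1)) = 0 := by
    rw [h1]
    funext h x
    simp [h56s_OrbitData.hh2]
  rw [h3, sub_zero, h56s_ShapData.exL1_eq] at h2
  have h4 := @h56s_OrbitData.sh_ex1 (D.H v) (D.G ⧸ U) B _ _ _ (h56s_dma (D.repAt τ v))
    (sd.od v) (sd.untw1 τ c.2 v)
  rw [h2] at h4
  have h5 : sd.untw1 τ c.2 v w h = 0 := by
    rw [← h4]
    rfl
  have h6 := h56s_tau_inv_apply' τ (sd.gsec w.1) (c.2 ⟨v, w⟩ h)
  change τ (sd.gsec w.1)⁻¹ (sd.untw1 τ c.2 v w h) = _ at h6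
  rw [h5, map_zero] at h6
  exact h6.symm

/-- `S1` maps cone cocycles to cone cocycles. -/
theorem h56s_ShapData.S1_mem_ZC1 {z : D.CC1 (D.G ⧸ U → B)}
    (hz : z ∈ D.ZC1 (h56s_ind (X := D.G ⧸ U) τ)) :
    sd.S1 τ z ∈ (h56s_restr D U sd).ZC1 (resRep τ U.subtype) := by
  have hz0 : D.coneD1 (h56s_ind (X := D.G ⧸ U) τ) z = 0 := hz.1
  refine ⟨?_, ⟨sd.sec.isLC1_shU z.1 hz.2.1, Submodule.mem_top⟩⟩
  show (h56s_restr D U sd).coneD1 (resRep τ U.subtype) (sd.S1 τ z) = 0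
  apply sd.E2_injective τ
  rw [sd.h97s_E2_coneD1 τ, sd.E1_S1 τ hz0, map_add, hz0, h56s_coneD1_coneD0, add_zero]

end basics

section main

variable (sd : h56s_ShapData D U) [U.FiniteIndex]
variable {B B₁ : Type} [AddCommGroup B] [Module k B] [AddCommGroup B₁] [Module k B₁]
variable {β₀ : B →ₗ[k] B₁ →ₗ[k] k} {τ : Representation k D.G B} {τ₁ : Representation k D.G B₁}

omit [U.FiniteIndex] in
/-- the induced module of a discrete module is discrete. -/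
lemma h56s_isDisc_ind [Finite (D.G ⧸ U)] (hD : D.Good) (hU : D.lev.IsOpen U)
    (hτ₁ : IsDisc D.lev τ₁) : IsDisc D.lev (h56s_ind (X := D.G ⧸ U) τ₁) := by
  intro f
  obtain ⟨N₁, hN₁, h1⟩ := Tools.exists_level_fixing hτ₁ (Set.finite_range f)
  obtain ⟨N, hN, hn, hle1, hle2⟩ := h56s_exists_level hD.1 hU N₁ hN₁
  refine ⟨N, hN, fun s hs => ?_⟩
  funext x
  rw [h56s_ind_apply, h56s_smul_eq_of_normal_le hn hle2 s⁻¹ (N.inv_mem hs) x]
  exact h1 (f x) (Set.mem_range_self x) s (hle1 hs)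

/-- the sum pairing is equivariant. -/
lemma h56s_isEquivariant_betaX (hβ : IsEquivariant D.chi τ τ₁ β₀) :
    IsEquivariant D.chi (h56s_ind (X := D.G ⧸ U) τ) (h56s_ind (X := D.G ⧸ U) τ₁)
      (h56s_betaX β₀) := by
  intro g f f'
  rw [h56s_betaX_apply, h56s_betaX_apply]
  have e : (fun x => β₀ (h56s_ind (X := D.G ⧸ U) τ g f x) (h56s_ind (X := D.G ⧸ U) τ₁ g f' x))
      = (D.chi g : k) • (fun x => (fun y => β₀ (f y) (f' y)) (g⁻¹ • x)) := by
    funext x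
    simp only [h56s_ind_apply, Pi.smul_apply, smul_eq_mul]
    exact hβ g _ _
  rw [e, map_smul, smul_eq_mul]
  congr 1
  exact h56s_sumX_comp_smul g (fun y => β₀ (f y) (f' y))

/-- **Shapiro for the first duality.** -/
theorem h56s_perf1_ind (hD : D.Good) (hU : D.lev.IsOpen U) {tr : D.CC3 k →ₗ[k] k}
    (htr : D.TrOK tr) (hβ : IsEquivariant D.chi τ τ₁ β₀) (hτ₁ : IsDisc D.lev τ₁)
    (h : (h56s_restr D U sd).Perf1 (resRep τ U.subtype) (resRep τ₁ U.subtype)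
      (h56s_trR sd tr) β₀) :
    D.Perf1 (h56s_ind (X := D.G ⧸ U) τ) (h56s_ind (X := D.G ⧸ U) τ₁) tr (h56s_betaX β₀) := by
  have hβX := h56s_isEquivariant_betaX (U := U) hβ
  have hσ := h56s_isDisc_ind (U := U) hD hU hτ₁
  refine ⟨fun z hz hp => ?_, fun y hy hp => ?_⟩
  · -- left kernel
    have hz0 : D.coneD1 (h56s_ind (X := D.G ⧸ U) τ) z = 0 := hz.1
    have hz' := sd.S1_mem_ZC1 τ hz
    have hE := sd.E1_S1 τ hz0
    have key : ∀ y' ∈ Z2 (h56s_restr D U sd).lev (resRep τ₁ U.subtype),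
        (h56s_restr D U sd).pair1 (resRep τ₁ U.subtype) (h56s_trR sd tr) β₀ (sd.S1 τ z) y'
          = 0 := by
      intro y' hy'
      rw [h56s_pair1_E sd hD hU htr hβ (sd.S1 τ z) hy' (sd.E1_mem_ZC1 τ hD hU hz').1, hE]
      have hY := sd.sec.exU2_mem_Z2 τ₁ hD.1 hU hy'
      rw [← h93c_pairL_apply, map_add, LinearMap.add_apply, h93c_pairL_apply,
        h93c_pairL_apply, hp _ hY,
        h93c_pair1_coneD0 D (h56s_ind (X := D.G ⧸ U) τ) (h56s_ind (X := D.G ⧸ U) τ₁) tr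
          (h56s_betaX β₀) hβX htr _ hY, add_zero]
    have hb := sd.E1_mem_BC1 τ (h.1 _ hz' key)
    rw [hE] at hb
    have hc : D.coneD0 (h56s_ind (X := D.G ⧸ U) τ) (sd.sec.god.hh1 z.1)
        ∈ D.BC1 (h56s_ind (X := D.G ⧸ U) τ) := ⟨_, rfl⟩
    have := (D.BC1 (h56s_ind (X := D.G ⧸ U) τ)).sub_mem hb hc
    rwa [add_sub_cancel_right] at this
  · -- right kernel
    have hy' := sd.sec.shU2_mem_Z2 τ₁ hy
    have hcob := sd.sec.sub_exU_shU2_mem_B2 τ₁ hD.1 hU hy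
    obtain ⟨x, hx, hxy⟩ := (mem_B2 _ _ _).1 hcob
    have key : ∀ z' ∈ (h56s_restr D U sd).ZC1 (resRep τ U.subtype),
        (h56s_restr D U sd).pair1 (resRep τ₁ U.subtype) (h56s_trR sd tr) β₀ z'
          (sd.sec.shU2 y) = 0 := by
      intro z' hz'
      have hE1 := sd.E1_mem_ZC1 τ hD hU hz'
      rw [h56s_pair1_E sd hD hU htr hβ z' hy' hE1.1]
      have e : sd.sec.exU2 τ₁ (sd.sec.shU2 y)
          = y - d1 (h56s_ind (X := D.G ⧸ U) τ₁) x := by
        rw [hxy]; abel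
      rw [e, ← h93c_pairL_apply, map_sub, h93c_pairL_apply, h93c_pairL_apply, hp _ hE1,
        h93c_pair1_d1 D (h56s_ind (X := D.G ⧸ U) τ) (h56s_ind (X := D.G ⧸ U) τ₁) tr
          (h56s_betaX β₀) hD hβX hσ htr hE1 hx, sub_zero]
    have hb := sd.sec.exU2_mem_B2 τ₁ hD.1 hU (h.2 _ hy' key)
    have := (B2 D.lev (h56s_ind (X := D.G ⧸ U) τ₁)).add_mem hcob hb
    rwa [sub_add_cancel] at this

end main

end Fermat.Agent.PT.Shap
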