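import Fermat.Agent.PT.Shap.XCup
import Fermat.Agent.PT.Alg.Tools

/-!
# Local facts at a place `v` for the Shapiro map of cones

* `h56s_repAt_ind`   : `D.repAt (h56s_ind τ) v = h56s_ind (D.repAt τ v)`;
* `h56s_exists_locLevel` : a local level acting trivially on `D.G ⧸ U`;
* `isLC1_hh2_loc`    : the local homotopy preserves level-constancy;
* `sh1_res_exU`, `sh2_res_exU` : `sh_v (res_v (exU a')) = untw (res' a')` (strict);
* `d_res_exU*`       : `res_v (exU a')` is a cocycle when `a'` is.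
-/

set_option autoImplicit false
set_option linter.unusedSectionVars false

namespace Fermat.Agent.PT.Shap

open MulAction

variable {k : Type} [Field k] {D : Datum k} {U : Subgroup D.G}

attribute [local instance] h56s_locAct

section repind

variable {B : Type} [AddCommGroup B] [Module k B] (τ : Representation k D.G B)

lemma h56s_repAt_ind (v : D.P) :
    D.repAt (h56s_ind (X := D.G ⧸ U) τ) v = h56s_ind (X := D.G ⧸ U) (D.repAt τ v) := by
  ext h f x
  change τ (D.loc v h) (f ((D.loc v h)⁻¹ • x)) = τ (D.loc v h) (f (D.loc v h⁻¹ • x))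
  rw [map_inv]

lemma h56s_res1_d0_ind (v : D.P) (m : (D.G ⧸ U) → B) :
    res1 k _ (D.loc v) (d0 (h56s_ind (X := D.G ⧸ U) τ) m)
      = d0 (h56s_ind (X := D.G ⧸ U) (D.repAt τ v)) m := by
  rw [← h56s_repAt_ind]
  rfl

lemma h56s_res2_d1_ind (v : D.P) (f : D.G → (D.G ⧸ U) → B) :
    res2 k _ (D.loc v) (d1 (h56s_ind (X := D.G ⧸ U) τ) f)
      = d1 (h56s_ind (X := D.G ⧸ U) (D.repAt τ v)) (res1 k _ (D.loc v) f) := by
  rw [← h56s_repAt_ind]
  funext q
  obtain ⟨g, h⟩ := q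
  simp [Datum.repAt]

lemma h56s_res3_d2_ind (v : D.P) (f : D.G × D.G → (D.G ⧸ U) → B) :
    res3 k _ (D.loc v) (d2 (h56s_ind (X := D.G ⧸ U) τ) f)
      = d2 (h56s_ind (X := D.G ⧸ U) (D.repAt τ v)) (res2 k _ (D.loc v) f) := by
  rw [← h56s_repAt_ind]
  funext q
  obtain ⟨g, h, j⟩ := q
  simp [Datum.repAt]

end repind

section levels

/-- a local level below a given one which acts trivially on `D.G ⧸ U`. -/
lemma h56s_exists_locLevel (hD : D.Good) (hU : D.lev.IsOpen U) (v : D.P)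
    (N₁ : Subgroup (D.H v)) (hN₁ : N₁ ∈ (D.levH v).sets) :
    ∃ N ∈ (D.levH v).sets, N.Normal ∧ N ≤ N₁ ∧ ∀ n ∈ N, ∀ x : D.G ⧸ U, n • x = x := by
  obtain ⟨N₀, hN₀, h0⟩ := hU
  obtain ⟨N₂, hN₂, h2⟩ := hD.2.2.2.1 v N₀ hN₀
  obtain ⟨N, hN, hle⟩ := (D.levH v).directed N₁ hN₁ N₂ hN₂
  refine ⟨N, hN, (hD.2.1 v N hN).1, fun x hx => (hle hx).1, fun n hn x => ?_⟩
  have h3 : D.loc v n ∈ N₀ := h2 (hle hn).2
  exact h56s_smul_eq_of_normal_le (hD.1 N₀ hN₀).1 h0 _ h3 x

variable (sd : h56s_ShapData D U) {B : Type} [AddCommGroup B]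

lemma h56s_ShapData.isLC1_hh2_loc (hD : D.Good) (hU : D.lev.IsOpen U) (v : D.P)
    (F : D.H v × D.H v → (D.G ⧸ U) → B) (hF : IsLC2 (D.levH v) F) :
    IsLC1 (D.levH v) ((sd.od v).hh2 F) := by
  obtain ⟨N₁, hN₁, h⟩ := hF
  obtain ⟨N, hN, hn, h1, h2⟩ := h56s_exists_locLevel hD hU v N₁ hN₁
  refine ⟨N, hN, fun g n hnN => ?_⟩
  exact @h56s_OrbitData.h69s_hh2_inv (D.H v) (D.G ⧸ U) B _ _ _
    (h56s_trivDMA (D.H v) B) (sd.od v) N hn h2 F
    (fun g g' m m' hm hm' => h g g' m m' (h1 hm) (h1 hm')) g n hnN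

end levels

section strict

variable (sd : h56s_ShapData D U) [U.FiniteIndex]
variable {B : Type} [AddCommGroup B] [Module k B] (τ : Representation k D.G B)

lemma h56s_ShapData.cc_loc (v : D.P) (w : (sd.od v).W) (h : stabilizer (D.H v) w.1) :
    sd.sec.cc (D.loc v h) w.1 = sd.locR v w h := by
  apply Subtype.ext
  have h1 : (D.loc v (h : D.H v))⁻¹ • w.1 = w.1 := by
    rw [inv_smul_eq_iff]
    exact (mem_stabilizer_iff.1 h.2).symm
  simp only [h56s_Sec.coe_cc, h56s_ShapData.coe_locR, h1]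

lemma h56s_ShapData.inv_smul_loc (v : D.P) (w : (sd.od v).W) (h : stabilizer (D.H v) w.1) :
    (D.loc v (h : D.H v))⁻¹ • w.1 = w.1 := by
  rw [inv_smul_eq_iff]
  exact (mem_stabilizer_iff.1 h.2).symm

/-- `sh_v (res_v (exU a')) = untw (res' a')`, degree 1. -/
lemma h56s_ShapData.sh1_res_exU (v : D.P) (a' : U → B) :
    (sd.od v).sh1 (res1 k _ (D.loc v) (sd.sec.exU1 τ a'))
      = sd.untw1 τ (fun p => res1 k B ((h56s_restr D U sd).loc p) a') v := by
  funext w h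
  simp only [h56s_OrbitData.sh1, res1_apply, h56s_Sec.exU1, h56s_ShapData.untw1,
    sd.cc_loc v w h]

/-- `sh_v (res_v (exU a')) = untw (res' a')`, degree 2. -/
lemma h56s_ShapData.sh2_res_exU (v : D.P) (a' : U × U → B) :
    (sd.od v).sh2 (res2 k _ (D.loc v) (sd.sec.exU2 τ a'))
      = sd.untw2 τ (fun p => res2 k B ((h56s_restr D U sd).loc p) a') v := by
  funext w q
  obtain ⟨h, h'⟩ := q
  simp only [h56s_OrbitData.sh2, res2_apply, h56s_Sec.exU2, h56s_ShapData.untw2,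
    sd.cc_loc v w h, sd.cc_loc v w h', sd.inv_smul_loc v w h]

end strict

end Fermat.Agent.PT.Shap
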