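import Fermat.Agent.PT.Defs
import Fermat.Agent.PT.Shap.CoreHom

/-!
# Shapiro core in the language of `PT/Defs.lean`

`τ : Representation k G B`, `G` acts on `X`.  `h56s_ind τ` is the induced representation on
`X → B`, `(g f)(x) = τ g (f (g⁻¹ x))`.  The differentials `d0 … d3` of `PT/Defs.lean` for
`h56s_ind τ` are the plain differentials `h56s_dX0 …` of the core, for the action
`h56s_dma τ` of `G` on `B`.
-/

set_option autoImplicit false
set_option linter.unusedSectionVars false

namespace Fermat.Agent.PT.Shap

open MulAction

variable {k : Type} [CommRing k] {G : Type} [Group G] {X : Type} [MulAction G X]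
variable {B : Type} [AddCommGroup B] [Module k B]

/-- the action of `G` on `B` given by a representation. -/
@[reducible] def h56s_dma (τ : Representation k G B) : DistribMulAction G B where
  smul g b := τ g b
  one_smul b := by change τ 1 b = b; simp
  mul_smul g h b := by change τ (g * h) b = τ g (τ h b); simp
  smul_zero g := by change τ g 0 = 0; simp
  smul_add g b c := by change τ g (b + c) = τ g b + τ g c; simp

/-- the induced representation on `X → B`. -/
def h56s_ind (τ : Representation k G B) : Representation k G (X → B) where
  toFun g :=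
    { toFun := fun f x => τ g (f (g⁻¹ • x))
      map_add' := fun f f' => by funext x; simp
      map_smul' := fun c f => by funext x; simp }
  map_one' := by
    ext f x
    simp
  map_mul' g h := by
    ext f x
    simp [mul_smul]

@[simp] lemma h56s_ind_apply (τ : Representation k G B) (g : G) (f : X → B) (x : X) :
    h56s_ind τ g f x = τ g (f (g⁻¹ • x)) := rfl

lemma h56s_d0_ind (τ : Representation k G B) (f : X → B) :
    d0 (h56s_ind (X := X) τ) f = @h56s_dX0 G X B _ _ _ (h56s_dma τ) f := rfl

lemma h56s_d1_ind (τ : Representation k G B) (f : G → X → B) :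
    d1 (h56s_ind (X := X) τ) f = @h56s_dX1 G X B _ _ _ (h56s_dma τ) f := rfl

lemma h56s_d2_ind (τ : Representation k G B) (f : G × G → X → B) :
    d2 (h56s_ind (X := X) τ) f = @h56s_dX2 G X B _ _ _ (h56s_dma τ) f := rfl

lemma h56s_d3_ind (τ : Representation k G B) (f : G × G × G → X → B) :
    d3 (h56s_ind (X := X) τ) f = @h56s_dX3 G X B _ _ _ (h56s_dma τ) f := rfl

lemma h56s_d0_plain (τ : Representation k G B) (b : B) :
    d0 τ b = @h56s_dB0 B _ G _ (h56s_dma τ) b := rfl

lemma h56s_d1_plain (τ : Representation k G B) (f : G → B) :
    d1 τ f = @h56s_dB1 B _ G _ (h56s_dma τ) f := rfl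

lemma h56s_d2_plain (τ : Representation k G B) (f : G × G → B) :
    d2 τ f = @h56s_dB2 B _ G _ (h56s_dma τ) f := rfl

lemma h56s_d3_plain (τ : Representation k G B) (f : G × G × G → B) :
    d3 τ f = @h56s_dB3 B _ G _ (h56s_dma τ) f := rfl

/-- the permutation representation is induced from the trivial one. -/
lemma h56s_permRep_eq (U : Subgroup G) :
    permRep k U = h56s_ind (X := G ⧸ U) (Representation.trivial k G k) := by
  ext g f x
  simp

end Fermat.Agent.PT.Shap
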