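import Fermat.Agent.PT.Shap.Rep

/-!
# Transitive Shapiro: `G` acting on `G ⧸ U`, in the language of `PT/Defs.lean`

A section `s : h56s_Sec G U` of `G → G ⧸ U` gives maps
`exU_n : Cⁿ(U, B) → Cⁿ(G, G ⧸ U → B)` and `shU_n` the other way.
-/

set_option autoImplicit false
set_option linter.unusedSectionVars false

namespace Fermat.Agent.PT.Shap

open MulAction

/-- a section of `G → G ⧸ U`, normalised at the trivial coset. -/
structure h56s_Sec (G : Type) [Group G] (U : Subgroup G) where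
  /-- the section -/
  gsec : G ⧸ U → G
  gsec_mk : ∀ x, (QuotientGroup.mk (gsec x) : G ⧸ U) = x
  gsec_one : gsec (QuotientGroup.mk 1) = 1

theorem h56s_Sec.nonempty (G : Type) [Group G] (U : Subgroup G) : Nonempty (h56s_Sec G U) := by
  classical
  exact ⟨{ gsec := fun x => if x = QuotientGroup.mk 1 then 1 else x.out
           gsec_mk := fun x => by
             by_cases hx : x = QuotientGroup.mk 1
             · rw [if_pos hx, hx]
             · rw [if_neg hx]; exact QuotientGroup.out_eq' x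
           gsec_one := by rw [if_pos rfl] }⟩

namespace h56s_Sec

variable {k : Type} [CommRing k] {G : Type} [Group G] {U : Subgroup G} (s : h56s_Sec G U)
variable {B : Type} [AddCommGroup B] [Module k B]

lemma gsec_smul (x : G ⧸ U) : s.gsec x • (QuotientGroup.mk 1 : G ⧸ U) = x := by
  rw [MulAction.Quotient.smul_mk, smul_eq_mul, mul_one, s.gsec_mk]

/-- the global orbit data: one orbit, base point the trivial coset. -/
def god : h56s_OrbitData G (G ⧸ U) where
  rep _ := QuotientGroup.mk 1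
  sec := s.gsec
  sec_smul := s.gsec_smul
  rep_smul _ _ := rfl
  sec_rep _ := s.gsec_one

@[simp] lemma god_sec (x : G ⧸ U) : s.god.sec x = s.gsec x := rfl
@[simp] lemma god_rep (x : G ⧸ U) : s.god.rep x = QuotientGroup.mk 1 := rfl

lemma conj_mem_of_fixed (g : G) (x : G ⧸ U) (hg : g • x = x) :
    (s.gsec x)⁻¹ * g * s.gsec x ∈ U := by
  have h2 : (QuotientGroup.mk (g * s.gsec x) : G ⧸ U) = g • x := by
    conv_rhs => rw [← s.gsec_mk x]
    rw [MulAction.Quotient.smul_mk, smul_eq_mul]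
  have h3 : (QuotientGroup.mk (s.gsec x) : G ⧸ U) = QuotientGroup.mk (g * s.gsec x) := by
    rw [h2, hg, s.gsec_mk]
  have h4 := QuotientGroup.eq.1 h3
  rwa [← mul_assoc] at h4

lemma mem_of_stab (w : s.god.W) (u : stabilizer G w.1) : (u : G) ∈ U := by
  obtain ⟨x, hx⟩ := w
  change (QuotientGroup.mk 1 : G ⧸ U) = x at hx
  subst hx
  have h : (u : G) ∈ stabilizer G (QuotientGroup.mk 1 : G ⧸ U) := u.2
  exact (SetLike.ext_iff.1 (stabilizer_quotient U) (u : G)).1 h

lemma c_mem (g : G) (x : G ⧸ U) : s.god.c g x ∈ U := by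
  have h := s.god.c_mem g x
  rw [god_rep, stabilizer_quotient] at h
  exact h

/-- the `U`-valued cocycle. -/
def cc (g : G) (x : G ⧸ U) : U := ⟨s.god.c g x, s.c_mem g x⟩

@[simp] lemma coe_cc (g : G) (x : G ⧸ U) :
    ((s.cc g x : U) : G) = (s.gsec x)⁻¹ * g * s.gsec (g⁻¹ • x) := rfl

/-- the base point of `god.W`. -/
def w0 : s.god.W := ⟨QuotientGroup.mk 1, rfl⟩

lemma eq_w0 (w : s.god.W) : w = s.w0 := Subtype.ext w.2.symm

/-- an element of `U` as an element of the stabiliser of the base point. -/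
def toStab (u : U) : stabilizer G (s.w0).1 :=
  ⟨u, by change (u : G) ∈ stabilizer G (QuotientGroup.mk 1 : G ⧸ U)
         rw [stabilizer_quotient]; exact u.2⟩

@[simp] lemma coe_toStab (u : U) : ((s.toStab u : stabilizer G (s.w0).1) : G) = u := rfl

/-! ### lifting cochains of `U` to stabiliser families and back -/

/-- lift, degree 0 -/
def lift0 (a : B) : s.god.W → B := fun _ => a
/-- lift, degree 1 -/
def lift1 (a : U → B) : (w : s.god.W) → stabilizer G w.1 → B :=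
  fun w u => a ⟨u, s.mem_of_stab w u⟩
/-- lift, degree 2 -/
def lift2 (a : U × U → B) : (w : s.god.W) → stabilizer G w.1 × stabilizer G w.1 → B :=
  fun w p => a (⟨p.1, s.mem_of_stab w p.1⟩, ⟨p.2, s.mem_of_stab w p.2⟩)
/-- lift, degree 3 -/
def lift3 (a : U × U × U → B) :
    (w : s.god.W) → stabilizer G w.1 × stabilizer G w.1 × stabilizer G w.1 → B :=
  fun w p => a (⟨p.1, s.mem_of_stab w p.1⟩, ⟨p.2.1, s.mem_of_stab w p.2.1⟩,
    ⟨p.2.2, s.mem_of_stab w p.2.2⟩)

/-- drop, degree 0 -/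
def drop0 (φ : s.god.W → B) : B := φ s.w0
/-- drop, degree 1 -/
def drop1 (φ : (w : s.god.W) → stabilizer G w.1 → B) : U → B := fun u => φ s.w0 (s.toStab u)
/-- drop, degree 2 -/
def drop2 (φ : (w : s.god.W) → stabilizer G w.1 × stabilizer G w.1 → B) : U × U → B :=
  fun p => φ s.w0 (s.toStab p.1, s.toStab p.2)
/-- drop, degree 3 -/
def drop3 (φ : (w : s.god.W) → stabilizer G w.1 × stabilizer G w.1 × stabilizer G w.1 → B) :
    U × U × U → B :=
  fun p => φ s.w0 (s.toStab p.1, s.toStab p.2.1, s.toStab p.2.2)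

@[simp] lemma drop_lift0 (a : B) : s.drop0 (s.lift0 a) = a := rfl
@[simp] lemma drop_lift1 (a : U → B) : s.drop1 (s.lift1 a) = a := rfl
@[simp] lemma drop_lift2 (a : U × U → B) : s.drop2 (s.lift2 a) = a := rfl
@[simp] lemma drop_lift3 (a : U × U × U → B) : s.drop3 (s.lift3 a) = a := rfl

@[simp] lemma lift_drop0 (φ : s.god.W → B) : s.lift0 (s.drop0 φ) = φ := by
  funext w
  obtain rfl : w = s.w0 := s.eq_w0 w
  rfl

@[simp] lemma lift_drop1 (φ : (w : s.god.W) → stabilizer G w.1 → B) :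
    s.lift1 (s.drop1 φ) = φ := by
  funext w u
  obtain rfl : w = s.w0 := s.eq_w0 w
  rfl

@[simp] lemma lift_drop2 (φ : (w : s.god.W) → stabilizer G w.1 × stabilizer G w.1 → B) :
    s.lift2 (s.drop2 φ) = φ := by
  funext w p
  obtain rfl : w = s.w0 := s.eq_w0 w
  rfl

@[simp] lemma lift_drop3
    (φ : (w : s.god.W) → stabilizer G w.1 × stabilizer G w.1 × stabilizer G w.1 → B) :
    s.lift3 (s.drop3 φ) = φ := by
  funext w p
  obtain rfl : w = s.w0 := s.eq_w0 w
  rfl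

/-! ### the maps `exU`, `shU`, `hhU` -/

variable (τ : Representation k G B)

/-- `ex`, degree 0 -/
def exU0 (a : B) : (G ⧸ U) → B := fun x => τ (s.gsec x) a
/-- `ex`, degree 1 -/
def exU1 (a : U → B) : G → (G ⧸ U) → B := fun g x => τ (s.gsec x) (a (s.cc g x))
/-- `ex`, degree 2 -/
def exU2 (a : U × U → B) : G × G → (G ⧸ U) → B :=
  fun p x => τ (s.gsec x) (a (s.cc p.1 x, s.cc p.2 (p.1⁻¹ • x)))
/-- `ex`, degree 3 -/
def exU3 (a : U × U × U → B) : G × G × G → (G ⧸ U) → B :=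
  fun p x => τ (s.gsec x)
    (a (s.cc p.1 x, s.cc p.2.1 (p.1⁻¹ • x), s.cc p.2.2 ((p.1 * p.2.1)⁻¹ • x)))

/-- `sh`, degree 0 -/
def shU0 (_s : h56s_Sec G U) (f : (G ⧸ U) → B) : B := f (QuotientGroup.mk 1)
/-- `sh`, degree 1 -/
def shU1 (_s : h56s_Sec G U) (f : G → (G ⧸ U) → B) : U → B := fun u => f u (QuotientGroup.mk 1)
/-- `sh`, degree 2 -/
def shU2 (_s : h56s_Sec G U) (f : G × G → (G ⧸ U) → B) : U × U → B :=
  fun p => f (p.1, p.2) (QuotientGroup.mk 1)
/-- `sh`, degree 3 -/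
def shU3 (_s : h56s_Sec G U) (f : G × G × G → (G ⧸ U) → B) : U × U × U → B :=
  fun p => f (p.1, p.2.1, p.2.2) (QuotientGroup.mk 1)

lemma exU0_eq (a : B) : s.exU0 τ a = @h56s_OrbitData.ex0 G (G ⧸ U) B _ _ _ (h56s_dma τ) s.god
    (s.lift0 a) := rfl
lemma exU1_eq (a : U → B) :
    s.exU1 τ a = @h56s_OrbitData.ex1 G (G ⧸ U) B _ _ _ (h56s_dma τ) s.god (s.lift1 a) := rfl
lemma exU2_eq (a : U × U → B) :
    s.exU2 τ a = @h56s_OrbitData.ex2 G (G ⧸ U) B _ _ _ (h56s_dma τ) s.god (s.lift2 a) := rfl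
lemma exU3_eq (a : U × U × U → B) :
    s.exU3 τ a = @h56s_OrbitData.ex3 G (G ⧸ U) B _ _ _ (h56s_dma τ) s.god (s.lift3 a) := rfl

lemma shU0_eq (f : (G ⧸ U) → B) : s.shU0 f = s.drop0 (s.god.sh0 f) := rfl
lemma shU1_eq (f : G → (G ⧸ U) → B) : s.shU1 f = s.drop1 (s.god.sh1 f) := rfl
lemma shU2_eq (f : G × G → (G ⧸ U) → B) : s.shU2 f = s.drop2 (s.god.sh2 f) := rfl
lemma shU3_eq (f : G × G × G → (G ⧸ U) → B) : s.shU3 f = s.drop3 (s.god.sh3 f) := rfl

end h56s_Sec

end Fermat.Agent.PT.Shap
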