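import Fermat.Agent.PT.Shap.Cone

/-!
# The restricted trace `tr' = tr ∘ Σ_X ∘ E₃` and the restricted local invariant
-/

set_option autoImplicit false
set_option linter.unusedSectionVars false

namespace Fermat.Agent.PT.Shap

open MulAction

variable {k : Type} [Field k] {D : Datum k} {U : Subgroup D.G}

attribute [local instance] h56s_locAct

namespace h56s_ShapData

variable (sd : h56s_ShapData D U) [U.FiniteIndex]
variable {B : Type} [AddCommGroup B] [Module k B] (τ : Representation k D.G B)

lemma E3_add (z z' : (h56s_restr D U sd).CC3 B) :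
    sd.E3 τ (z + z') = sd.E3 τ z + sd.E3 τ z' := by
  refine Prod.ext ?_ ?_
  · funext p x
    simp [E3, h56s_Sec.exU3]
  · funext v q x
    simp only [E3, exL2, untw2, h56s_OrbitData.hh3, h56s_Sec.exU3, res3_apply, Prod.snd_add,
      Prod.fst_add, Pi.add_apply, Pi.sub_apply, map_add]
    abel

lemma E3_smul (c : k) (z : (h56s_restr D U sd).CC3 B) :
    sd.E3 τ (c • z) = c • sd.E3 τ z := by
  refine Prod.ext ?_ ?_
  · funext p x
    simp [E3, h56s_Sec.exU3]
  · funext v q x
    simp only [E3, exL2, untw2, h56s_OrbitData.hh3, h56s_Sec.exU3, res3_apply, Prod.smul_snd,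
      Prod.smul_fst, Pi.smul_apply, Pi.sub_apply, Pi.add_apply, map_smul, smul_sub, smul_add]

end h56s_ShapData

section sums

variable (D : Datum k) (X : Type) [Finite X]

lemma h56s_sumC3_add (z z' : D.CC3 (X → k)) :
    h56s_sumC3 D X (z + z') = h56s_sumC3 D X z + h56s_sumC3 D X z' := by
  refine Prod.ext ?_ ?_
  · funext p
    exact finsum_add_distrib (Set.toFinite _) (Set.toFinite _)
  · funext v q
    exact finsum_add_distrib (Set.toFinite _) (Set.toFinite _)

lemma h56s_sumC3_smul (c : k) (z : D.CC3 (X → k)) :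
    h56s_sumC3 D X (c • z) = c • h56s_sumC3 D X z := by
  refine Prod.ext ?_ ?_
  · funext p
    exact (smul_finsum c _).symm
  · funext v q
    exact (smul_finsum c _).symm

end sums

/-- **The restricted trace** on the cone `3`-cochains of the restricted datum. -/
noncomputable def h56s_trR (sd : h56s_ShapData D U) [U.FiniteIndex] (tr : D.CC3 k →ₗ[k] k) :
    (h56s_restr D U sd).CC3 k →ₗ[k] k where
  toFun z' := tr (h56s_sumC3 D (D.G ⧸ U) (sd.E3 (chiRep D.chi) z'))
  map_add' z z' := by rw [sd.E3_add, h56s_sumC3_add, map_add]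
  map_smul' c z := by rw [sd.E3_smul, h56s_sumC3_smul, map_smul]; rfl

lemma h56s_trR_apply (sd : h56s_ShapData D U) [U.FiniteIndex] (tr : D.CC3 k →ₗ[k] k)
    (z' : (h56s_restr D U sd).CC3 k) :
    h56s_trR sd tr z' = tr (h56s_sumC3 D (D.G ⧸ U) (sd.E3 (chiRep D.chi) z')) := rfl

/-! ### one group: the restricted invariant `inv' = inv ∘ Σ_X ∘ ex₂` -/

section onegroup

variable {H : Type} [Group H] {V : Subgroup H} [V.FiniteIndex]

/-- **The restricted local invariant** `inv ∘ cor`, `cor = Σ_X ∘ ex₂` (coefficients `k(χ)`). -/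
noncomputable def h56s_invR (s : h56s_Sec H V) (χ : H →* kˣ) (inv : (H × H → k) →ₗ[k] k) :
    (V × V → k) →ₗ[k] k where
  toFun c := inv (h56s_sum2 (H ⧸ V) (s.exU2 (chiRep χ) c))
  map_add' c c' := by
    rw [← map_add]
    congr 1
    funext q
    simp only [h56s_sum2, h56s_Sec.exU2, Pi.add_apply, map_add]
    exact finsum_add_distrib (Set.toFinite _) (Set.toFinite _)
  map_smul' a c := by
    rw [RingHom.id_apply, ← map_smul]
    congr 1
    funext q
    simp only [h56s_sum2, h56s_Sec.exU2, Pi.smul_apply, map_smul]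
    exact (smul_finsum a _).symm

end onegroup

end Fermat.Agent.PT.Shap
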