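import Fermat.Agent.PT.Shap.Trace
import Fermat.Agent.PT.Shap.SecVan

/-!
# Pointwise cup products on `X`-valued cochains, the sum pairing, the derivation property of
the prism homotopy

`H` acts on `X`; `τ, τ₁` representations of `H` on `B, B₁`; `β₀ : B × B₁ → k` with
`β₀ (τ h b) (τ₁ h b₁) = χ h * β₀ b b₁`.
-/

set_option autoImplicit false
set_option linter.unusedSectionVars false

namespace Fermat.Agent.PT.Shap

open MulAction

section sums

variable {k : Type} [Field k] {X : Type} [Finite X]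

/-- `Σ_X` as a linear map. -/
noncomputable def h56s_sumX : (X → k) →ₗ[k] k where
  toFun f := ∑ᶠ x, f x
  map_add' _ _ := finsum_add_distrib (Set.toFinite _) (Set.toFinite _)
  map_smul' c _ := (smul_finsum c _).symm

lemma h56s_sumX_apply (f : X → k) : h56s_sumX f = ∑ᶠ x, f x := rfl

lemma h56s_sumX_comp_smul {H : Type} [Group H] [MulAction H X] (h : H) (f : X → k) :
    h56s_sumX (fun x => f (h⁻¹ • x)) = h56s_sumX f :=
  finsum_comp_equiv (MulAction.toPerm h⁻¹)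

variable {B B₁ : Type} [AddCommGroup B] [Module k B] [AddCommGroup B₁] [Module k B₁]

/-- the sum pairing `(f, f') ↦ Σ_x β₀ (f x) (f' x)`. -/
noncomputable def h56s_betaX (β₀ : B →ₗ[k] B₁ →ₗ[k] k) : (X → B) →ₗ[k] (X → B₁) →ₗ[k] k :=
  LinearMap.mk₂ k (fun f f' => h56s_sumX (fun x => β₀ (f x) (f' x)))
    (fun f g f' => by
      rw [← map_add]; congr 1; funext x; simp)
    (fun c f f' => by
      rw [← map_smul]; congr 1; funext x; simp)
    (fun f f' g' => by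
      rw [← map_add]; congr 1; funext x; simp)
    (fun c f f' => by
      rw [← map_smul]; congr 1; funext x; simp)

lemma h56s_betaX_apply (β₀ : B →ₗ[k] B₁ →ₗ[k] k) (f : X → B) (f' : X → B₁) :
    h56s_betaX β₀ f f' = h56s_sumX (fun x => β₀ (f x) (f' x)) := rfl

end sums

section cups

variable {k : Type} [Field k] {H : Type} [Group H] {X : Type} [MulAction H X]
variable {B B₁ : Type} [AddCommGroup B] [Module k B] [AddCommGroup B₁] [Module k B₁]
variable (β₀ : B →ₗ[k] B₁ →ₗ[k] k) (τ : Representation k H B) (τ₁ : Representation k H B₁)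

/-- pointwise cup, degrees `(0,1)`. -/
def h56s_cX01 (m : X → B) (c : H → X → B₁) : H → X → k := fun h x => β₀ (m x) (c h x)
/-- pointwise cup, degrees `(0,2)`. -/
def h56s_cX02 (m : X → B) (Y : H × H → X → B₁) : H × H → X → k := fun q x => β₀ (m x) (Y q x)
/-- pointwise cup, degrees `(1,1)`. -/
def h56s_cX11 (f : H → X → B) (c : H → X → B₁) : H × H → X → k :=
  fun q x => β₀ (f q.1 x) (τ₁ q.1 (c q.2 (q.1⁻¹ • x)))
/-- pointwise cup, degrees `(1,2)`. -/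
def h56s_cX12 (f : H → X → B) (Y : H × H → X → B₁) : H × H × H → X → k :=
  fun q x => β₀ (f q.1 x) (τ₁ q.1 (Y (q.2.1, q.2.2) (q.1⁻¹ • x)))

variable {β₀ τ τ₁}

/-- **Leibniz rule** for the pointwise cup product in degrees `(0,1)`. -/
lemma h56s_leib01 (χ : H →* kˣ) (hβ : ∀ h b b₁, β₀ (τ h b) (τ₁ h b₁) = (χ h : k) * β₀ b b₁)
    (m : X → B) (c : H → X → B₁) :
    d1 (h56s_ind (X := X) (chiRep χ)) (h56s_cX01 β₀ m c)
      = h56s_cX11 β₀ τ₁ (d0 (h56s_ind (X := X) τ) m) c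
        + h56s_cX02 β₀ m (d1 (h56s_ind (X := X) τ₁) c) := by
  funext q x
  obtain ⟨g, h⟩ := q
  simp only [d1_apply, d0_apply, h56s_ind_apply, h56s_cX01, h56s_cX11, h56s_cX02, chiRep_apply,
    Pi.add_apply, Pi.sub_apply, map_sub, map_add, LinearMap.sub_apply, hβ]
  ring

/-- the prism homotopy is a derivation for the pointwise cup product, degrees `(1,2)`. -/
lemma h56s_hh3_cX12 (OD : h56s_OrbitData H X) (f : H → X → B) (Y : H × H → X → B₁) :
    OD.hh3 (h56s_cX12 β₀ τ₁ f Y)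
      = h56s_cX02 β₀ (OD.hh1 f)
          (@h56s_OrbitData.ex2 H X B₁ _ _ _ (h56s_dma τ₁) OD (OD.sh2 Y))
        - h56s_cX11 β₀ τ₁ f (OD.hh2 Y) := by
  funext q x
  obtain ⟨g, h⟩ := q
  have e1 : (OD.sec x)⁻¹ • x = OD.rep x := OD.sec_inv_smul x
  have e2 : (g * h)⁻¹ • x = h⁻¹ • g⁻¹ • x := by rw [mul_inv_rev, mul_smul]
  have e3 : @h56s_OrbitData.ex2 H X B₁ _ _ _ (h56s_dma τ₁) OD (OD.sh2 Y) (g, h) x
      = τ₁ (OD.sec x) (Y (OD.c g x, OD.c h (g⁻¹ • x)) (OD.rep x)) := rfl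
  simp only [h56s_OrbitData.hh3, h56s_OrbitData.hh2, h56s_OrbitData.hh1, h56s_cX12, h56s_cX02,
    h56s_cX11, Pi.sub_apply, map_sub, e1, e2, e3]
  abel

/-- `ex` is multiplicative for the pointwise cup product, degrees `(0,2)`. -/
lemma h56s_ex2_cup02 (OD : h56s_OrbitData H X) (χ : H →* kˣ)
    (hβ : ∀ h b b₁, β₀ (τ h b) (τ₁ h b₁) = (χ h : k) * β₀ b b₁)
    (b : OD.W → B) (ψ : (w : OD.W) → stabilizer H w.1 × stabilizer H w.1 → B₁) :
    @h56s_OrbitData.ex2 H X k _ _ _ (h56s_dma (chiRep χ)) OD (fun w q => β₀ (b w) (ψ w q))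
      = h56s_cX02 β₀ (@h56s_OrbitData.ex0 H X B _ _ _ (h56s_dma τ) OD b)
          (@h56s_OrbitData.ex2 H X B₁ _ _ _ (h56s_dma τ₁) OD ψ) := by
  funext q x
  change chiRep χ (OD.sec x) _ = β₀ (τ (OD.sec x) _) (τ₁ (OD.sec x) _)
  rw [hβ, chiRep_apply]

/-- `ex` is multiplicative for the pointwise cup product, degrees `(0,1)`. -/
lemma h56s_ex1_cup01 (OD : h56s_OrbitData H X) (χ : H →* kˣ)
    (hβ : ∀ h b b₁, β₀ (τ h b) (τ₁ h b₁) = (χ h : k) * β₀ b b₁)
    (b : OD.W → B) (ψ : (w : OD.W) → stabilizer H w.1 → B₁) :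
    @h56s_OrbitData.ex1 H X k _ _ _ (h56s_dma (chiRep χ)) OD (fun w q => β₀ (b w) (ψ w q))
      = h56s_cX01 β₀ (@h56s_OrbitData.ex0 H X B _ _ _ (h56s_dma τ) OD b)
          (@h56s_OrbitData.ex1 H X B₁ _ _ _ (h56s_dma τ₁) OD ψ) := by
  funext q x
  change chiRep χ (OD.sec x) _ = β₀ (τ (OD.sec x) _) (τ₁ (OD.sec x) _)
  rw [hβ, chiRep_apply]

end cups

section global

variable {k : Type} [Field k] {G : Type} [Group G] {U : Subgroup G} (s : h56s_Sec G U)
variable {B B₁ : Type} [AddCommGroup B] [Module k B] [AddCommGroup B₁] [Module k B₁]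
variable {β₀ : B →ₗ[k] B₁ →ₗ[k] k} {τ : Representation k G B} {τ₁ : Representation k G B₁}

lemma h56s_Sec.gsec_mul_cc (g : G) (x : G ⧸ U) :
    s.gsec x * (s.cc g x : G) = g * s.gsec (g⁻¹ • x) := by
  simp [mul_assoc]

/-- `exU` is multiplicative for the cup product, degrees `(1,2)`. -/
lemma h56s_exU3_cup12 (χ : G →* kˣ)
    (hβ : ∀ h b b₁, β₀ (τ h b) (τ₁ h b₁) = (χ h : k) * β₀ b b₁)
    (a : U → B) (y : U × U → B₁) :
    s.exU3 (chiRep χ) (cup12 β₀ (resRep τ₁ U.subtype) a y)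
      = h56s_cX12 β₀ τ₁ (s.exU1 τ a) (s.exU2 τ₁ y) := by
  funext q x
  obtain ⟨g, h, j⟩ := q
  have e2 : (g * h)⁻¹ • x = h⁻¹ • g⁻¹ • x := by rw [mul_inv_rev, mul_smul]
  simp only [h56s_Sec.exU3, h56s_Sec.exU1, h56s_Sec.exU2, h56s_cX12, cup12_apply, resRep_apply,
    Subgroup.coe_subtype, chiRep_apply, e2]
  rw [← hβ]
  congr 1
  rw [← Module.End.mul_apply, ← Module.End.mul_apply, ← map_mul, ← map_mul, s.gsec_mul_cc]

/-- `exU` is multiplicative for the cup product, degrees `(0,2)`. -/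
lemma h56s_exU2_cup02 (χ : G →* kˣ)
    (hβ : ∀ h b b₁, β₀ (τ h b) (τ₁ h b₁) = (χ h : k) * β₀ b b₁)
    (a : B) (y : U × U → B₁) :
    s.exU2 (chiRep χ) (cup02 β₀ a y)
      = h56s_cX02 β₀ (s.exU0 τ a) (s.exU2 τ₁ y) := by
  funext q x
  obtain ⟨g, h⟩ := q
  simp only [h56s_Sec.exU2, h56s_Sec.exU0, h56s_cX02, cup02_apply, chiRep_apply]
  rw [← hβ]

end global

end Fermat.Agent.PT.Shap
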